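import Fermat.Agent.S43.I.WAExport
import Fermat.Agent.S43.I.Tor
import Fermat.Agent.SS.Formal.Norm
import Fermat.Agent.SS.Formal.RedUp

/-!
# S43 / D / NT : the norm trick

Level `M q`, `q ∤ M`, `A ∣ q`, exponent `m` prime to `q`.  A class `x ∈ Kum (M q) m` which is constant modulo `v_∞`
(`S33.InK1 A x`) and whose norm to level `M` vanishes is toric; in particular it is fixed by the inertia group of `A`.

`Nm_α f (t^q) = f (t^q) ∏_ζ (w f)(ζ t)`, so `T := (w f)^q / β (Nm_α f)` is `≡ 1` modulo `v_∞`; if `Nm_α f = h ^ m` and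
`a m + b q = 1` then `w f = T ^ b * ((w f) ^ a * (β h) ^ b) ^ m`.
-/

set_option autoImplicit false

open AlgebraicCurve ModularCurve

namespace Fermat.Agent.S43.DN

open Fermat.Agent.ES Fermat.Agent.SS Fermat.Agent.S33 Fermat.Agent.S43.I

noncomputable section

variable {M q : ℕ} [NeZero M] [NeZero q] {w : FF (M * q) →ₐ[Qb] FF (M * q)}
  {A : ValuationSubring Qb} {m : ℕ}

theorem redUp_of_redConst {N : ℕ} {u : FF N} (h : RedConst A u) :
    RedUp A (u : LaurentSeries Qb) 1 := by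
  obtain ⟨c, y₁, y₂, hc, -, -, heq, hne, e⟩ := h
  exact ⟨c, hc, y₁, y₂, hne, e, by rw [heq, one_mul]⟩

theorem redUp_zpow_one {x : LaurentSeries Qb} (h : RedUp A x 1) (n : ℤ) : RedUp A (x ^ n) 1 := by
  cases n with
  | ofNat n =>
    have := h.pow n
    rw [one_pow] at this
    simpa using this
  | negSucc n =>
    rw [zpow_negSucc]
    have h1 := h.pow (n + 1)
    rw [one_pow] at h1
    have h2 := h1.inv one_ne_zero
    rwa [inv_one] at h2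

/-- `(w f)^q / β (Nm_α f) ≡ 1` if `f ≡ 1`. -/
theorem redUp_T (hq : q.Prime) (hqM : ¬ q ∣ M) (hw : IsAL M q w) (hA : A.LiesOverPrime q)
    (f : FF (M * q)) (hf : f ≠ 0) (hred : RedConst A f) :
    RedUp A (((w f ^ q * (heckeBetaBar Qb M q (normA M q f))⁻¹ : FF (M * q))) : LaurentSeries Qb) 1 := by
  have : NeZero (M * q) := ⟨Nat.mul_ne_zero (NeZero.ne M) (NeZero.ne q)⟩
  have hwf : w f ≠ 0 := by
    rw [Ne, map_eq_zero]; exact hf
  obtain ⟨r, hr, hwr⟩ := exists_redUp A (w f) hwf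
  have h1 : RedUp A (Vq Qb q (f : LaurentSeries Qb)) 1 := by
    have := (redUp_of_redConst hred).vq q
    rwa [map_one] at this
  have h2 := h1.mul (hwr.tprod hq hA)
  rw [← Vq_normA hq hqM hw f, one_mul] at h2
  have h3 := (hwr.pow q).mul (h2.inv (pow_ne_zero q hr))
  rw [mul_inv_cancel₀ (pow_ne_zero q hr)] at h3
  refine h3.congr ?_ rfl
  push_cast
  rw [coe_heckeBetaBar]

/-- **(NT1)** -/
theorem inK1_w (hq : q.Prime) (hqM : ¬ q ∣ M) (hqm : ¬ q ∣ m) (hw : IsAL M q w)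
    (hA : A.LiesOverPrime q) {x : Kum (M * q) m} (hx : InK1 A x) (hnm : nmKum M q m x = 0) :
    InK1 A (wKum hw hq m x) := by
  have : NeZero (M * q) := ⟨Nat.mul_ne_zero (NeZero.ne M) (NeZero.ne q)⟩
  obtain ⟨f, rfl, hred⟩ := hx
  rw [nmKum_mk, Kum.mk_eq_zero_iff] at hnm
  obtain ⟨h, hh⟩ := hnm
  have hh' : h ^ m = normU M q (f : (FF (M * q))ˣ) := hh
  -- Bezout
  have hcop : IsCoprime (m : ℤ) (q : ℤ) := by
    rw [Nat.isCoprime_iff_coprime]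
    exact ((Nat.Prime.coprime_iff_not_dvd hq).mpr hqm).symm
  obtain ⟨a, b, hab⟩ := hcop
  -- the unit `T`
  obtain ⟨T, hT⟩ : ∃ T : (FF (M * q))ˣ,
      T = wU w (f : (FF (M * q))ˣ) ^ q * (betaU M q (normU M q (f : (FF (M * q))ˣ)))⁻¹ := ⟨_, rfl⟩
  have hTred : RedUp A (((T : (FF (M * q))ˣ) : FF (M * q)) : LaurentSeries Qb) 1 := by
    have := redUp_T hq hqM hw hA ((f : (FF (M * q))ˣ) : FF (M * q)) (f : (FF (M * q))ˣ).ne_zero hred
    rw [hT]
    simpa using this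
  have hrel : wU w (f : (FF (M * q))ˣ)
      = T ^ b * (wU w (f : (FF (M * q))ˣ) ^ a * betaU M q h ^ b) ^ m := by
    have e1 : betaU M q (normU M q (f : (FF (M * q))ˣ)) = betaU M q h ^ m := by
      rw [← hh', map_pow]
    rw [hT, e1]
    have e2 : wU w (f : (FF (M * q))ˣ) = wU w (f : (FF (M * q))ˣ) ^ (a * (m : ℤ) + b * (q : ℤ)) := by
      rw [hab, zpow_one]
    generalize wU w (f : (FF (M * q))ˣ) = X at e2 ⊢
    generalize betaU M q h = Y
    rw [mul_zpow, mul_pow, ← zpow_natCast (X ^ a) m, ← zpow_mul, ← zpow_natCast (Y ^ b) m, ← zpow_mul,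
      ← zpow_natCast X q, ← zpow_mul, inv_zpow, ← zpow_natCast Y m, ← zpow_mul]
    have e3 : X ^ ((q : ℤ) * b) * (Y ^ ((m : ℤ) * b))⁻¹ * (X ^ (a * (m : ℤ)) * Y ^ (b * (m : ℤ)))
        = X ^ (a * (m : ℤ) + b * (q : ℤ)) := by
      rw [zpow_add, mul_comm (m : ℤ) b, mul_comm (q : ℤ) b]
      calc X ^ (b * (q : ℤ)) * (Y ^ (b * (m : ℤ)))⁻¹ * (X ^ (a * (m : ℤ)) * Y ^ (b * (m : ℤ)))
          = X ^ (a * (m : ℤ)) * X ^ (b * (q : ℤ)) * ((Y ^ (b * (m : ℤ)))⁻¹ * Y ^ (b * (m : ℤ))) := by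
            ac_rfl
        _ = X ^ (a * (m : ℤ)) * X ^ (b * (q : ℤ)) := by rw [inv_mul_cancel, mul_one]
    rw [e3, ← e2]
  have hTb : T ^ b ∈ Dm (M * q) m := by
    have h1 : T ^ b = wU w (f : (FF (M * q))ˣ)
        * ((wU w (f : (FF (M * q))ˣ) ^ a * betaU M q h ^ b) ^ m)⁻¹ := by
      rw [eq_mul_inv_iff_mul_eq]; exact hrel.symm
    rw [h1]
    exact (Dm (M * q) m).mul_mem (hw.wU_mem_Dm hq f.2)
      ((Dm (M * q) m).inv_mem (Pw_le_Dm (M * q) m ⟨_, rfl⟩))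
  refine ⟨⟨T ^ b, hTb⟩, ?_, ?_⟩
  · rw [wKum_mk, Kum.mk_eq_mk_iff]
    refine ⟨(wU w (f : (FF (M * q))ˣ) ^ a * betaU M q h ^ b)⁻¹, ?_⟩
    show _ = T ^ b * (wU w (f : (FF (M * q))ˣ))⁻¹
    conv_rhs => rw [hrel]
    generalize wU w (f : (FF (M * q))ˣ) ^ a * betaU M q h ^ b = Z
    rw [inv_pow, mul_inv, mul_inv_cancel_left]
  · apply redConst_of_redUp
    have := redUp_zpow_one hTred b
    show RedUp A ((((T ^ b : (FF (M * q))ˣ)) : FF (M * q)) : LaurentSeries Qb) 1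
    rw [Units.val_zpow_eq_zpow_val]
    exact this

/-- **(NT2)** -/
theorem mem_tor_of_inK1 (hq : q.Prime) (hqM : ¬ q ∣ M) (hqm : ¬ q ∣ m) (hw : IsAL M q w)
    (hA : A.LiesOverPrime q) {x : Kum (M * q) m} (hx : InK1 A x) (hnm : nmKum M q m x = 0) :
    x ∈ Tor A w m :=
  wa M q m hq hqM A hA w hw x hx (inK1_w hq hqM hqm hw hA hx hnm)

/-- **(NT3)** -/
theorem gal_of_inK1 (hq : q.Prime) (hqM : ¬ q ∣ M) (hqm : ¬ q ∣ m) (hw : IsAL M q w)
    (hA : A.LiesOverPrime q) {x : Kum (M * q) m} (hx : InK1 A x) (hnm : nmKum M q m x = 0)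
    {σ : GQ} (hσ : σ ∈ A.inertiaSubgroupIn ℚ) : galKum (M * q) m σ x = x :=
  gal_of_mem_tor hq hqM hqm hw hA hσ (mem_tor_of_inK1 hq hqM hqm hw hA hx hnm)

end

end Fermat.Agent.S43.DN
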