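import Fermat.Agent.S43.D.PInst
import Fermat.Agent.S43.D.NT
import Fermat.Agent.S43.S1.Gen
import Fermat.Agent.S43.Th.Bridge

/-!
# S43 / D / DStar : the consumer form `(d*)` of the exact (d)

`v` in the `θ`-part of `Kum (M q) (p ^ K)`; if `π^* v ∈ K_∞` (`S1.Koo`: a representative all of whose diamond translates are
constant modulo the Gauss valuation of `A ∣ q`), then `v` is fixed by the inertia group of `A`.

`(T_ℓ - ℓ - 1) v` is constant modulo `v_∞` on `X₀(M q)` (`DPI.exact_d_pow`), lies in the `θ`-part, so its norm to level `M`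
vanishes and it is inertia invariant (`DN.gal_of_inK1`); `T_ℓ - ℓ - 1 = (T_ℓ - a_ℓ) + (a_ℓ - ℓ - 1)` is (nilpotent) + (unit).
-/

set_option autoImplicit false
set_option linter.unusedSectionVars false

open AlgebraicCurve ModularCurve

namespace Fermat.Agent.S43.DPI

open Fermat.Agent.S48
open Fermat.Agent.ES (Qb GQ FF)
open Fermat.Agent.SS (IsAL)

noncomputable section

/-- (nilpotent) + (unit) reflects membership in a stable subgroup. -/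
theorem pow_smul_mem_of_nil {X : Type*} [AddCommGroup X] (W : AddSubgroup X) (D : X →+ X) (c : ℤ)
    (hW : ∀ x ∈ W, D x ∈ W) : ∀ (n : ℕ) (x : X), D x + c • x ∈ W → D^[n] x ∈ W → c ^ n • x ∈ W := by
  intro n
  induction n with
  | zero =>
    intro x _ h
    simpa using h
  | succ n ih =>
    intro x hE hn
    have h1 : D (D x) + c • D x ∈ W := by
      have := hW _ hE
      rwa [map_add, map_zsmul] at this
    have h2 := ih (D x) h1 (by rwa [Function.iterate_succ_apply] at hn)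
    have h3 : c ^ (n + 1) • x = c ^ n • (D x + c • x) - c ^ n • D x := by
      rw [smul_add, add_sub_cancel_left, smul_smul, pow_succ]
    rw [h3]
    exact W.sub_mem (W.zsmul_mem hE _) h2

theorem mem_of_nil {X : Type*} [AddCommGroup X] (W : AddSubgroup X) (D : X →+ X) (c : ℤ)
    (hW : ∀ x ∈ W, D x ∈ W) {p K : ℕ} (hp : p.Prime) (hc : ¬ (p : ℤ) ∣ c) {x : X}
    (hx : p ^ K • x = 0) (n : ℕ) (hn : D^[n] x = 0) (hE : D x + c • x ∈ W) : x ∈ W := by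
  have h1 := pow_smul_mem_of_nil W D c hW n x hE (by rw [hn]; exact W.zero_mem)
  have hcop : IsCoprime (c ^ n) ((p : ℤ) ^ K) :=
    IsCoprime.pow (((Nat.prime_iff_prime_int.mp hp).coprime_iff_not_dvd.mpr hc).symm)
  obtain ⟨u, t, hut⟩ := hcop
  have h2 : x = u • (c ^ n • x) + t • (((p : ℤ) ^ K) • x) := by
    rw [smul_smul, smul_smul, ← add_smul, hut, one_smul]
  have h3 : ((p : ℤ) ^ K) • x = 0 := by
    have : ((p : ℤ) ^ K) = ((p ^ K : ℕ) : ℤ) := by push_cast; rfl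
    rw [this, natCast_zsmul, hx]
  rw [h2, h3, smul_zero, add_zero]
  exact W.zsmul_mem h1 u

variable {M q : ℕ} [NeZero M] [NeZero q] {w : FF (M * q) →ₐ[Qb] FF (M * q)}
  {A : ValuationSubring Qb}

/-- the inertia invariants. -/
def InvI (A : ValuationSubring Qb) (N m : ℕ) [NeZero N] : AddSubgroup (Fermat.Agent.ES.Kum N m) where
  carrier := {x | ∀ s ∈ A.inertiaSubgroupIn ℚ, Fermat.Agent.ES.galKum N m s x = x}
  add_mem' := by
    intro x y hx hy s hs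
    rw [map_add, hx s hs, hy s hs]
  zero_mem' := fun s _ => map_zero _
  neg_mem' := by
    intro x hx s hs
    rw [map_neg, hx s hs]

/-- **(d\*)**, with `InKooU`. -/
theorem dstarU {p : ℕ} (hN : 5 ≤ M * q) (hp : p.Prime) (hq : q.Prime) (hqM : ¬ q ∣ M) (hpq : p ≠ q)
    (hw : IsAL M q w) (hA : A.LiesOverPrime q) {S : Finset ℕ}
    (hMS : ∀ r : ℕ, r.Prime → r ∣ M * q → r ∈ S) (hpS : p ∈ S) {a : ℕ → ℤ}
    (hSep : Fermat.Agent.S43.Sep M p S (fun r hr h => hMS r hr (h.mul_right q)) a)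
    {ℓ : ℕ} (hℓ : ℓ.Prime) (hℓS : ℓ ∉ S) (hnE : ¬ (p : ℤ) ∣ a ℓ - ℓ - 1) (K : ℕ)
    {v : Fermat.Agent.ES.Kum (M * q) (p ^ K)} (hv : v ∈ Fin.Vth (M * q) (p ^ K) S a)
    (hK : InKooU A hN (p ^ K) (R0.pull hN (p ^ K) v)) {s : GQ} (hs : s ∈ A.inertiaSubgroupIn ℚ) :
    Fermat.Agent.ES.galKum (M * q) (p ^ K) s v = v := by
  haveI : NeZero ℓ := ⟨hℓ.ne_zero⟩
  have hℓN : ¬ ℓ ∣ M * q := fun h => hℓS (hMS ℓ hℓ h)
  have hℓq : ℓ ≠ q := by
    rintro rfl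
    exact hℓN (dvd_mul_left _ _)
  have hqm : ¬ q ∣ p ^ K := fun h =>
    hpq ((Nat.prime_dvd_prime_iff_eq hq hp).mp (hq.dvd_of_dvd_pow h)).symm
  have h1 := exact_d_pow A hN hp hq hpq hA ⟨ℓ, hℓ, hℓN⟩ hℓq K v hK
  have hT : Fermat.Agent.ES.heckeKum (M * q) ℓ hℓ hℓN (p ^ K) v ∈ Fin.Vth (M * q) (p ^ K) S a :=
    Th.fin_hecke_mem hMS hℓ hℓN hv
  have hy : Fermat.Agent.ES.heckeKum (M * q) ℓ hℓ hℓN (p ^ K) v - (ℓ + 1) • v
      ∈ Fin.Vth (M * q) (p ^ K) S a :=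
    AddSubgroup.sub_mem _ hT (AddSubgroup.nsmul_mem _ hv _)
  have hnm := Th.fin_nmKum_eq_zero hMS hp hpS hq hqM hSep hy
  have hE : Fermat.Agent.ES.heckeKum (M * q) ℓ hℓ hℓN (p ^ K) v - (ℓ + 1) • v
      ∈ InvI A (M * q) (p ^ K) := fun s hs => DN.gal_of_inK1 hq hqM hqm hw hA h1 hnm hs
  obtain ⟨n, hn⟩ := hv ℓ hℓ hℓN hℓS
  have hmem : v ∈ InvI A (M * q) (p ^ K) := by
    refine mem_of_nil (InvI A (M * q) (p ^ K)) (Fin.hk (M * q) (p ^ K) a ℓ hℓ hℓN) (a ℓ - ℓ - 1)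
      ?_ hp hnE (Fermat.Agent.ES.Kum.nsmul_eq_zero v) n hn ?_
    · intro x hx s hs
      rw [Fin.hk_apply, map_sub, map_zsmul, Fermat.Agent.ES.galKum_heckeKum, hx s hs]
    · have e1 : Fin.hk (M * q) (p ^ K) a ℓ hℓ hℓN v + (a ℓ - ℓ - 1) • v
          = Fermat.Agent.ES.heckeKum (M * q) ℓ hℓ hℓN (p ^ K) v - (ℓ + 1) • v := by
        rw [Fin.hk_apply, sub_smul, sub_smul, one_smul, natCast_zsmul, add_smul, one_smul]
        abel
      rw [e1]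
      exact hE
  exact hmem s hs

theorem inKooU_iff (hN : 5 ≤ M * q) {m : ℕ} {z : B1.Kum Qb (X1.F1Q (M * q)).F m} :
    InKooU A hN m z ↔ z ∈ S1.Koo (R0.HD hN) A m := Iff.rfl

/-- **(d\*)**, with `S1.Koo`. -/
theorem dstar {p : ℕ} (hN : 5 ≤ M * q) (hp : p.Prime) (hq : q.Prime) (hqM : ¬ q ∣ M) (hpq : p ≠ q)
    (hw : IsAL M q w) (hA : A.LiesOverPrime q) {S : Finset ℕ}
    (hMS : ∀ r : ℕ, r.Prime → r ∣ M * q → r ∈ S) (hpS : p ∈ S) {a : ℕ → ℤ}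
    (hSep : Fermat.Agent.S43.Sep M p S (fun r hr h => hMS r hr (h.mul_right q)) a)
    {ℓ : ℕ} (hℓ : ℓ.Prime) (hℓS : ℓ ∉ S) (hnE : ¬ (p : ℤ) ∣ a ℓ - ℓ - 1) (K : ℕ)
    {v : Fermat.Agent.ES.Kum (M * q) (p ^ K)} (hv : v ∈ Fin.Vth (M * q) (p ^ K) S a)
    (hK : R0.pull hN (p ^ K) v ∈ S1.Koo (R0.HD hN) A (p ^ K)) {s : GQ}
    (hs : s ∈ A.inertiaSubgroupIn ℚ) :
    Fermat.Agent.ES.galKum (M * q) (p ^ K) s v = v :=
  dstarU hN hp hq hqM hpq hw hA hMS hpS hSep hℓ hℓS hnE K hv ((inKooU_iff hN).mpr hK) hs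

/-- **(d\*)** for a context. -/
theorem ctx_dstar {p : ℕ} (C : Fin.Ctx M q p) (hN : 5 ≤ M * q) (K : ℕ)
    {v : Fermat.Agent.ES.Kum (M * q) (p ^ K)} (hv : v ∈ Fin.Vth (M * q) (p ^ K) C.S C.a)
    (hK : R0.pull hN (p ^ K) v ∈ S1.Koo (R0.HD hN) C.A (p ^ K)) {s : GQ}
    (hs : s ∈ C.A.inertiaSubgroupIn ℚ) :
    Fermat.Agent.ES.galKum (M * q) (p ^ K) s v = v := by
  obtain ⟨ℓ, hℓ, hℓS, hnE⟩ := C.hnE
  have hMS : ∀ r : ℕ, r.Prime → r ∣ M * q → r ∈ C.S := by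
    intro r hr h
    rcases (Nat.Prime.dvd_mul hr).mp h with h | h
    · exact C.hMS r hr h
    · rw [(Nat.prime_dvd_prime_iff_eq hr C.hq).mp h]
      exact C.hqS
  have hne : M ≠ M * q := by
    intro h
    have h1 : M * 1 = M * q := by rw [mul_one]; exact h
    exact C.hq.one_lt.ne (Nat.eq_of_mul_eq_mul_left (Nat.pos_of_ne_zero (NeZero.ne M)) h1)
  exact dstar hN C.hp C.hq C.hqM C.hqp.symm C.hw C.hA hMS C.hpS
    (C.hSep M (fun r hr h => hMS r hr (h.mul_right q)) (dvd_mul_right M q) hne) hℓ hℓS hnE K hv hK hs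

/-- **(d\*)** for the tame generator. -/
theorem ctx_dstar_Sg {p : ℕ} (C : Fin.Ctx M q p) (hN : 5 ≤ M * q) (K : ℕ)
    {v : Fermat.Agent.ES.Kum (M * q) (p ^ K)} (hv : v ∈ Fin.Vth (M * q) (p ^ K) C.S C.a)
    (hK : R0.pull hN (p ^ K) v ∈ S1.Koo (R0.HD hN) C.A (p ^ K)) :
    Fermat.Agent.ES.galKum (M * q) (p ^ K) C.Sg v = v :=
  ctx_dstar C hN K hv hK C.hSg.1

end

end Fermat.Agent.S43.DPI
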