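import Fermat.Agent.SS.Formal.RedUp

/-!
# S43 / D / Abs : statement (d), generic form

`E₁ ≤ E₂` two subfields of `ℚ̄((t))` containing `ℚ̄`, `A` a valuation ring of `ℚ̄`, `v` the Gauss valuation attached to
`A((t))` (`SS.RedTo`).  `resE A E` is the residue field of `(E, v)`, a subfield of `k_A((t))`.

* `card_le`  : the fundamental inequality `[res E₂ : res E₁] ≤ [E₂ : E₁]`;
* `main_abs` : there is `d`, `0 < d ≤ [E₂ : E₁]`, such that for all `m`, all `f ∈ E₁ˣ`, `y ∈ E₂ˣ` with `f y ^ m` constant modulo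
  `v`, there is `y' ∈ E₁ˣ` with `f ^ d y' ^ m` constant modulo `v` (norm from `res E₂` to `res E₁`).

No hypothesis on the decomposition of `v` in `E₂ / E₁` is needed.
-/

set_option autoImplicit false

open AlgebraicCurve ModularCurve

namespace Fermat.Agent.S43.DN

open Fermat.Agent.ES Fermat.Agent.SS

noncomputable section

variable {A : ValuationSubring Qb}

/-- `k_A((t))`. -/
abbrev Lk (A : ValuationSubring Qb) : Type := LaurentSeries (kA A)

variable {x x' : LaurentSeries Qb} {r r' : Lk A}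

theorem redTo_zero : RedTo A 0 0 := by
  refine ⟨0, 1, ?_, ?_, ?_⟩
  · rw [map_one]; exact one_ne_zero
  · rw [map_zero, zero_mul]
  · rw [map_zero, zero_mul]

theorem redTo_add (h : RedTo A x r) (h' : RedTo A x' r') : RedTo A (x + x') (r + r') := by
  obtain ⟨y₁, y₂, h0, h1, h2⟩ := h
  obtain ⟨z₁, z₂, k0, k1, k2⟩ := h'
  refine ⟨y₁ * z₂ + z₁ * y₂, y₂ * z₂, ?_, ?_, ?_⟩
  · rw [map_mul]; exact mul_ne_zero h0 k0
  · rw [map_add, map_mul, map_mul, map_mul, ← h1, ← k1]; ring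
  · rw [map_add, map_mul, map_mul, map_mul, h2, k2]; ring

theorem redTo_neg (h : RedTo A x r) : RedTo A (-x) (-r) := by
  obtain ⟨y₁, y₂, h0, h1, h2⟩ := h
  refine ⟨-y₁, y₂, h0, ?_, ?_⟩
  · rw [map_neg, ← h1]; ring
  · rw [map_neg, h2]; ring

theorem redTo_sum {ι : Type*} (s : Finset ι) (X : ι → LaurentSeries Qb) (R : ι → Lk A)
    (h : ∀ i ∈ s, RedTo A (X i) (R i)) : RedTo A (∑ i ∈ s, X i) (∑ i ∈ s, R i) := by
  classical
  induction s using Finset.induction_on with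
  | empty => simpa using redTo_zero
  | insert a s ha ih =>
    rw [Finset.sum_insert ha, Finset.sum_insert ha]
    exact redTo_add (h a (Finset.mem_insert_self a s))
      (ih fun i hi => h i (Finset.mem_insert_of_mem hi))

/-- Gauss-integral. -/
def IsInt (A : ValuationSubring Qb) (x : LaurentSeries Qb) : Prop := ∃ r : Lk A, RedTo A x r

/-- every nonzero element of `E` has, up to a constant, a nonzero reduction. -/
def Piv (A : ValuationSubring Qb) (E : IntermediateField Qb (LaurentSeries Qb)) : Prop :=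
  ∀ x ∈ E, x ≠ 0 → ∃ (c : Qb) (r : Lk A), c ≠ 0 ∧ r ≠ 0 ∧ RedTo A (cst c * x) r

theorem Piv.mono {E₁ E₂ : IntermediateField Qb (LaurentSeries Qb)} (hle : E₁ ≤ E₂) (h : Piv A E₂) :
    Piv A E₁ := fun x hx => h x (hle hx)

theorem Piv.int_or {E : IntermediateField Qb (LaurentSeries Qb)} (h : Piv A E) (hx : x ∈ E)
    (hx0 : x ≠ 0) : IsInt A x ∨ IsInt A x⁻¹ := by
  obtain ⟨c, r, hc, hr, hred⟩ := h x hx hx0
  have hc' : cst c ≠ 0 := (map_ne_zero _).2 hc
  rcases A.mem_or_inv_mem c with hcA | hcA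
  · right
    refine ⟨_, ((RedTo.cst_of_mem ⟨c, hcA⟩).mul (hred.inv hr)).congr ?_ rfl⟩
    show cst c * (cst c * x)⁻¹ = x⁻¹
    rw [mul_inv, mul_inv_cancel_left₀ hc']
  · left
    refine ⟨_, ((RedTo.cst_of_mem ⟨c⁻¹, hcA⟩).mul hred).congr ?_ rfl⟩
    show cst c⁻¹ * (cst c * x) = x
    rw [cst, cst, map_inv₀, inv_mul_cancel_left₀ hc']

theorem IsInt.mul (h : IsInt A x) (h' : IsInt A x') : IsInt A (x * x') := by
  obtain ⟨r, h⟩ := h
  obtain ⟨r', h'⟩ := h'
  exact ⟨_, h.mul h'⟩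

/-- a finite family, not identically zero, has an element of largest Gauss norm. -/
theorem Piv.exists_max {E : IntermediateField Qb (LaurentSeries Qb)} (h : Piv A E) {ι : Type*}
    (s : Finset ι) (a : ι → LaurentSeries Qb) (ha : ∀ i ∈ s, a i ∈ E) (hne : ∃ i ∈ s, a i ≠ 0) :
    ∃ i₀ ∈ s, a i₀ ≠ 0 ∧ ∀ i ∈ s, IsInt A (a i * (a i₀)⁻¹) := by
  classical
  induction s using Finset.induction_on with
  | empty => obtain ⟨i, hi, -⟩ := hne; simp at hi
  | insert j s hj ih =>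
    have haj : a j ∈ E := ha j (Finset.mem_insert_self j s)
    have has : ∀ i ∈ s, a i ∈ E := fun i hi => ha i (Finset.mem_insert_of_mem hi)
    by_cases hs : ∃ i ∈ s, a i ≠ 0
    · obtain ⟨i₀, hi₀, h0, hmax⟩ := ih has hs
      by_cases hj0 : a j = 0
      · refine ⟨i₀, Finset.mem_insert_of_mem hi₀, h0, fun i hi => ?_⟩
        rcases Finset.mem_insert.mp hi with rfl | hi
        · rw [hj0, zero_mul]; exact ⟨0, redTo_zero⟩
        · exact hmax i hi
      · rcases h.int_or (mul_mem haj (inv_mem (has i₀ hi₀))) (mul_ne_zero hj0 (inv_ne_zero h0))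
          with hint | hint
        · refine ⟨i₀, Finset.mem_insert_of_mem hi₀, h0, fun i hi => ?_⟩
          rcases Finset.mem_insert.mp hi with rfl | hi
          · exact hint
          · exact hmax i hi
        · refine ⟨j, Finset.mem_insert_self j s, hj0, fun i hi => ?_⟩
          rcases Finset.mem_insert.mp hi with rfl | hi
          · rw [mul_inv_cancel₀ hj0]; exact ⟨1, RedTo.one⟩
          · have := (hmax i hi).mul hint
            have e : a i * (a i₀)⁻¹ * (a j * (a i₀)⁻¹)⁻¹ = a i * (a j)⁻¹ := by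
              rw [mul_inv, inv_inv]
              field_simp
            rwa [e] at this
    · push Not at hs
      have hj0 : a j ≠ 0 := by
        obtain ⟨i, hi, hi0⟩ := hne
        rcases Finset.mem_insert.mp hi with rfl | hi
        · exact hi0
        · exact absurd (hs i hi) hi0
      refine ⟨j, Finset.mem_insert_self j s, hj0, fun i hi => ?_⟩
      rcases Finset.mem_insert.mp hi with rfl | hi
      · rw [mul_inv_cancel₀ hj0]; exact ⟨1, RedTo.one⟩
      · rw [hs i hi, zero_mul]; exact ⟨0, redTo_zero⟩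

/-- the residue field of `(E, v)`. -/
def resE (A : ValuationSubring Qb) (E : IntermediateField Qb (LaurentSeries Qb)) :
    Subfield (Lk A) where
  carrier := {r | ∃ x ∈ E, RedTo A x r}
  mul_mem' := by
    rintro r r' ⟨x, hx, h⟩ ⟨x', hx', h'⟩
    exact ⟨x * x', mul_mem hx hx', h.mul h'⟩
  one_mem' := ⟨1, one_mem _, RedTo.one⟩
  add_mem' := by
    rintro r r' ⟨x, hx, h⟩ ⟨x', hx', h'⟩
    exact ⟨x + x', add_mem hx hx', redTo_add h h'⟩
  zero_mem' := ⟨0, zero_mem _, redTo_zero⟩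
  neg_mem' := by
    rintro r ⟨x, hx, h⟩
    exact ⟨-x, neg_mem hx, redTo_neg h⟩
  inv_mem' := by
    rintro r ⟨x, hx, h⟩
    by_cases hr : r = 0
    · subst hr
      rw [inv_zero]
      exact ⟨0, zero_mem _, redTo_zero⟩
    · exact ⟨x⁻¹, inv_mem hx, h.inv hr⟩

theorem mem_resE {E : IntermediateField Qb (LaurentSeries Qb)} :
    r ∈ resE A E ↔ ∃ x ∈ E, RedTo A x r := Iff.rfl

/-- the residue field of `(E₂, v)` as an extension of the residue field of `(E₁, v)`. -/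
def resI (A : ValuationSubring Qb) {E₁ E₂ : IntermediateField Qb (LaurentSeries Qb)}
    (hle : E₁ ≤ E₂) : IntermediateField (resE A E₁) (Lk A) where
  carrier := {r | ∃ x ∈ E₂, RedTo A x r}
  mul_mem' := by
    rintro r r' ⟨x, hx, h⟩ ⟨x', hx', h'⟩
    exact ⟨x * x', mul_mem hx hx', h.mul h'⟩
  one_mem' := ⟨1, one_mem _, RedTo.one⟩
  add_mem' := by
    rintro r r' ⟨x, hx, h⟩ ⟨x', hx', h'⟩
    exact ⟨x + x', add_mem hx hx', redTo_add h h'⟩
  zero_mem' := ⟨0, zero_mem _, redTo_zero⟩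
  algebraMap_mem' := by
    rintro ⟨r, x, hx, h⟩
    exact ⟨x, hle hx, h⟩
  inv_mem' := by
    rintro r ⟨x, hx, h⟩
    by_cases hr : r = 0
    · subst hr
      rw [inv_zero]
      exact ⟨0, zero_mem _, redTo_zero⟩
    · exact ⟨x⁻¹, inv_mem hx, h.inv hr⟩

theorem mem_resI {E₁ E₂ : IntermediateField Qb (LaurentSeries Qb)} (hle : E₁ ≤ E₂) :
    r ∈ resI A hle ↔ ∃ x ∈ E₂, RedTo A x r := Iff.rfl

/-- `[E₂ : E₁] ≤ n`, in raw form. -/
def LinBound (E₁ E₂ : IntermediateField Qb (LaurentSeries Qb)) (n : ℕ) : Prop :=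
  ∀ (ι : Type) [Fintype ι] (X : ι → LaurentSeries Qb), (∀ i, X i ∈ E₂) →
    (∀ a : ι → LaurentSeries Qb, (∀ i, a i ∈ E₁) → ∑ i, a i * X i = 0 → ∀ i, a i = 0) →
    Fintype.card ι ≤ n

variable {E₁ E₂ : IntermediateField Qb (LaurentSeries Qb)}

/-- **the fundamental inequality.** -/
theorem card_le (hle : E₁ ≤ E₂) (hp : Piv A E₁) {n : ℕ} (hb : LinBound E₁ E₂ n)
    (s : Finset (resI A hle))
    (hs : LinearIndependent (resE A E₁) (fun i : s => (i : resI A hle))) : s.card ≤ n := by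
  classical
  have hs' : LinearIndependent (resE A E₁) (fun i : s => (((i : resI A hle)) : Lk A)) :=
    hs.map' (resI A hle).val.toLinearMap (LinearMap.ker_eq_bot.mpr Subtype.val_injective)
  have hX : ∀ i : s, ∃ x ∈ E₂, RedTo A x (((i : resI A hle)) : Lk A) := fun i => (i : resI A hle).2
  choose X hXE hXr using hX
  have := hb s X hXE ?_
  · rwa [Fintype.card_coe] at this
  intro a ha hsum
  by_contra hcon
  push Not at hcon
  obtain ⟨i₁, hi₁⟩ := hcon
  obtain ⟨i₀, -, h0, hmax⟩ := hp.exists_max Finset.univ a (fun i _ => ha i)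
    ⟨i₁, Finset.mem_univ _, hi₁⟩
  have hR : ∀ i : s, ∃ ρ : Lk A, RedTo A (a i * (a i₀)⁻¹) ρ := fun i => hmax i (Finset.mem_univ _)
  choose R hRr using hR
  have hRm : ∀ i, R i ∈ resE A E₁ := fun i => ⟨_, mul_mem (ha i) (inv_mem (ha i₀)), hRr i⟩
  have h1 : RedTo A (∑ i, a i * (a i₀)⁻¹ * X i) (∑ i, R i * (((i : resI A hle)) : Lk A)) :=
    redTo_sum _ _ _ fun i _ => (hRr i).mul (hXr i)
  have h2 : ∑ i, a i * (a i₀)⁻¹ * X i = 0 := by
    have : ∑ i, a i * (a i₀)⁻¹ * X i = (∑ i, a i * X i) * (a i₀)⁻¹ := by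
      rw [Finset.sum_mul]
      exact Finset.sum_congr rfl fun i _ => by ring
    rw [this, hsum, zero_mul]
  rw [h2] at h1
  have h3 : ∑ i, R i * (((i : resI A hle)) : Lk A) = 0 := h1.unique redTo_zero
  have h4 := Fintype.linearIndependent_iff.mp hs' (fun i => ⟨R i, hRm i⟩) h3 i₀
  have h5 : R i₀ = 0 := congrArg Subtype.val h4
  have h6 : RedTo A (a i₀ * (a i₀)⁻¹) 1 := by
    rw [mul_inv_cancel₀ h0]; exact RedTo.one
  exact one_ne_zero ((h6.unique (hRr i₀)).trans h5)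

instance instAlgResI (hle : E₁ ≤ E₂) : Algebra (resE A E₁) (resI A hle) :=
  (resI A hle).toSubalgebra.algebra

instance instModResI (hle : E₁ ≤ E₂) : Module (resE A E₁) (resI A hle) :=
  (instAlgResI hle).toModule

theorem rank_le_of_linBound (hle : E₁ ≤ E₂) (hp : Piv A E₁) {n : ℕ} (hb : LinBound E₁ E₂ n) :
    Module.rank (resE A E₁) (resI A hle) ≤ n :=
  rank_le fun s hs => card_le hle hp hb s hs

theorem finite_resI (hle : E₁ ≤ E₂) (hp : Piv A E₁) {n : ℕ} (hb : LinBound E₁ E₂ n) :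
    Module.Finite (resE A E₁) (resI A hle) :=
  Module.rank_lt_aleph0_iff.mp
    ((rank_le_of_linBound hle hp hb).trans_lt (Cardinal.natCast_lt_aleph0))

theorem redUp_unique_up (h : RedUp A x r) (h' : RedUp A x r') (hr : r ≠ 0) (hr' : r' ≠ 0) :
    ∃ c : kA A, c ≠ 0 ∧ r' = cstk A c * r := by
  obtain ⟨c₁, hc₁, h₁⟩ := h
  obtain ⟨c₂, hc₂, h₂⟩ := h'
  have hu : x ≠ 0 := by
    rintro rfl
    rw [mul_zero] at h₁
    exact hr (h₁.unique redTo_zero)
  have hc₁' : cst c₁ ≠ 0 := (map_ne_zero _).2 hc₁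
  have h3 := h₂.mul (h₁.inv hr)
  have e : cst c₂ * x * (cst c₁ * x)⁻¹ = cst (c₂ / c₁) := by
    rw [cst, cst, cst, map_div₀]
    field_simp
  rw [e] at h3
  obtain ⟨a, -, ha⟩ := h3.const
  refine ⟨resA A a, ?_, ?_⟩
  · intro h0
    rw [h0, cstk, map_zero] at ha
    exact mul_ne_zero hr' (inv_ne_zero hr) ha
  · rw [← ha, inv_mul_cancel_right₀ hr]

theorem cstk_mem_resE (E : IntermediateField Qb (LaurentSeries Qb)) (c : kA A) :
    cstk A c ∈ resE A E := by
  obtain ⟨a, rfl⟩ := IsLocalRing.residue_surjective c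
  exact ⟨cst (a : Qb), E.algebraMap_mem _, RedTo.cst_of_mem a⟩

theorem redUp_one_of_cstk {c : kA A} (hc : c ≠ 0) (h : RedUp A x (cstk A c)) : RedUp A x 1 := by
  obtain ⟨e, he, h⟩ := h
  obtain ⟨a, rfl⟩ := IsLocalRing.residue_surjective c
  have hu : IsUnit a := by
    by_contra hu
    exact hc ((IsLocalRing.residue_eq_zero_iff _).mpr ((IsLocalRing.mem_maximalIdeal _).mpr hu))
  obtain ⟨u, rfl⟩ := hu
  have h' := (RedTo.cst_of_mem ((u⁻¹ : Aˣ) : A)).mul h
  have hne : ((((u⁻¹ : Aˣ) : A)) : Qb) ≠ 0 := by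
    intro h0
    have : ((u⁻¹ : Aˣ) : A) = 0 := Subtype.ext h0
    exact (u⁻¹).ne_zero this
  refine ⟨((((u⁻¹ : Aˣ) : A)) : Qb) * e, mul_ne_zero hne he, h'.congr ?_ ?_⟩
  · rw [cst, cst, cst, map_mul, mul_assoc]
  · have : resA A ((u⁻¹ : Aˣ) : A) * IsLocalRing.residue A (u : A) = 1 := by
      show resA A ((u⁻¹ : Aˣ) : A) * resA A (u : A) = 1
      rw [← map_mul, Units.inv_mul, map_one]
    rw [cstk, cstk, ← map_mul, this, map_one]

/-- **(d), generic form.** -/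
theorem main_abs (hle : E₁ ≤ E₂) (hp : Piv A E₂) {n : ℕ} (hb : LinBound E₁ E₂ n) :
    ∃ d : ℕ, 0 < d ∧ d ≤ n ∧ ∀ (m : ℕ) (f y : LaurentSeries Qb), f ∈ E₁ → f ≠ 0 → y ∈ E₂ → y ≠ 0 →
      RedUp A (f * y ^ m) 1 → ∃ y' ∈ E₁, y' ≠ 0 ∧ RedUp A (f ^ d * y' ^ m) 1 := by
  have hp1 : Piv A E₁ := hp.mono hle
  have := finite_resI hle hp1 hb
  refine ⟨Module.finrank (resE A E₁) (resI A hle), Module.finrank_pos,
    Module.finrank_le_of_rank_le (rank_le_of_linBound hle hp1 hb), ?_⟩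
  intro m f y hf hf0 hy hy0 hred
  obtain ⟨c1, r1, hc1, hr1, h1⟩ := hp1 f hf hf0
  obtain ⟨c2, r2, hc2, hr2, h2⟩ := hp y hy hy0
  have hr1m : r1 ∈ resE A E₁ := ⟨_, mul_mem (E₁.algebraMap_mem c1) hf, h1⟩
  have hr2m : r2 ∈ resI A hle := ⟨_, mul_mem (E₂.algebraMap_mem c2) hy, h2⟩
  have hf1 : RedUp A f r1 := ⟨c1, hc1, h1⟩
  have hy2 : RedUp A y r2 := ⟨c2, hc2, h2⟩
  obtain ⟨c0, hc0, e0⟩ := redUp_unique_up hred (hf1.mul (hy2.pow m)) one_ne_zero
    (mul_ne_zero hr1 (pow_ne_zero _ hr2))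
  rw [mul_one] at e0
  -- the equation in `resI`
  have e1 : algebraMap (resE A E₁) (resI A hle) ⟨r1, hr1m⟩ * (⟨r2, hr2m⟩ : resI A hle) ^ m
      = algebraMap (resE A E₁) (resI A hle) ⟨cstk A c0, cstk_mem_resE E₁ c0⟩ :=
    Subtype.ext e0
  have e2 := congrArg (Algebra.norm (resE A E₁)) e1
  rw [map_mul, map_pow, Algebra.norm_algebraMap, Algebra.norm_algebraMap] at e2
  obtain ⟨ρ, hρ⟩ : ∃ ρ, ρ = Algebra.norm (resE A E₁) (⟨r2, hr2m⟩ : resI A hle) := ⟨_, rfl⟩
  rw [← hρ] at e2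
  have hρ0 : (ρ : Lk A) ≠ 0 := by
    intro h0
    have h0' : ρ = 0 := Subtype.ext h0
    rw [hρ, Algebra.norm_eq_zero_iff] at h0'
    exact hr2 (congrArg Subtype.val h0')
  obtain ⟨y0, hy0E, hy0r⟩ := ρ.2
  have hy00 : y0 ≠ 0 := by
    rintro rfl
    exact hρ0 (hy0r.unique redTo_zero)
  refine ⟨y0, hy0E, hy00, ?_⟩
  have e3 : r1 ^ Module.finrank (resE A E₁) (resI A hle) * (ρ : Lk A) ^ m
      = cstk A (c0 ^ Module.finrank (resE A E₁) (resI A hle)) := by
    have := congrArg Subtype.val e2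
    rw [cstk, map_pow]
    exact this
  have hy0u : RedUp A y0 (ρ : Lk A) := ⟨1, one_ne_zero, hy0r.congr (by rw [cst, map_one, one_mul]) rfl⟩
  exact redUp_one_of_cstk (pow_ne_zero _ hc0)
    (((hf1.pow _).mul (hy0u.pow m)).congr rfl e3)

end

end Fermat.Agent.S43.DN
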