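import Fermat.Agent.S43.D.InstF1
import Fermat.Agent.S43.Th.Bridge
import Fermat.Agent.S43.CH.F1
import Fermat.Agent.S33.Soft.KConn

/-!
# S43 / D / Concl : the exact form of (d) in the shape used by COUNT

`gal_fixed_of_pull_mem` : `x` in the `θ`-part of `Kum (M q) (p ^ k)` with `pull x` in `K_oo = S1.Koo`  ==>  the inertia group of `A`
fixes `x`  (i.e. `N x = 0`).

Proof: `Z = {x in Vth | pull x in K_oo}` is a finite group stable under `D = T_l - l - 1`, which is injective on `Vth` for a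
non Eisenstein prime `l`; so `x = D x'`, `x'` in `Z`; by `DI.inK1_of_pull_mem`, `c • x` is constant modulo `v_oo`, `c` prime to `p`;
conclude with the norm trick `I.gal_fixed_of_inK1`.
-/

set_option autoImplicit false

open AlgebraicCurve ModularCurve

namespace Fermat.Agent.S43.DI

open Fermat.Agent.ES Fermat.Agent.SS Fermat.Agent.S33 Fermat.Agent.S58

noncomputable section

/-- the classes constant modulo `v_oo`, as a subgroup. -/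
def K1 {N : ℕ} (m : ℕ) (A : ValuationSubring Qb) : AddSubgroup (Kum N m) where
  carrier := {x | InK1 A x}
  add_mem' := fun hx hy => Soft.InK1.add hx hy
  zero_mem' := Soft.InK1.zero
  neg_mem' := fun hx => Soft.InK1.neg hx

theorem hk_iterate_of_eigen {N m : ℕ} [NeZero N] (a : ℕ → ℤ) (ℓ : ℕ) [NeZero ℓ] (hℓ : ℓ.Prime)
    (hℓN : ¬ ℓ ∣ N) {z : Kum N m} {b : ℤ} (hz : heckeKum N ℓ hℓ hℓN m z = b • z) (n : ℕ) :
    (Fin.hk N m a ℓ hℓ hℓN)^[n] z = ((b - a ℓ) ^ n) • z := by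
  induction n with
  | zero => simp
  | succ n ih =>
    rw [Function.iterate_succ_apply', ih, map_zsmul, Fin.hk_apply, hz, ← sub_smul, smul_smul,
      pow_succ]

theorem eq_zero_of_eigen {N p k : ℕ} [NeZero N] (hp : p.Prime) {S : Finset ℕ} {a : ℕ → ℤ} (ℓ : ℕ)
    [NeZero ℓ] (hℓ : ℓ.Prime) (hℓN : ¬ ℓ ∣ N) (hℓS : ℓ ∉ S) {b : ℤ} (hb : ¬ (p : ℤ) ∣ b - a ℓ)
    {z : Kum N (p ^ k)} (hz : z ∈ Fin.Vth N (p ^ k) S a)
    (he : heckeKum N ℓ hℓ hℓN (p ^ k) z = b • z) : z = 0 := by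
  obtain ⟨n, hn⟩ := hz ℓ hℓ hℓN hℓS
  rw [hk_iterate_of_eigen a ℓ hℓ hℓN he] at hn
  have hcop : IsCoprime ((b - a ℓ) ^ n) ((p : ℤ) ^ k) :=
    IsCoprime.pow ((Nat.prime_iff_prime_int.mp hp).coprime_iff_not_dvd.2 hb).symm
  obtain ⟨u, v, huv⟩ := hcop
  have h1 : ((p : ℤ) ^ k) • z = 0 := by
    rw [← Nat.cast_pow, natCast_zsmul]
    exact Kum.nsmul_eq_zero z
  calc z = (u * (b - a ℓ) ^ n + v * (p : ℤ) ^ k) • z := by rw [huv, one_smul]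
    _ = 0 := by rw [add_smul, mul_smul, mul_smul, hn, h1, smul_zero, smul_zero, add_zero]

/-- abstract form: `KK`, `pull`, `Koo`, `TK` arbitrary. -/
theorem inK1_of_abs {N p k : ℕ} [NeZero N] (hp : p.Prime) {A : ValuationSubring Qb}
    {S : Finset ℕ} {a : ℕ → ℤ} (hNS : ∀ r : ℕ, r.Prime → r ∣ N → r ∈ S)
    {ℓ : ℕ} [NeZero ℓ] (hℓ : ℓ.Prime) (hℓN : ¬ ℓ ∣ N) (hℓS : ℓ ∉ S) (hnE : ¬ (p : ℤ) ∣ a ℓ - ℓ - 1)
    {KK : Type*} [AddCommGroup KK] (pull : Kum N (p ^ k) →+ KK) (Koo : AddSubgroup KK)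
    (TK : KK → KK) (hTK : ∀ y ∈ Koo, TK y ∈ Koo)
    (hpT : ∀ z, pull (heckeKum N ℓ hℓ hℓN (p ^ k) z) = TK (pull z))
    (hd : ∀ z, pull z ∈ Koo → ∃ c : ℕ, ¬ p ∣ c ∧
      InK1 A (c • (heckeKum N ℓ hℓ hℓN (p ^ k) z - (ℓ + 1) • z)))
    {x : Kum N (p ^ k)} (hx : x ∈ Fin.Vth N (p ^ k) S a) (hpull : pull x ∈ Koo) : InK1 A x := by
  have hm : 0 < p ^ k := pow_pos hp.pos k
  have : Finite (Kum N (p ^ k)) := Glue.finite_Kum hm
  let Z : AddSubgroup (Kum N (p ^ k)) := Fin.Vth N (p ^ k) S a ⊓ Koo.comap pull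
  let DD : Kum N (p ^ k) →+ Kum N (p ^ k) :=
    heckeKum N ℓ hℓ hℓN (p ^ k) - (ℓ + 1) • AddMonoidHom.id _
  have hDD : ∀ z, DD z = heckeKum N ℓ hℓ hℓN (p ^ k) z - (ℓ + 1) • z := fun z => rfl
  have hDZ : ∀ z ∈ Z, DD z ∈ Z := by
    intro z hz
    have h1 : heckeKum N ℓ hℓ hℓN (p ^ k) z ∈ Z := by
      refine ⟨Th.fin_hecke_mem hNS hℓ hℓN hz.1, ?_⟩
      show pull (heckeKum N ℓ hℓ hℓN (p ^ k) z) ∈ Koo
      rw [hpT]
      exact hTK _ hz.2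
    rw [hDD]
    exact Z.sub_mem h1 (Z.nsmul_mem hz _)
  have hinj : ∀ z ∈ Z, DD z = 0 → z = 0 := by
    intro z hz h0
    rw [hDD, sub_eq_zero] at h0
    refine eq_zero_of_eigen hp ℓ hℓ hℓN hℓS (b := (ℓ : ℤ) + 1) ?_ hz.1 ?_
    · intro h
      apply hnE
      have : a ℓ - ℓ - 1 = -((ℓ : ℤ) + 1 - a ℓ) := by ring
      rw [this]
      exact (dvd_neg).2 h
    · rw [h0]
      have : ((ℓ : ℤ) + 1) = ((ℓ + 1 : ℕ) : ℤ) := by push_cast; ring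
      rw [this, natCast_zsmul]
  let DZ : Z →+ Z := (DD.comp Z.subtype).codRestrict Z (fun z => hDZ z z.2)
  have hDZinj : Function.Injective DZ := by
    rw [injective_iff_map_eq_zero]
    intro z hz
    exact Subtype.ext (hinj z z.2 (congrArg Subtype.val hz))
  obtain ⟨x', hx'⟩ := (Finite.injective_iff_surjective.1 hDZinj) ⟨x, hx, hpull⟩
  have hx'' : DD (x' : Kum N (p ^ k)) = x := congrArg Subtype.val hx'
  obtain ⟨c, hc, hIn⟩ := hd (x' : Kum N (p ^ k)) x'.2.2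
  have hIn' : c • x ∈ K1 (N := N) (p ^ k) A := by
    rw [← hx'', hDD]
    exact hIn
  have hcop : IsCoprime (c : ℤ) ((p : ℤ) ^ k) :=
    IsCoprime.pow_right ((Nat.prime_iff_prime_int.mp hp).coprime_iff_not_dvd.2
      (fun h => hc (Int.natCast_dvd_natCast.1 h))).symm
  obtain ⟨u, v, huv⟩ := hcop
  have h1 : ((p : ℤ) ^ k) • x = 0 := by
    rw [← Nat.cast_pow, natCast_zsmul]
    exact Kum.nsmul_eq_zero x
  have hxK : x ∈ K1 (N := N) (p ^ k) A := by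
    have : x = u • (c • x) := by
      calc x = (u * (c : ℤ) + v * (p : ℤ) ^ k) • x := by rw [huv, one_smul]
        _ = u • (c • x) := by
          rw [add_smul, mul_smul, mul_smul, h1, smul_zero, add_zero, natCast_zsmul]
    rw [this]
    exact AddSubgroup.zsmul_mem _ hIn' u
  exact hxK

/-- `x` in the `θ`-part, `pull x` in `K_oo`  ==>  `x` is constant modulo `v_oo`. -/
theorem inK1_of_pull_mem_Vth {N p q k : ℕ} [NeZero N] (hN : 5 ≤ N) (hp : p.Prime)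
    (hq : q.Prime) (hqp : q ≠ p) {A : ValuationSubring Qb} (hA : A.LiesOverPrime q)
    {S : Finset ℕ} {a : ℕ → ℤ} (hqS : q ∈ S) (hNS : ∀ r : ℕ, r.Prime → r ∣ N → r ∈ S)
    {ℓ : ℕ} (hℓ : ℓ.Prime) (hℓS : ℓ ∉ S) (hnE : ¬ (p : ℤ) ∣ a ℓ - ℓ - 1)
    {x : Kum N (p ^ k)} (hx : x ∈ Fin.Vth N (p ^ k) S a)
    (hpull : R0.pull hN (p ^ k) x ∈ S1.Koo (R0.HD hN) A (p ^ k)) : InK1 A x := by
  have : NeZero ℓ := ⟨hℓ.ne_zero⟩
  have hm : 0 < p ^ k := pow_pos hp.pos k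
  have hℓN : ¬ ℓ ∣ N := fun h => hℓS (hNS ℓ hℓ h)
  have hℓq : ℓ ≠ q := fun h => hℓS (h ▸ hqS)
  have hD : (R0.HD hN).PreservesDm (p ^ k) := CH.preservesDm_F1 N hN hm
  exact inK1_of_abs hp hNS hℓ hℓN hℓS hnE (R0.pull hN (p ^ k)) (S1.Koo (R0.HD hN) A (p ^ k))
    (S48.B1.heckeKum (R0.HD hN) hD ⟨ℓ, hℓ, hℓN⟩)
    (fun y hy => S1.heckeKum_mem_Koo hq hA hD ⟨ℓ, hℓ, hℓN⟩ hℓq hy)
    (fun z => ThK.pull_hecke hN hD ⟨ℓ, hℓ, hℓN⟩ z)
    (fun z hz => inK1_of_pull_mem hN hp hq hqp.symm hA ⟨ℓ, hℓ, hℓN⟩ hℓq hm.ne' z hz) hx hpull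

/-- **the exact form of (d)**, in the shape used by COUNT. -/
theorem gal_fixed_of_pull_mem {M q p k : ℕ} [NeZero M] [NeZero q] (hN : 5 ≤ M * q) (hp : p.Prime)
    (hq : q.Prime) (hqp : q ≠ p) (hqM : ¬ q ∣ M) {A : ValuationSubring Qb} (hA : A.LiesOverPrime q)
    {w : FF (M * q) →ₐ[Qb] FF (M * q)} (hw : IsAL M q w) {S : Finset ℕ} {a : ℕ → ℤ} (hpS : p ∈ S)
    (hNS : ∀ r : ℕ, r.Prime → r ∣ M * q → r ∈ S)
    (hSep : Sep M p S (fun r hr h => hNS r hr (h.mul_right q)) a)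
    {ℓ : ℕ} (hℓ : ℓ.Prime) (hℓS : ℓ ∉ S) (hnE : ¬ (p : ℤ) ∣ a ℓ - ℓ - 1)
    {x : Kum (M * q) (p ^ k)} (hx : x ∈ Fin.Vth (M * q) (p ^ k) S a)
    (hpull : R0.pull hN (p ^ k) x ∈ S1.Koo (R0.HD hN) A (p ^ k))
    {s : GQ} (hs : s ∈ A.inertiaSubgroupIn ℚ) : galKum (M * q) (p ^ k) s x = x := by
  have hqm : ¬ q ∣ p ^ k := fun h =>
    hqp ((Nat.prime_dvd_prime_iff_eq hq hp).1 (hq.dvd_of_dvd_pow h))
  exact I.gal_fixed_of_inK1 hq hqM hqm hw hA hs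
    (inK1_of_pull_mem_Vth hN hp hq hqp hA (hNS q hq (dvd_mul_left q M)) hNS hℓ hℓS hnE hx hpull)
    (Th.fin_nmKum_eq_zero hNS hp hpS hq hqM hSep hx)

/-- the same for a `Fin.Ctx`. -/
theorem ctx_gal_fixed {M q p : ℕ} [NeZero M] [NeZero q] (C : Fin.Ctx M q p) (hN : 5 ≤ M * q) {k : ℕ}
    {x : Kum (M * q) (p ^ k)} (hx : x ∈ Fin.Vth (M * q) (p ^ k) C.S C.a)
    (hpull : R0.pull hN (p ^ k) x ∈ S1.Koo (R0.HD hN) C.A (p ^ k))
    {s : GQ} (hs : s ∈ C.A.inertiaSubgroupIn ℚ) : galKum (M * q) (p ^ k) s x = x := by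
  have hNS : ∀ r : ℕ, r.Prime → r ∣ M * q → r ∈ C.S := by
    intro r hr h
    rcases (Nat.Prime.dvd_mul hr).1 h with h | h
    · exact C.hMS r hr h
    · rw [(Nat.prime_dvd_prime_iff_eq hr C.hq).1 h]; exact C.hqS
  obtain ⟨ℓ, hℓ, hℓS, hnE⟩ := C.hnE
  have hMne : M ≠ M * q := by
    intro h
    have h1 : M * 1 = M * q := by rw [mul_one]; exact h
    exact C.hq.one_lt.ne (Nat.eq_of_mul_eq_mul_left (Nat.pos_of_ne_zero (NeZero.ne M)) h1)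
  exact gal_fixed_of_pull_mem hN C.hp C.hq C.hqp C.hqM C.hA C.hw C.hpS hNS
    (C.hSep M (fun r hr h => hNS r hr (h.mul_right q)) (dvd_mul_right M q) hMne) hℓ hℓS hnE hx hpull hs

end

end Fermat.Agent.S43.DI
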