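import Fermat.Agent.S43.Fin.VthBridge
import Fermat.Agent.S43.I.VthX
import Fermat.Agent.S43.I.NT

/-!
# S43 / D / Concl84 : the last step of the exact (d)   (level `X₀(M q)` only, no `F1Q`)

`Z₀ ≤ Kum (M q) (p ^ k)` (think: `Z₀ = {x | pull x ∈ K_∞(F1(N))}`) with
* `InK1 A x → x ∈ Z₀`,
* for the good primes `ℓ ∉ S`: `c • (T_ℓ x - (ℓ + 1) x) ∈ InK1` for `x ∈ Z₀`, `c` prime to `p`  (exact (d), Eisenstein form).
Then the inertia group at `A` acts trivially on `Z₀ ∩ Vth`.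
-/

set_option autoImplicit false

open AlgebraicCurve ModularCurve

namespace Fermat.Agent.S43.DConcl

open Fermat.Agent.ES Fermat.Agent.SS Fermat.Agent.S33

noncomputable section

theorem eq_zero_of_isCoprime {G : Type*} [AddCommGroup G] {y : G} {c n : ℤ} (h : IsCoprime c n)
    (h1 : c • y = 0) (h2 : n • y = 0) : y = 0 := by
  obtain ⟨u, v, huv⟩ := h
  have : (u * c + v * n) • y = 0 := by
    rw [add_smul, mul_smul, mul_smul, h1, h2, smul_zero, smul_zero, add_zero]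
  rwa [huv, one_smul] at this

theorem iterate_of_eigen {G : Type*} [AddCommGroup G] (f : G →+ G) {x : G} {u : ℤ}
    (h : f x = u • x) (n : ℕ) : f^[n] x = u ^ n • x := by
  induction n with
  | zero => simp
  | succ n ih =>
    rw [Function.iterate_succ_apply', ih, map_zsmul, h, smul_smul, pow_succ]

variable {M q p : ℕ} [NeZero M] [NeZero q]

theorem isCoprime_ppow (C : Fin.Ctx M q p) {u : ℤ} (hu : ¬ (p : ℤ) ∣ u) (n k : ℕ) :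
    IsCoprime (u ^ n) (((p ^ k : ℕ) : ℤ)) := by
  have hp : Prime (p : ℤ) := Nat.prime_iff_prime_int.mp C.hp
  have h1 : IsCoprime u (p : ℤ) := ((Prime.coprime_iff_not_dvd hp).mpr hu).symm
  rw [Nat.cast_pow]
  exact IsCoprime.pow h1

theorem nmKum_eq_zero (C : Fin.Ctx M q p) (k : ℕ) {x : Kum (M * q) (p ^ k)}
    (hx : x ∈ Fin.Vth (M * q) (p ^ k) C.S C.a) : nmKum M q (p ^ k) x = 0 := by
  have hm : p ^ k ≠ 0 := pow_ne_zero k C.hp.ne_zero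
  have hmS : ∀ r : ℕ, r.Prime → r ∣ p ^ k → r ∈ C.S := by
    intro r hr hd
    rw [(Nat.prime_dvd_prime_iff_eq hr C.hp).mp (hr.dvd_of_dvd_pow hd)]
    exact C.hpS
  have hx' : x ∈ I.Vth (M * q) (p ^ k) C.hLvl C.a := (Fin.mem_Vth_iff_mem_I C.hLvl C.a).mp hx
  have h1 : nmKum M q (p ^ k) x ∈ I.Vth M (p ^ k) C.hMS C.a :=
    I.nmKum_mem_Vth hm hmS C.hq C.hqM hx'
  have hne : M ≠ M * q := by
    intro h
    have h1 : M * 1 = M * q := by rw [mul_one]; exact h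
    exact C.hq.one_lt.ne (Nat.eq_of_mul_eq_mul_left (Nat.pos_of_ne_zero (NeZero.ne M)) h1)
  have hsep : Sep M p C.S C.hMS C.a := C.hSep M C.hMS (dvd_mul_right M q) hne
  rw [I.Vth_eq_bot_of_sep C.hp hsep ⟨k, rfl⟩] at h1
  exact h1

theorem heckeKum_mem {N m : ℕ} [NeZero N] {S : Finset ℕ} {a : ℕ → ℤ}
    (ℓ : ℕ) [NeZero ℓ] (hℓ : ℓ.Prime) (hℓN : ¬ ℓ ∣ N) {x : Kum N m} (hx : x ∈ Fin.Vth N m S a) :
    heckeKum N ℓ hℓ hℓN m x ∈ Fin.Vth N m S a := by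
  intro r _ hr hrN hS
  obtain ⟨n, hn⟩ := hx r hr hrN hS
  refine ⟨n, ?_⟩
  have hcomm : Function.Semiconj (heckeKum N ℓ hℓ hℓN m) (Fin.hk N m a r hr hrN)
      (Fin.hk N m a r hr hrN) := by
    intro y
    rw [Fin.hk_apply, Fin.hk_apply, map_sub, map_zsmul, heckeKum_comm]
  rw [← (hcomm.iterate_right n).eq, hn, map_zero]

/-- **the conclusion of the exact (d).** -/
theorem inK1_of_mem (C : Fin.Ctx M q p) (k : ℕ) (Z₀ : AddSubgroup (Kum (M * q) (p ^ k)))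
    (ha : ∀ x, InK1 C.A x → x ∈ Z₀)
    (h2 : ∀ (ℓ : ℕ) [NeZero ℓ] (hℓ : ℓ.Prime) (hℓN : ¬ ℓ ∣ M * q), ℓ ∉ C.S →
      ∃ c : ℕ, Nat.Coprime c p ∧ ∀ x ∈ Z₀,
        InK1 C.A (c • (heckeKum (M * q) ℓ hℓ hℓN (p ^ k) x - ((ℓ : ℤ) + 1) • x)))
    {x : Kum (M * q) (p ^ k)} (hx : x ∈ Fin.Vth (M * q) (p ^ k) C.S C.a) (hxZ : x ∈ Z₀) :
    InK1 C.A x := by
  obtain ⟨ℓ, hℓ, hℓS, hnE⟩ := C.hnE
  have : NeZero ℓ := ⟨hℓ.ne_zero⟩
  have hℓN : ¬ ℓ ∣ M * q := fun h => hℓS (C.hLvl ℓ hℓ h)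
  obtain ⟨c, hc, h2'⟩ := h2 ℓ hℓ hℓN hℓS
  have hfin : Finite (Kum (M * q) (p ^ k)) := Glue.finite_Kum (pow_pos C.hp.pos k)
  set V := Fin.Vth (M * q) (p ^ k) C.S C.a with hV
  set T := heckeKum (M * q) ℓ hℓ hℓN (p ^ k) with hT
  have hkill : ∀ y : Kum (M * q) (p ^ k), (((p ^ k : ℕ) : ℤ)) • y = 0 := fun y => by
    rw [natCast_zsmul]; exact Kum.nsmul_eq_zero y
  have hcZ : IsCoprime (c : ℤ) (((p ^ k : ℕ) : ℤ)) := by
    rw [Nat.isCoprime_iff_coprime]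
    exact Nat.Coprime.pow_right k hc
  have hE_mem : ∀ y ∈ V ⊓ Z₀, c • (T y - ((ℓ : ℤ) + 1) • y) ∈ V ⊓ Z₀ := by
    intro y hy
    refine ⟨V.nsmul_mem (V.sub_mem (heckeKum_mem ℓ hℓ hℓN hy.1) (V.zsmul_mem hy.1 _)) c, ?_⟩
    exact ha _ (h2' y hy.2)
  have hE_inj : ∀ y ∈ V, c • (T y - ((ℓ : ℤ) + 1) • y) = 0 → y = 0 := by
    intro y hy h0
    have h1 : T y - ((ℓ : ℤ) + 1) • y = 0 :=
      eq_zero_of_isCoprime hcZ (by rw [natCast_zsmul]; exact h0) (hkill _)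
    obtain ⟨n, hn⟩ := hy ℓ hℓ hℓN hℓS
    have h3 : Fin.hk (M * q) (p ^ k) C.a ℓ hℓ hℓN y = (-(C.a ℓ - ℓ - 1)) • y := by
      rw [Fin.hk_apply, sub_eq_zero.mp h1, ← sub_smul]
      congr 1
      ring
    rw [iterate_of_eigen _ h3 n] at hn
    refine eq_zero_of_isCoprime (isCoprime_ppow C ?_ n k) hn (hkill y)
    rw [dvd_neg]
    exact hnE
  let Er : ↥(V ⊓ Z₀) → ↥(V ⊓ Z₀) := fun y => ⟨c • (T y - ((ℓ : ℤ) + 1) • (y : Kum (M * q) (p ^ k))),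
    hE_mem y y.2⟩
  have inj : Function.Injective Er := by
    intro y z h
    have h1 : c • (T y - ((ℓ : ℤ) + 1) • (y : Kum (M * q) (p ^ k)))
        = c • (T z - ((ℓ : ℤ) + 1) • (z : Kum (M * q) (p ^ k))) := congrArg Subtype.val h
    have h2 : c • (T ((y : Kum (M * q) (p ^ k)) - z)
        - ((ℓ : ℤ) + 1) • ((y : Kum (M * q) (p ^ k)) - z)) = 0 := by
      have e : T ((y : Kum (M * q) (p ^ k)) - z) - ((ℓ : ℤ) + 1) • ((y : Kum (M * q) (p ^ k)) - z)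
          = (T y - ((ℓ : ℤ) + 1) • (y : Kum (M * q) (p ^ k)))
            - (T z - ((ℓ : ℤ) + 1) • (z : Kum (M * q) (p ^ k))) := by
        rw [map_sub, smul_sub]; abel
      rw [e, smul_sub, h1, sub_self]
    exact Subtype.ext (sub_eq_zero.mp (hE_inj _ (V.sub_mem y.2.1 z.2.1) h2))
  obtain ⟨x', hx'⟩ := (Finite.injective_iff_surjective.mp inj) ⟨x, hx, hxZ⟩
  have h3 := h2' x' x'.2.2
  have h4 : c • (T x' - ((ℓ : ℤ) + 1) • (x' : Kum (M * q) (p ^ k))) = x := congrArg Subtype.val hx'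
  rwa [h4] at h3

theorem gal_fixed_of_mem (C : Fin.Ctx M q p) (k : ℕ) (Z₀ : AddSubgroup (Kum (M * q) (p ^ k)))
    (ha : ∀ x, InK1 C.A x → x ∈ Z₀)
    (h2 : ∀ (ℓ : ℕ) [NeZero ℓ] (hℓ : ℓ.Prime) (hℓN : ¬ ℓ ∣ M * q), ℓ ∉ C.S →
      ∃ c : ℕ, Nat.Coprime c p ∧ ∀ x ∈ Z₀,
        InK1 C.A (c • (heckeKum (M * q) ℓ hℓ hℓN (p ^ k) x - ((ℓ : ℤ) + 1) • x)))
    {x : Kum (M * q) (p ^ k)} (hx : x ∈ Fin.Vth (M * q) (p ^ k) C.S C.a) (hxZ : x ∈ Z₀)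
    {s : GQ} (hs : s ∈ C.A.inertiaSubgroupIn ℚ) : galKum (M * q) (p ^ k) s x = x := by
  have hqm : ¬ q ∣ p ^ k := fun h =>
    C.hqp ((Nat.prime_dvd_prime_iff_eq C.hq C.hp).mp (C.hq.dvd_of_dvd_pow h))
  exact I.gal_fixed_of_inK1 C.hq C.hqM hqm C.hw C.hA hs (inK1_of_mem C k Z₀ ha h2 hx hxZ)
    (nmKum_eq_zero C k hx)

end

end Fermat.Agent.S43.DConcl
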