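import Fermat.Agent.S43.D.ThetaX

/-!
# S43 / D / EisX : the last step of the exact (d), Eisenstein form  (level `X₀(M q)` only)

`x ∈ Vth (M q) (p ^ k)`, `ℓ` a non Eisenstein prime, `c` prime to `p`, `c • (T_ℓ x - (ℓ + 1) x)` constant modulo `v_∞`
`⟹` inertia at `q` fixes `x`.
-/

set_option autoImplicit false

open AlgebraicCurve ModularCurve

namespace Fermat.Agent.S43.DTh

open Fermat.Agent.ES Fermat.Agent.SS Fermat.Agent.S33 Fermat.Agent.S43.I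

noncomputable section

/-- abstract: `T` nilpotent on `d`, `c (T d + u d) = 0`, `c u` prime to `p`, `p ^ k d = 0`  ⟹  `d = 0`. -/
theorem eq_zero_of_nilp {X : Type*} [AddCommGroup X] (T : Module.End ℤ X) {p k : ℕ} (hp : p.Prime)
    {c u : ℤ} (hc : ¬ (p : ℤ) ∣ c) (hu : ¬ (p : ℤ) ∣ u) {d : X} (hk : p ^ k • d = 0)
    (hn : ∃ n : ℕ, (T ^ n) d = 0) (h : c • (T d + u • d) = 0) : d = 0 := by
  have hp' : Prime (p : ℤ) := Nat.prime_iff_prime_int.mp hp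
  -- a general cancellation
  have canc : ∀ (b : ℤ), ¬ (p : ℤ) ∣ b → ∀ y : X, p ^ k • y = 0 → b • y = 0 → y = 0 := by
    intro b hb y hy hby
    have hcop : IsCoprime b ((p : ℤ) ^ k) :=
      ((hp'.coprime_iff_not_dvd.2 hb).symm).pow_right
    obtain ⟨r, s, hrs⟩ := hcop
    have : (1 : ℤ) • y = 0 := by
      rw [← hrs, add_smul, mul_smul, mul_smul, hby, smul_zero, zero_add]
      have : ((p : ℤ) ^ k) • y = 0 := by
        have h1 : ((p : ℤ) ^ k) = ((p ^ k : ℕ) : ℤ) := by push_cast; rfl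
        rw [h1, natCast_zsmul, hy]
      rw [this, smul_zero]
    rwa [one_smul] at this
  have hT : T d = (-u) • d := by
    have h1 : T d + u • d = 0 := by
      refine canc c hc _ ?_ h
      rw [smul_add, ← map_nsmul, hk, map_zero, smul_comm, hk, smul_zero, add_zero]
    rw [neg_smul]
    exact eq_neg_of_add_eq_zero_left h1
  have hpow : ∀ n : ℕ, (T ^ n) d = ((-u) ^ n) • d := by
    intro n
    induction n with
    | zero => simp
    | succ n ih =>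
      rw [pow_succ', Module.End.mul_apply, ih, map_zsmul, hT, smul_smul, pow_succ]
  obtain ⟨n, hn⟩ := hn
  rw [hpow] at hn
  refine canc _ ?_ d hk hn
  intro hd
  exact hu ((dvd_neg).1 (hp'.dvd_of_dvd_pow hd))

variable {A : ValuationSubring Qb} {M q p k : ℕ} [NeZero M] [NeZero q]
  {w : FF (M * q) →ₐ[Qb] FF (M * q)} {S : Finset ℕ}
  {hNS : ∀ r : ℕ, r.Prime → r ∣ M * q → r ∈ S} {a : ℕ → ℤ}

/-- **exact (d), last step, Eisenstein form.** -/
theorem inv_of_eis (hp : p.Prime) (hq : q.Prime) (hqp : q ≠ p) (hqM : ¬ q ∣ M) (hw : IsAL M q w)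
    (hA : A.LiesOverPrime q)
    (hnm : ∀ x ∈ Vth (M * q) (p ^ k) hNS a, nmKum M q (p ^ k) x = 0)
    (ℓ : GP S) (hℓ : ¬ (p : ℤ) ∣ a ℓ.1 - (ℓ.1 + 1))
    {x : Kum (M * q) (p ^ k)} (hx : x ∈ Vth (M * q) (p ^ k) hNS a) (c : ℕ) (hc : ¬ p ∣ c)
    (h : InK1 A (c • (heckeT (M * q) (p ^ k) (ℓ.good hNS) x - (ℓ.1 + 1) • x)))
    {σ : GQ} (hσ : σ ∈ A.inertiaSubgroupIn ℚ) : galKum (M * q) (p ^ k) σ x = x := by
  have hqm : ¬ q ∣ p ^ k := fun hd => hqp ((Nat.prime_dvd_prime_iff_eq hq hp).1 (hq.dvd_of_dvd_pow hd))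
  have hV := Vth (M * q) (p ^ k) hNS a
  -- `T_ℓ x ∈ Vth`
  have hTT : ∀ y ∈ Vth (M * q) (p ^ k) hNS a, TT (M * q) (p ^ k) hNS a ℓ y ∈ Vth (M * q) (p ^ k) hNS a := by
    intro y hy
    exact gker_intertwine _ _ (TT (M * q) (p ^ k) hNS a ℓ).toAddMonoidHom
      (fun ℓ' z => by
        have := (TT_commute (N := M * q) (m := p ^ k) (hNS := hNS) (a := a) ℓ ℓ').eq
        exact congrArg (fun f => f z) this) hy
  have e0 : ∀ y : Kum (M * q) (p ^ k), heckeT (M * q) (p ^ k) (ℓ.good hNS) y - (ℓ.1 + 1) • y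
      = TT (M * q) (p ^ k) hNS a ℓ y + (a ℓ.1 - (ℓ.1 + 1)) • y := by
    intro y
    rw [TT_apply, sub_smul]
    have : ((ℓ.1 : ℤ) + 1) • y = (ℓ.1 + 1) • y := by
      have h1 : ((ℓ.1 : ℤ) + 1) = ((ℓ.1 + 1 : ℕ) : ℤ) := by push_cast; rfl
      rw [h1, natCast_zsmul]
    rw [this]
    abel
  have hy : c • (heckeT (M * q) (p ^ k) (ℓ.good hNS) x - (ℓ.1 + 1) • x)
      ∈ Vth (M * q) (p ^ k) hNS a := by
    refine AddSubgroup.nsmul_mem _ ?_ c
    rw [e0]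
    exact AddSubgroup.add_mem _ (hTT x hx) (AddSubgroup.zsmul_mem _ hx _)
  have h2 := gal_fixed_of_inK1 hq hqM hqm hw hA hσ h (hnm _ hy)
  -- the difference
  set d := galKum (M * q) (p ^ k) σ x - x with hd
  have hdV : d ∈ Vth (M * q) (p ^ k) hNS a := AddSubgroup.sub_mem _ (gal_mem_Vth σ hx) hx
  have h3 : (c : ℤ) • (TT (M * q) (p ^ k) hNS a ℓ d + (a ℓ.1 - (ℓ.1 + 1)) • d) = 0 := by
    rw [natCast_zsmul, hd]
    rw [e0] at h2
    rw [map_sub, smul_sub, ← gal_TT]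
    rw [map_nsmul, map_add, map_zsmul] at h2
    have gen : ∀ P Q R R' : Kum (M * q) (p ^ k),
        c • (P - Q + (R - R')) = c • (P + R) - c • (Q + R') := by
      intro P Q R R'
      rw [← smul_sub]
      congr 1
      abel
    have this := gen (galKum (M * q) (p ^ k) σ (TT (M * q) (p ^ k) hNS a ℓ x))
      (TT (M * q) (p ^ k) hNS a ℓ x) ((a ℓ.1 - (ℓ.1 + 1)) • galKum (M * q) (p ^ k) σ x)
      ((a ℓ.1 - (ℓ.1 + 1)) • x)
    rw [this, h2, sub_self]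
  have h4 := eq_zero_of_nilp (TT (M * q) (p ^ k) hNS a ℓ) hp
    (fun hh => hc (Int.natCast_dvd_natCast.1 hh)) hℓ (Kum.nsmul_eq_zero d) (hdV ℓ) h3
  exact sub_eq_zero.1 h4

end

end Fermat.Agent.S43.DTh
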