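import Mathlib

/-!
# S43 / D / Field : a Kummer-theoretic degree bound (Mathlib only)

`K ⊆ L` fields, `p` an odd prime, `μ_p(L) ⊆ K`, `ρ ∈ L` with `ρ ^ (p ^ n) ∈ K`.  If `1, ρ, …, ρ ^ D0` are linearly
dependent over `K` and `D0 < p ^ (b + 1)`, then `ρ ^ (p ^ b) ∈ K`.
-/

set_option autoImplicit false

open Polynomial

namespace Fermat.Agent.S43.DRed

theorem pow_mem_of_dep {L : Type*} [Field L] (K : Subfield L) {p : ℕ} (hp : p.Prime) (hp2 : p ≠ 2)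
    (hμ : ∀ ζ : L, ζ ^ p = 1 → ζ ∈ K) {ρ : L} {n b D0 : ℕ} (hρ : ρ ^ (p ^ n) ∈ K)
    (hD : D0 < p ^ (b + 1))
    (hdep : ∃ a : Fin (D0 + 1) → K, a ≠ 0 ∧ ∑ i, (a i : L) * ρ ^ (i : ℕ) = 0) :
    ρ ^ (p ^ b) ∈ K := by
  classical
  have hex : ∃ s, ρ ^ (p ^ s) ∈ K := ⟨n, hρ⟩
  obtain ⟨s, hs, hmin⟩ : ∃ s, ρ ^ (p ^ s) ∈ K ∧ ∀ t < s, ρ ^ (p ^ t) ∉ K :=
    ⟨Nat.find hex, Nat.find_spec hex, fun t ht => Nat.find_min hex ht⟩
  by_cases hsb : s ≤ b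
  · obtain ⟨d, rfl⟩ := Nat.exists_eq_add_of_le hsb
    rw [pow_add, pow_mul]
    exact pow_mem hs _
  exfalso
  push Not at hsb
  obtain ⟨s', rfl⟩ : ∃ s', s = s' + 1 := ⟨s - 1, by omega⟩
  have hnot : ρ ^ (p ^ s') ∉ K := hmin s' (Nat.lt_succ_self _)
  have hρ0 : ρ ≠ 0 := by
    rintro rfl
    apply hnot
    rw [zero_pow (pow_ne_zero _ hp.ne_zero)]
    exact zero_mem K
  -- `a' = ρ ^ (p ^ (s'+1))` is not a `p`-th power in `K`
  have hnp : ∀ c : K, c ^ p ≠ (⟨ρ ^ (p ^ (s' + 1)), hs⟩ : K) := by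
    intro c hc
    have hc' : (c : L) ^ p = ρ ^ (p ^ (s' + 1)) := by
      have := congrArg (Subtype.val) hc
      simpa using this
    have hc0 : (c : L) ≠ 0 := by
      intro h0
      rw [h0, zero_pow hp.ne_zero] at hc'
      exact pow_ne_zero _ hρ0 hc'.symm
    have h1 : (ρ ^ (p ^ s') / (c : L)) ^ p = 1 := by
      rw [div_pow, hc', ← pow_mul, ← pow_succ, div_self (pow_ne_zero _ hρ0)]
    have h2 := hμ _ h1
    apply hnot
    have h3 : ρ ^ (p ^ s') = (ρ ^ (p ^ s') / (c : L)) * (c : L) := by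
      rw [div_mul_cancel₀ _ hc0]
    rw [h3]
    exact mul_mem h2 c.2
  have hirr : Irreducible (X ^ (p ^ (s' + 1)) - C (⟨ρ ^ (p ^ (s' + 1)), hs⟩ : K)) :=
    X_pow_sub_C_irreducible_of_prime_pow hp hp2 (s' + 1) hnp
  have hpos : p ^ (s' + 1) ≠ 0 := pow_ne_zero _ hp.ne_zero
  have hmonic : (X ^ (p ^ (s' + 1)) - C (⟨ρ ^ (p ^ (s' + 1)), hs⟩ : K)).Monic :=
    monic_X_pow_sub_C _ hpos
  have hroot : aeval ρ (X ^ (p ^ (s' + 1)) - C (⟨ρ ^ (p ^ (s' + 1)), hs⟩ : K)) = 0 := by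
    rw [map_sub, map_pow, aeval_X, aeval_C]
    exact sub_self _
  have hmp : X ^ (p ^ (s' + 1)) - C (⟨ρ ^ (p ^ (s' + 1)), hs⟩ : K) = minpoly K ρ :=
    minpoly.eq_of_irreducible_of_monic hirr hroot hmonic
  have hdeg : (minpoly K ρ).natDegree = p ^ (s' + 1) := by
    rw [← hmp, natDegree_X_pow_sub_C]
  have hli := linearIndependent_pow (K := K) ρ
  have hle : D0 + 1 ≤ (minpoly K ρ).natDegree := by
    rw [hdeg]
    calc D0 + 1 ≤ p ^ (b + 1) := hD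
      _ ≤ p ^ (s' + 1) := Nat.pow_le_pow_right hp.pos (by omega)
  have hli' := hli.comp (Fin.castLE hle) (Fin.castLE_injective hle)
  obtain ⟨a, ha0, hsum⟩ := hdep
  apply ha0
  funext i
  refine Fintype.linearIndependent_iff.1 hli' a ?_ i
  rw [← hsum]
  refine Finset.sum_congr rfl fun i _ => ?_
  rw [Subfield.smul_def]
  rfl

end Fermat.Agent.S43.DRed
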