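import Fermat.Agent.SS.Formal.RedUp
import Fermat.Agent.S18.Inputs
import Mathlib.GroupTheory.FiniteAbelian.Duality
import Mathlib.RingTheory.RootsOfUnity.AlgebraicallyClosed

/-!
# S43 / D / Sharp : the abstract (series) part of the SHARP form of (d)

`RedUp A x 1` = "`x` is a nonzero constant times a series `≡ 1` for the Gauss valuation of `A((t))`".

* `redUp_one_of_pow` (ROOT) : `x` has a pivot, `x ^ m` is `RedUp 1`  ⟹  `x` is `RedUp 1`.
* `dft` (DFT) : `G` a finite commutative group with `v(#G) = 1`, `e : G → ℚ̄((t))`, all `RedUp 1` ⟹ for some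
  character `χ` the resolvent `∑ χ(d) e(d)` is `RedUp 1`.
* `sharp_abs` : `f = U d * Y d ^ m` for all `d`, `U d` all `RedUp 1`  ⟹  for some character `χ`,
  `f / (∑ χ(d) Y(d)) ^ m` is `RedUp 1`.
-/

set_option autoImplicit false

open AlgebraicCurve ModularCurve

namespace Fermat.Agent.S43.DSharp

open Fermat.Agent.ES Fermat.Agent.SS

noncomputable section

variable {A : ValuationSubring Qb}

theorem redTo_zero : RedTo A 0 0 :=
  ⟨0, 1, by rw [map_one]; exact one_ne_zero, by simp, by simp⟩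

theorem redTo_add {x x' : LaurentSeries Qb} {r r' : LaurentSeries (kA A)} (h : RedTo A x r)
    (h' : RedTo A x' r') : RedTo A (x + x') (r + r') := by
  obtain ⟨y₁, y₂, h0, h1, h2⟩ := h
  obtain ⟨z₁, z₂, k0, k1, k2⟩ := h'
  refine ⟨y₁ * z₂ + z₁ * y₂, y₂ * z₂, ?_, ?_, ?_⟩
  · rw [map_mul]; exact mul_ne_zero h0 k0
  · rw [map_add, map_mul, map_mul, map_mul, ← h1, ← k1]; ring
  · rw [map_add, map_mul, map_mul, map_mul, h2, k2]; ring

theorem redTo_sum {ι : Type*} (s : Finset ι) (x : ι → LaurentSeries Qb)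
    (r : ι → LaurentSeries (kA A)) (h : ∀ i ∈ s, RedTo A (x i) (r i)) :
    RedTo A (∑ i ∈ s, x i) (∑ i ∈ s, r i) := by
  classical
  induction s using Finset.induction_on with
  | empty => simpa using redTo_zero
  | insert a s ha ih =>
    rw [Finset.sum_insert ha, Finset.sum_insert ha]
    exact redTo_add (h a (Finset.mem_insert_self a s))
      (ih fun i hi => h i (Finset.mem_insert_of_mem hi))

theorem ne_zero_of_redUp {x : LaurentSeries Qb} {r : LaurentSeries (kA A)} (hr : r ≠ 0)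
    (h : RedUp A x r) : x ≠ 0 := by
  rintro rfl
  obtain ⟨c, hc, h⟩ := h
  rw [mul_zero] at h
  exact hr (h.unique redTo_zero)

/-- the reduction up to constants is unique up to constants. -/
theorem redUp_unique {x : LaurentSeries Qb} {r r' : LaurentSeries (kA A)} (hr : r ≠ 0)
    (h : RedUp A x r) (h' : RedUp A x r') : ∃ c : kA A, r' = cstk A c * r := by
  have hx := ne_zero_of_redUp hr h
  obtain ⟨c, hc, h⟩ := h
  obtain ⟨c', hc', h'⟩ := h'
  have h2 := h'.mul (h.inv hr)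
  have h3 : cst c' * x * (cst c * x)⁻¹ = cst (c' / c) := by
    have e1 : cst (c' / c) = cst c' / cst c := map_div₀ _ _ _
    have hc0 : cst c ≠ 0 := by rw [Ne, map_eq_zero]; exact hc
    rw [e1]
    field_simp
  rw [h3] at h2
  obtain ⟨a, ha, hra⟩ := h2.const
  exact ⟨resA A a, by rw [← hra, inv_mul_cancel_right₀ hr]⟩

theorem redUp_one_of_cstk {x : LaurentSeries Qb} {c : kA A} (hc : c ≠ 0)
    (h : RedUp A x (cstk A c)) : RedUp A x 1 := by
  obtain ⟨a, ha⟩ := IsLocalRing.residue_surjective (R := A) c⁻¹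
  obtain ⟨d, hd, h⟩ := h
  have ha0 : (a : Qb) ≠ 0 := by
    intro h0
    have : a = 0 := Subtype.ext h0
    rw [this, map_zero] at ha
    exact inv_ne_zero hc ha.symm
  refine ⟨(a : Qb) * d, mul_ne_zero ha0 hd, ((RedTo.cst_of_mem a).mul h).congr ?_ ?_⟩
  · rw [cst, cst, cst, map_mul]; ring
  · rw [show resA A a = c⁻¹ from ha, cstk, cstk, ← map_mul, inv_mul_cancel₀ hc, map_one]

/-- **(ROOT)** -/
theorem redUp_one_of_pow {x : LaurentSeries Qb} {m : ℕ} (hm : m ≠ 0)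
    (hp : ∃ r : LaurentSeries (kA A), r ≠ 0 ∧ RedUp A x r) (h : RedUp A (x ^ m) 1) :
    RedUp A x 1 := by
  obtain ⟨r, hr, hxr⟩ := hp
  obtain ⟨c, hc⟩ := redUp_unique one_ne_zero h (hxr.pow m)
  rw [mul_one] at hc
  have : IsAlgClosed (kA A) := Fermat.Agent.S18.isAlgClosed_residueField A
  have hint : IsIntegral (kA A) r :=
    ⟨Polynomial.X ^ m - Polynomial.C c, Polynomial.monic_X_pow_sub_C c hm, by
      simp [hc]⟩
  obtain ⟨c1, hc1⟩ := minpoly.mem_range_of_degree_eq_one (kA A) r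
    (IsAlgClosed.degree_eq_one_of_irreducible _ (minpoly.irreducible hint))
  have hc10 : c1 ≠ 0 := by
    rintro rfl
    rw [map_zero] at hc1
    exact hr hc1.symm
  exact redUp_one_of_cstk hc10 (hxr.congr rfl hc1.symm)

theorem mem_of_pow_eq_one {z : Qb} {n : ℕ} (hn : n ≠ 0) (h : z ^ n = 1) :
    A.valuation z = 1 := by
  have : A.valuation z ^ n = 1 := by rw [← map_pow, h, map_one]
  exact (pow_eq_one_iff.mp this).resolve_right hn

theorem val_char {G : Type*} [CommGroup G] [Fintype G] (χ : G →* Qbˣ) (d : G) :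
    A.valuation ((χ d : Qbˣ) : Qb) = 1 :=
  mem_of_pow_eq_one (n := Fintype.card G) Fintype.card_ne_zero (by
    rw [← Units.val_pow_eq_pow_val, ← map_pow, pow_card_eq_one, map_one, Units.val_one])

theorem sum_char_eq_zero {G : Type*} [CommGroup G] [Finite G] [Fintype (G →* Qbˣ)] {a : G}
    (ha : a ≠ 1) : ∑ χ : G →* Qbˣ, ((χ a : Qbˣ) : Qb) = 0 := by
  have : NeZero ((Monoid.exponent G : ℕ) : Qb) :=
    ⟨Nat.cast_ne_zero.mpr Monoid.exponent_ne_zero_of_finite⟩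
  obtain ⟨φ, hφ⟩ := CommGroup.exists_apply_ne_one_of_hasEnoughRootsOfUnity G Qb ha
  have e : ∑ χ : G →* Qbˣ, ((χ a : Qbˣ) : Qb)
      = ((φ a : Qbˣ) : Qb) * ∑ χ : G →* Qbˣ, ((χ a : Qbˣ) : Qb) := by
    rw [Finset.mul_sum]
    refine (Fintype.sum_equiv (Equiv.mulLeft φ) _ _ fun χ => ?_).symm
    simp
  have h1 : (((φ a : Qbˣ) : Qb) - 1) * ∑ χ : G →* Qbˣ, ((χ a : Qbˣ) : Qb) = 0 := by
    linear_combination -e
  rcases mul_eq_zero.mp h1 with h | h
  · exact absurd (Units.ext (by simpa using sub_eq_zero.mp h)) hφ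
  · exact h

/-- Fourier inversion + ultrametric inequality: some resolvent of `γ` is as large as all the `γ d`. -/
theorem exists_char_dominant {G : Type*} [CommGroup G] [Fintype G]
    (hG : A.valuation ((Fintype.card G : ℕ) : Qb) = 1) (γ : G → Qb) (hγ : ∀ d, γ d ≠ 0) :
    ∃ χ : G →* Qbˣ, (∑ d, ((χ d : Qbˣ) : Qb) * γ d) ≠ 0 ∧
      ∀ d, γ d / (∑ d, ((χ d : Qbˣ) : Qb) * γ d) ∈ A := by
  classical
  have : NeZero ((Monoid.exponent G : ℕ) : Qb) :=
    ⟨Nat.cast_ne_zero.mpr Monoid.exponent_ne_zero_of_finite⟩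
  have hfin : Finite (G →* Qbˣ) :=
    Finite.of_equiv G (CommGroup.monoidHom_mulEquiv_of_hasEnoughRootsOfUnity G Qb).some.symm.toEquiv
  have := Fintype.ofFinite (G →* Qbˣ)
  have hcard : Fintype.card (G →* Qbˣ) = Fintype.card G := by
    have := CommGroup.card_monoidHom_of_hasEnoughRootsOfUnity G Qb
    rwa [Nat.card_eq_fintype_card, Nat.card_eq_fintype_card] at this
  obtain ⟨d0, -, hd0⟩ := Finset.exists_max_image Finset.univ (fun d => A.valuation (γ d))
    ⟨(1 : G), Finset.mem_univ 1⟩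
  have key : ∃ χ : G →* Qbˣ,
      A.valuation (γ d0) ≤ A.valuation (∑ d, ((χ d : Qbˣ) : Qb) * γ d) := by
    by_contra hcon
    push Not at hcon
    have inv : ∑ χ : G →* Qbˣ, ((χ d0⁻¹ : Qbˣ) : Qb) * ∑ d, ((χ d : Qbˣ) : Qb) * γ d
        = ((Fintype.card G : ℕ) : Qb) * γ d0 := by
      simp_rw [Finset.mul_sum]
      rw [Finset.sum_comm]
      have h1 : ∀ d : G, ∑ χ : G →* Qbˣ, ((χ d0⁻¹ : Qbˣ) : Qb) * (((χ d : Qbˣ) : Qb) * γ d)
          = if d = d0 then ((Fintype.card G : ℕ) : Qb) * γ d0 else 0 := by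
        intro d
        have h2 : ∀ χ : G →* Qbˣ, ((χ d0⁻¹ : Qbˣ) : Qb) * (((χ d : Qbˣ) : Qb) * γ d)
            = ((χ (d0⁻¹ * d) : Qbˣ) : Qb) * γ d := by
          intro χ
          rw [map_mul, Units.val_mul, mul_assoc]
        simp_rw [h2]
        rw [← Finset.sum_mul]
        split_ifs with hd
        · subst hd
          simp [hcard]
        · rw [sum_char_eq_zero (a := d0⁻¹ * d), zero_mul]
          intro h
          exact hd (inv_mul_eq_one.mp h).symm
      simp_rw [h1]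
      simp
    have h1 : A.valuation (∑ χ : G →* Qbˣ, ((χ d0⁻¹ : Qbˣ) : Qb) * ∑ d, ((χ d : Qbˣ) : Qb) * γ d)
        < A.valuation (γ d0) := by
      refine Valuation.map_sum_lt _ ((Valuation.ne_zero_iff _).mpr (hγ d0)) fun χ _ => ?_
      rw [map_mul, val_char, one_mul]
      exact hcon χ
    rw [inv, map_mul, hG, one_mul] at h1
    exact lt_irrefl _ h1
  obtain ⟨χ, hχ⟩ := key
  have hS : (∑ d, ((χ d : Qbˣ) : Qb) * γ d) ≠ 0 := by
    intro h
    rw [h, map_zero] at hχ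
    exact ((Valuation.ne_zero_iff _).mpr (hγ d0)) (le_zero_iff.mp hχ)
  refine ⟨χ, hS, fun d => ?_⟩
  rw [← ValuationSubring.valuation_le_one_iff, map_div₀]
  exact div_le_one_of_le₀ ((hd0 d (Finset.mem_univ d)).trans hχ) zero_le

/-- **(DFT)** -/
theorem dft {G : Type*} [CommGroup G] [Fintype G]
    (hG : A.valuation ((Fintype.card G : ℕ) : Qb) = 1) (e : G → LaurentSeries Qb)
    (he : ∀ d, RedUp A (e d) 1) :
    ∃ χ : G →* Qbˣ, RedUp A (∑ d, cst ((χ d : Qbˣ) : Qb) * e d) 1 := by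
  choose c hc h using he
  obtain ⟨χ, hS, hmem⟩ := exists_char_dominant hG (fun d => (c d)⁻¹) (fun d => inv_ne_zero (hc d))
  set S := ∑ d, ((χ d : Qbˣ) : Qb) * (c d)⁻¹ with hSdef
  refine ⟨χ, S⁻¹, inv_ne_zero hS, ?_⟩
  have hχ : ∀ d, ((χ d : Qbˣ) : Qb) ∈ A := fun d =>
    (ValuationSubring.valuation_le_one_iff A _).mp (le_of_eq (val_char χ d))
  let a : G → A := fun d => ⟨((χ d : Qbˣ) : Qb) * ((c d)⁻¹ / S), A.mul_mem _ _ (hχ d) (hmem d)⟩
  have h1 := redTo_sum Finset.univ (fun d => cst (a d : Qb) * (cst (c d) * e d))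
    (fun d => cstk A (resA A (a d)) * 1) (fun d _ => (RedTo.cst_of_mem (a d)).mul (h d))
  refine h1.congr ?_ ?_
  · rw [Finset.mul_sum]
    refine Finset.sum_congr rfl fun d _ => ?_
    rw [← mul_assoc, ← mul_assoc, cst, cst, cst, cst, ← map_mul, ← map_mul]
    congr 2
    show ((χ d : Qbˣ) : Qb) * ((c d)⁻¹ / S) * c d = S⁻¹ * ((χ d : Qbˣ) : Qb)
    have := hc d
    field_simp
  · simp only [mul_one]
    show ∑ d, algebraMap (kA A) (LaurentSeries (kA A)) (resA A (a d)) = 1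
    rw [← map_sum, ← map_sum]
    have : ∑ d, a d = 1 := by
      apply Subtype.ext
      rw [AddSubmonoidClass.coe_finsetSum]
      show ∑ d, ((χ d : Qbˣ) : Qb) * ((c d)⁻¹ / S) = 1
      have e1 : ∀ d, ((χ d : Qbˣ) : Qb) * ((c d)⁻¹ / S) = (((χ d : Qbˣ) : Qb) * (c d)⁻¹) * S⁻¹ :=
        fun d => by rw [div_eq_mul_inv, mul_assoc]
      simp_rw [e1]
      rw [← Finset.sum_mul, ← hSdef, mul_inv_cancel₀ hS]
    rw [this, map_one, map_one]

/-- **(SHARP, series form)** -/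
theorem sharp_abs {G : Type*} [CommGroup G] [Fintype G]
    (hG : A.valuation ((Fintype.card G : ℕ) : Qb) = 1) {m : ℕ} (hm : m ≠ 0)
    (f : LaurentSeries Qb) (Y U : G → LaurentSeries Qb)
    (hY : ∀ d, ∃ r : LaurentSeries (kA A), r ≠ 0 ∧ RedUp A (Y d) r)
    (hU : ∀ d, RedUp A (U d) 1) (hf : ∀ d, f = U d * Y d ^ m) :
    ∃ χ : G →* Qbˣ, (∑ d, cst ((χ d : Qbˣ) : Qb) * Y d) ≠ 0 ∧
      RedUp A (f * ((∑ d, cst ((χ d : Qbˣ) : Qb) * Y d) ^ m)⁻¹) 1 := by
  have hY0 : ∀ d, Y d ≠ 0 := fun d => by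
    obtain ⟨r, hr, h⟩ := hY d
    exact ne_zero_of_redUp hr h
  have hU0 : ∀ d, U d ≠ 0 := fun d => ne_zero_of_redUp one_ne_zero (hU d)
  have he : ∀ d, RedUp A (Y d * (Y 1)⁻¹) 1 := by
    intro d
    refine redUp_one_of_pow hm ?_ ?_
    · obtain ⟨r, hr, h⟩ := hY d
      obtain ⟨r1, hr1, h1⟩ := hY 1
      exact ⟨r * r1⁻¹, mul_ne_zero hr (inv_ne_zero hr1), h.mul (h1.inv hr1)⟩
    · refine ((hU 1).mul ((hU d).inv one_ne_zero)).congr ?_ (by simp)
      have e1 := hf 1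
      have e2 := hf d
      have h1 := hY0 1
      have h2 := hY0 d
      have h3 := hU0 d
      rw [mul_pow, inv_pow]
      have e3 : U 1 * Y 1 ^ m = U d * Y d ^ m := by rw [← e1, ← e2]
      field_simp
      linear_combination e3
  obtain ⟨χ, hχ⟩ := dft hG (fun d => Y d * (Y 1)⁻¹) he
  have hE0 := ne_zero_of_redUp one_ne_zero hχ
  have hR : (∑ d, cst ((χ d : Qbˣ) : Qb) * Y d)
      = (∑ d, cst ((χ d : Qbˣ) : Qb) * (Y d * (Y 1)⁻¹)) * Y 1 := by
    rw [Finset.sum_mul]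
    refine Finset.sum_congr rfl fun d _ => ?_
    rw [mul_assoc, inv_mul_cancel_right₀ (hY0 1)]
  refine ⟨χ, ?_, ?_⟩
  · rw [hR]
    exact mul_ne_zero hE0 (hY0 1)
  · refine ((hU 1).mul ((hχ.pow m).inv (pow_ne_zero m one_ne_zero))).congr ?_ (by simp)
    rw [hR, hf 1, mul_pow]
    have h1 := hY0 1
    field_simp

end

end Fermat.Agent.S43.DSharp
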