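import Fermat.Agent.S43.D.Poinc
import Fermat.Agent.S43.S1.Gen
import Fermat.Agent.S43.D.Sharp

/-!
# S43 / D / Inst : the exact form of (d), generic instance of the Poincare series argument (`D/Poinc.lean`)

Generic in `(Q : B1.QField) (H : B1.HeckeData Q N) (A : ValuationSubring Qb)`, `A` over `q`.

* `RC Q A`, `R1 Q A` : the units of `Q.F` which are constant, resp. `= 1`, modulo the Gauss valuation of `A((t))`;
* `EE H l u = T_l u / (<l> u * u ^ l)`; `EE_mem_R1` : `EE` maps `UU` (`S1.IsUU`) into `R1`;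
* `hyp` : the structure `DP.Hyp` for the diamond action, `P` any subgroup of order prime to `q`;
* `main_gen` : `f` fixed by the diamonds, `f * y ^ n` in `UU`  ==>  `(EE f) ^ c * y' ^ n` is constant modulo the Gauss valuation,
  `y'` fixed by the diamonds, `c` prime to `p` (any prime `p ≠ q`; no condition on `n ≠ 0`).
-/

set_option autoImplicit false

open AlgebraicCurve ModularCurve

namespace Fermat.Agent.S43.DI

open Fermat.Agent.ES (Qb GQ Vq normSer resA galA kA)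
open Fermat.Agent.SS (RedTo RedUp cst cstk)
open Fermat.Agent.S48.B1

noncomputable section

variable {A : ValuationSubring Qb} {Q : QField} {N : ℕ} (H : HeckeData Q N)

/-- the units which are constant modulo the Gauss valuation. -/
def RC (Q : QField) (A : ValuationSubring Qb) : Subgroup Q.Fˣ where
  carrier := {u | RedUp A (((u : Q.Fˣ) : Q.F) : LaurentSeries Qb) 1}
  mul_mem' := by
    intro u v hu hv
    have h := RedUp.mul hu hv
    rw [mul_one] at h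
    exact h
  one_mem' := S1.redUp_one
  inv_mem' := by
    intro u hu
    have h := RedUp.inv hu one_ne_zero
    rw [inv_one] at h
    show RedUp A (((u⁻¹ : Q.Fˣ) : Q.F) : LaurentSeries Qb) 1
    rw [Units.val_inv_eq_inv_val]
    exact h

/-- the units which are `≡ 1` modulo the Gauss valuation. -/
def R1 (Q : QField) (A : ValuationSubring Qb) : Subgroup Q.Fˣ where
  carrier := {u | RedTo A (((u : Q.Fˣ) : Q.F) : LaurentSeries Qb) 1}
  mul_mem' := by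
    intro u v hu hv
    have h := RedTo.mul hu hv
    rw [mul_one] at h
    exact h
  one_mem' := Fermat.Agent.SS.RedTo.one
  inv_mem' := by
    intro u hu
    have h := RedTo.inv hu one_ne_zero
    rw [inv_one] at h
    show RedTo A (((u⁻¹ : Q.Fˣ) : Q.F) : LaurentSeries Qb) 1
    rw [Units.val_inv_eq_inv_val]
    exact h

theorem mem_RC {u : Q.Fˣ} : u ∈ RC Q A ↔ RedUp A (((u : Q.Fˣ) : Q.F) : LaurentSeries Qb) 1 := Iff.rfl
theorem mem_R1 {u : Q.Fˣ} : u ∈ R1 Q A ↔ RedTo A (((u : Q.Fˣ) : Q.F) : LaurentSeries Qb) 1 := Iff.rfl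

/-- the diamond action. -/
def rho (g : (ZMod N)ˣ) : Q.F ≃+* Q.F := (H.dia g).toRingEquiv

theorem rho_apply (g : (ZMod N)ˣ) (x : Q.F) : rho H g x = H.dia g x := rfl

/-- `E u = T_ℓ u / (⟨ℓ⟩ u * u ^ ℓ)`. -/
def EE (ℓ : Fermat.Agent.ES.D.GoodPrime N) : Q.Fˣ →* Q.Fˣ :=
  H.heckeU ℓ / (DP.actU (rho H) (gpUnit ℓ) * powMonoidHom ℓ.1)

theorem EE_apply (ℓ : Fermat.Agent.ES.D.GoodPrime N) (u : Q.Fˣ) :
    EE H ℓ u = H.heckeU ℓ u / (DP.actU (rho H) (gpUnit ℓ) u * u ^ ℓ.1) := rfl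

theorem actU_heckeU (g : (ZMod N)ˣ) (ℓ : Fermat.Agent.ES.D.GoodPrime N) (u : Q.Fˣ) :
    DP.actU (rho H) g (H.heckeU ℓ u) = H.heckeU ℓ (DP.actU (rho H) g u) :=
  Units.ext (H.dia_heckeF g ℓ u)

theorem actU_actU (g h : (ZMod N)ˣ) (u : Q.Fˣ) :
    DP.actU (rho H) g (DP.actU (rho H) h u) = DP.actU (rho H) h (DP.actU (rho H) g u) := by
  apply Units.ext
  show H.dia g (H.dia h u) = H.dia h (H.dia g u)
  rw [← AlgEquiv.mul_apply, ← AlgEquiv.mul_apply, ← map_mul, ← map_mul, mul_comm]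

theorem EE_mem_R1 {q : ℕ} (hq : q.Prime) (hA : A.LiesOverPrime q)
    (ℓ : Fermat.Agent.ES.D.GoodPrime N) (hℓq : ℓ.1 ≠ q) (u : Q.Fˣ)
    (hu : ∀ g, DP.actU (rho H) g u ∈ RC Q A) : EE H ℓ u ∈ R1 Q A := by
  have : NeZero ℓ.1 := ⟨ℓ.2.1.ne_zero⟩
  obtain ⟨c, hc, h1⟩ : RedUp A (((u : Q.Fˣ) : Q.F) : LaurentSeries Qb) 1 := by
    have := hu 1
    rw [mem_RC, DP.coe_actU, rho_apply, map_one] at this
    exact this
  obtain ⟨c', hc', h2⟩ : RedUp A ((H.dia (gpUnit ℓ) (u : Q.F) : Q.F) : LaurentSeries Qb) 1 :=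
    hu (gpUnit ℓ)
  obtain ⟨ζ, hζ⟩ := Fermat.Agent.ES.exists_primitiveRoot_Qb ℓ.1
  have h3 := (h2.vq ℓ.1).mul (S1.RedTo.nser hq hA ℓ.2.1 hℓq h1)
  rw [map_one, Fermat.Agent.ES.normSer_one, mul_one] at h3
  have h4 := h2.mul (h1.pow ℓ.1)
  rw [one_pow, mul_one] at h4
  have h5 := h3.mul (h4.inv one_ne_zero)
  rw [inv_one, mul_one] at h5
  rw [mem_R1]
  refine h5.congr ?_ rfl
  have hcc : cst c ≠ 0 := (map_ne_zero _).2 hc
  have hcc' : cst c' ≠ 0 := (map_ne_zero _).2 hc'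
  rw [EE_apply, Units.val_div_eq_div_val, Units.val_mul, Units.val_pow_eq_pow_val, DP.coe_actU,
    rho_apply, HeckeData.coe_heckeU]
  rw [map_mul, Fermat.Agent.SS.Vq_cst, Fermat.Agent.ES.normSer_mul ℓ.1 hζ, S1.normSer_cst]
  simp only [IntermediateField.coe_div, IntermediateField.coe_mul, IntermediateField.coe_pow,
    HeckeData.coe_heckeF, hecke2]
  have e1 : cst (c ^ ℓ.1) = cst c ^ ℓ.1 := map_pow _ _ _
  rw [e1]
  have hx : (((u : Q.Fˣ) : Q.F) : LaurentSeries Qb) ≠ 0 := fun h => u.ne_zero (Subtype.ext h)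
  have hx' : ((H.dia (gpUnit ℓ) (u : Q.F) : Q.F) : LaurentSeries Qb) ≠ 0 := fun h =>
    u.ne_zero ((map_eq_zero_iff _ (H.dia (gpUnit ℓ)).injective).1 (Subtype.ext h))
  field_simp
  ring

theorem R1_le_RC : R1 Q A ≤ RC Q A := by
  intro u hu
  rw [mem_R1] at hu
  rw [mem_RC]
  exact ⟨1, one_ne_zero, hu.congr (by rw [cst, map_one, one_mul]) rfl⟩

theorem root_RC {n : ℕ} (hn : n ≠ 0) (z : Q.Fˣ) (hz : z ^ n ∈ RC Q A) : z ∈ RC Q A := by
  rw [mem_RC] at hz ⊢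
  obtain ⟨r, hr, hzr⟩ := S1.exists_redUp Q A (z : Q.F) z.ne_zero
  refine S1.redUp_one_of_pow hr hzr hn ?_
  rw [Units.val_pow_eq_pow_val] at hz
  exact hz

theorem sum_RC {q : ℕ} (hq : q.Prime) (hA : A.LiesOverPrime q) {ι : Type*} [Fintype ι]
    (hι : ¬ q ∣ Fintype.card ι) (w : ι → Q.Fˣ) (hw : ∀ g, w g ∈ R1 Q A) :
    ∃ b : Q.Fˣ, (b : Q.F) = ∑ g, (w g : Q.F) ∧ b ∈ RC Q A := by
  have := Fermat.Agent.ES.charP_kA hq hA
  have h1 : RedTo A (∑ g, (((w g : Q.Fˣ) : Q.F) : LaurentSeries Qb))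
      (∑ _g : ι, (1 : LaurentSeries (kA A))) :=
    DSharp.redTo_sum Finset.univ _ _ fun g _ => hw g
  have hn0 : resA A ((Fintype.card ι : ℕ) : A) ≠ 0 := by
    rw [map_natCast]
    rwa [Ne, CharP.cast_eq_zero_iff (kA A) q]
  have hk0 : cstk A (resA A ((Fintype.card ι : ℕ) : A)) ≠ 0 := (map_ne_zero _).2 hn0
  have h2 : (∑ _g : ι, (1 : LaurentSeries (kA A))) = cstk A (resA A ((Fintype.card ι : ℕ) : A)) := by
    rw [Finset.sum_const, Finset.card_univ, nsmul_eq_mul, mul_one, map_natCast, cstk, map_natCast]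
  rw [h2] at h1
  have h3 := (Fermat.Agent.SS.RedTo.cst_of_mem ((Fintype.card ι : ℕ) : A)).inv hk0
  have h4 := h3.mul h1
  rw [inv_mul_cancel₀ hk0] at h4
  have hc0 : (((Fintype.card ι : ℕ) : A) : Qb) ≠ 0 := by
    intro h
    apply hn0
    have : ((Fintype.card ι : ℕ) : A) = 0 := Subtype.ext h
    rw [this, map_zero]
  have hcoe : ((∑ g, (w g : Q.F) : Q.F) : LaurentSeries Qb)
      = ∑ g, (((w g : Q.Fˣ) : Q.F) : LaurentSeries Qb) := by
    simp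
  have hup : RedUp A ((∑ g, (w g : Q.F) : Q.F) : LaurentSeries Qb) 1 := by
    refine ⟨(((Fintype.card ι : ℕ) : A) : Qb)⁻¹, inv_ne_zero hc0, h4.congr ?_ rfl⟩
    rw [hcoe, cst, cst, map_inv₀]
  have hb0 : (∑ g, (w g : Q.F) : Q.F) ≠ 0 := by
    intro h
    rw [h] at hup
    exact DSharp.ne_zero_of_redUp one_ne_zero hup rfl
  exact ⟨Units.mk0 _ hb0, rfl, hup⟩

/-- the hypotheses of the Poincare series argument. -/
theorem hyp {q : ℕ} (hq : q.Prime) (hA : A.LiesOverPrime q)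
    (ℓ : Fermat.Agent.ES.D.GoodPrime N) (hℓq : ℓ.1 ≠ q) {n : ℕ} (hn : n ≠ 0)
    (P : Subgroup (ZMod N)ˣ) [Fintype P] (hP : ¬ q ∣ Fintype.card P) :
    DP.Hyp (rho H) (R1 Q A) (RC Q A) (EE H ℓ) n P where
  one x := by rw [rho_apply, map_one]; rfl
  mul g h x := by rw [rho_apply, map_mul]; rfl
  le := R1_le_RC
  comm g u := by
    rw [EE_apply, EE_apply, map_div, map_mul, map_pow, actU_heckeU, actU_actU]
  HE u hu := EE_mem_R1 H hq hA ℓ hℓq u hu
  root z hz := root_RC hn z hz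
  sum w hw := sum_RC hq hA hP w hw

/-- **exact (d), generic form.** -/
theorem main_gen [NeZero N] {p q : ℕ} (hp : p.Prime) (hq : q.Prime) (hpq : p ≠ q) (hA : A.LiesOverPrime q)
    (ℓ : Fermat.Agent.ES.D.GoodPrime N) (hℓq : ℓ.1 ≠ q) {n : ℕ} (hn : n ≠ 0) (f y : Q.Fˣ)
    (hf : ∀ g, H.dia g (f : Q.F) = f) (hu : S1.IsUU H A ((f * y ^ n : Q.Fˣ) : Q.F)) :
    ∃ (c : ℕ) (y' : Q.Fˣ), ¬ p ∣ c ∧ (∀ g, H.dia g (y' : Q.F) = y') ∧
      RedUp A ((((EE H ℓ f) ^ c * y' ^ n : Q.Fˣ) : Q.F) : LaurentSeries Qb) 1 := by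
  classical
  have : Fact p.Prime := ⟨hp⟩
  let P : Sylow p (ZMod N)ˣ := default
  have hPc : ¬ q ∣ Fintype.card (P : Subgroup (ZMod N)ˣ) := by
    obtain ⟨k, hk⟩ := P.2.exists_card_eq
    rw [← Nat.card_eq_fintype_card, hk]
    intro h
    exact hpq ((Nat.prime_dvd_prime_iff_eq hq hp).1 (hq.dvd_of_dvd_pow h)).symm
  obtain ⟨y', hy', h⟩ := DP.main (hyp H hq hA ℓ hℓq hn (P : Subgroup (ZMod N)ˣ) hPc) f y
    (fun g => Units.ext (hf g)) (fun g => hu g)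
  exact ⟨(P : Subgroup (ZMod N)ˣ).index, y', P.not_dvd_index,
    fun g => congrArg Units.val (hy' g), h⟩

end

end Fermat.Agent.S43.DI
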