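import Fermat.Agent.S43.D.Inst
import Fermat.Agent.S43.ThK.Hecke
import Fermat.Agent.S43.I.NT

/-!
# S43 / D / InstF1 : the exact form of (d) for `X_1(N) -> X_0(N)`

`inK1_of_pull_mem` : `x : ES.Kum N m`, `pull x` in `S1.Koo (R0.HD hN) A m`  ==>  `c • (T_l x - (l + 1) x)` is `InK1 A`
(constant modulo `v_oo`), for some `c` prime to `p`.  Any exponent `m ≠ 0`, any good prime `l ≠ q`.
-/

set_option autoImplicit false

open AlgebraicCurve ModularCurve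

namespace Fermat.Agent.S43.DI

open Fermat.Agent.ES (Qb GQ FF)
open Fermat.Agent.SS (RedTo RedUp cst cstk)
open Fermat.Agent.S48

noncomputable section

variable {A : ValuationSubring Qb}

/-- **exact (d)** for `X₁(N) → X₀(N)`. -/
theorem inK1_of_pull_mem {N : ℕ} [NeZero N] (hN : 5 ≤ N) {p q m : ℕ} (hp : p.Prime) (hq : q.Prime)
    (hpq : p ≠ q) (hA : A.LiesOverPrime q) (ℓ : ES.D.GoodPrime N) (hℓq : ℓ.1 ≠ q) (hm : m ≠ 0)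
    (x : ES.Kum N m) (hx : R0.pull hN m x ∈ S1.Koo (R0.HD hN) A m) :
    ∃ c : ℕ, ¬ p ∣ c ∧
      S33.InK1 A (c • (ES.heckeKum N ℓ.1 ℓ.2.1 ℓ.2.2 m x - (ℓ.1 + 1) • x)) := by
  obtain ⟨f, rfl⟩ := ES.Kum.mk_surjective x
  rw [R0.pull_mk] at hx
  obtain ⟨u, hu, hUU⟩ := hx
  rw [B1.Kum.mk_eq_mk_iff] at hu
  obtain ⟨y, hy⟩ := hu
  have hu' : (u : (X1.F1Q N).Fˣ) = R0.inclU hN f * y ^ m := by
    rw [hy]
    exact (mul_mul_inv_cancel'_right _ _).symm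
  obtain ⟨c, y', hc, hy', hred⟩ := main_gen (R0.HD hN) hp hq hpq hA ℓ hℓq hm (R0.inclU hN f) y
    (fun g => R0.dia_incl hN g _) (by rw [← hu']; exact hUU)
  obtain ⟨y0, hy0⟩ := R0.mem_range_incl hN (y' : (X1.F1Q N).F) hy'
  have hy00 : y0 ≠ 0 := by
    rintro rfl
    rw [map_zero] at hy0
    exact y'.ne_zero hy0.symm
  let T : ES.Dm N m := ⟨ES.heckeU N ℓ.1 ℓ.2.1 ℓ.2.2 f, ES.heckeU_mem_Dm N ℓ.1 ℓ.2.1 ℓ.2.2 f.2⟩
  let Y : ES.Dm N m := ⟨(Units.mk0 y0 hy00) ^ m, ES.Pw_le_Dm _ _ ⟨Units.mk0 y0 hy00, rfl⟩⟩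
  refine ⟨c, hc, (T * (f ^ (ℓ.1 + 1))⁻¹) ^ c * Y, ?_, ?_⟩
  · have hY : ES.Kum.mk Y = 0 := (ES.Kum.mk_eq_zero_iff _).2 ⟨_, rfl⟩
    rw [ES.Kum.mk_mul, hY, add_zero, ES.Kum.mk_pow, ES.Kum.mk_mul, ES.Kum.mk_inv, ES.Kum.mk_pow,
      ES.heckeKum_mk, sub_eq_add_neg]
  · rw [I.redConst_iff_redUp]
    refine hred.congr ?_ rfl
    have h1 : (R0.HD hN).dia (B1.gpUnit ℓ) (R0.incl hN (f : (FF N)ˣ)) = R0.incl hN (f : (FF N)ˣ) :=
      R0.dia_incl hN _ _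
    have h2 := ThK.incl_heckeF hN ℓ ((f : (FF N)ˣ) : FF N)
    have h3 : (((EE (R0.HD hN) ℓ (R0.inclU hN f)) ^ c * y' ^ m : (X1.F1Q N).Fˣ) : (X1.F1Q N).F)
        = R0.incl hN ((((T * (f ^ (ℓ.1 + 1))⁻¹) ^ c * Y : ES.Dm N m) : (FF N)ˣ) : FF N) := by
      rw [EE_apply]
      simp only [Units.val_mul, Units.val_pow_eq_pow_val, Units.val_div_eq_div_val, DP.coe_actU,
        rho_apply, B1.HeckeData.coe_heckeU, R0.coe_inclU, h1, h2, ← hy0, Subgroup.coe_mul,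
        Subgroup.coe_pow, Subgroup.coe_inv, Units.val_inv_eq_inv_val, map_mul, map_pow, map_inv₀]
      simp only [T, Y, Units.val_pow_eq_pow_val, Units.val_mk0, ES.coe_heckeU, map_pow]
      rw [div_eq_mul_inv, pow_succ' (R0.incl hN ((f : (FF N)ˣ) : FF N)) ℓ.1]
    rw [h3, R0.coe_incl]

end

end Fermat.Agent.S43.DI
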