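import Fermat.Agent.S43.D.Abs
import Fermat.Agent.S43.R0.Push

/-!
# S43 / D / Main : statement (d) for `π : X₁(N) → X₀(N)`

If `π^* x` (`x ∈ ES.Kum N m`) has a representative in `F1(N)` which is constant modulo the Gauss valuation of `A((t))`, then
`d • x` has a representative in `F_N` which is constant modulo the Gauss valuation (`SS.RedConst`), where
`0 < d ≤ [F1(N) : F_N]` depends only on `N` and `A` (not on `m`).
-/

set_option autoImplicit false
set_option linter.unusedSectionVars false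
set_option linter.style.haveILetI false

open AlgebraicCurve ModularCurve

namespace Fermat.Agent.S43.DN

open Fermat.Agent.S48
open Fermat.Agent.ES (Qb GQ FF kA resA)
open Fermat.Agent.SS (RedTo RedUp RedConst cst cstk)
open Fermat.Agent.S43.R0 (incl coe_incl FF_le pull pull_mk inclU coe_inclU finite_along)

noncomputable section

variable {N : ℕ} [NeZero N] (hN : 5 ≤ N) (A : ValuationSubring Qb)

theorem piv_QField (Q : B1.QField) : Piv A Q.E := by
  intro x hx hx0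
  obtain ⟨c, a, b, hc, -, -, ha, hb, e⟩ :=
    Q.exists_integral_fraction A ⟨x, hx⟩ (fun h => hx0 (congrArg Subtype.val h))
  refine ⟨c⁻¹, coeffMap (resA A) a / coeffMap (resA A) b,
    inv_ne_zero hc, div_ne_zero ha hb, a, b, hb, ?_, ?_⟩
  · rw [mul_assoc, e, ← mul_assoc, ← map_mul, inv_mul_cancel₀ hc, map_one, one_mul]
  · rw [div_mul_cancel₀ _ hb]

/-- the degree of `π`. -/
def degPi : ℕ :=
  @Module.finrank (FF N) (X1.F1Q N).F _ _ (algebraAlong (incl hN)).toModule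

theorem linBound_F1 : LinBound (modularFunctionFieldBar N) (X1.F1Q N).E (degPi hN) := by
  intro ι _ X hX hind
  letI : Algebra (FF N) (X1.F1Q N).F := algebraAlong (incl hN)
  letI : Module (FF N) (X1.F1Q N).F := (algebraAlong (incl hN)).toModule
  haveI : Module.Finite (FF N) (X1.F1Q N).F := finite_along hN
  have hli : LinearIndependent (FF N) (fun i : ι => (⟨X i, hX i⟩ : (X1.F1Q N).F)) := by
    rw [Fintype.linearIndependent_iff]
    intro g hg i
    have h1 := hind (fun i => ((g i : FF N) : LaurentSeries Qb)) (fun i => (g i).2) ?_ i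
    · exact Subtype.ext h1
    · have h2 : ((∑ i, g i • (⟨X i, hX i⟩ : (X1.F1Q N).F) : (X1.F1Q N).F) : LaurentSeries Qb) = 0 := by
        rw [hg]; rfl
      rw [← h2, AddSubmonoidClass.coe_finsetSum]
      refine Finset.sum_congr rfl fun i _ => ?_
      show _ = ((incl hN (g i) * (⟨X i, hX i⟩ : (X1.F1Q N).F) : (X1.F1Q N).F) : LaurentSeries Qb)
      rw [MulMemClass.coe_mul, coe_incl]
  exact hli.fintype_card_le_finrank

/-- a class of `F1(N)` with a representative which is constant modulo the Gauss valuation. -/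
def InKooY (m : ℕ) (z : B1.Kum Qb (X1.F1Q N).F m) : Prop :=
  ∃ g : B1.Dm Qb (X1.F1Q N).F m, B1.Kum.mk g = z ∧
    RedUp A ((((g : (X1.F1Q N).Fˣ) : (X1.F1Q N).F)) : LaurentSeries Qb) 1

/-- **(d).** -/
theorem main : ∃ d : ℕ, 0 < d ∧ d ≤ degPi hN ∧ ∀ (m : ℕ) (x : Fermat.Agent.ES.Kum N m),
    InKooY A m (pull hN m x) →
      ∃ u : Fermat.Agent.ES.Dm N m, Fermat.Agent.ES.Kum.mk u = d • x ∧
        RedConst A (((u : (FF N)ˣ)) : FF N) := by
  obtain ⟨d, hd0, hdn, H⟩ := main_abs (A := A) (FF_le hN) (piv_QField A (X1.F1Q N)) (linBound_F1 hN)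
  refine ⟨d, hd0, hdn, fun m x hx => ?_⟩
  obtain ⟨f, rfl⟩ := Fermat.Agent.ES.Kum.mk_surjective x
  obtain ⟨g, hg, hred⟩ := hx
  rw [pull_mk, B1.Kum.mk_eq_mk_iff] at hg
  obtain ⟨h, hh⟩ := hg
  -- `g = π^* f * h ^ m`
  have e1 : (((g : (X1.F1Q N).Fˣ) : (X1.F1Q N).F) : LaurentSeries Qb)
      = (((f : (FF N)ˣ) : FF N) : LaurentSeries Qb) * ((h : (X1.F1Q N).F) : LaurentSeries Qb) ^ m := by
    have h1 : (g : (X1.F1Q N).Fˣ) = inclU hN f * h ^ m := by
      rw [hh]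
      show (g : (X1.F1Q N).Fˣ) = inclU hN f * ((g : (X1.F1Q N).Fˣ) * (inclU hN f)⁻¹)
      rw [mul_comm (g : (X1.F1Q N).Fˣ), mul_inv_cancel_left]
    rw [h1, Units.val_mul, Units.val_pow_eq_pow_val, coe_inclU, MulMemClass.coe_mul,
      SubmonoidClass.coe_pow, coe_incl]
  rw [e1] at hred
  obtain ⟨y', hy'E, hy'0, hred'⟩ := H m _ _ ((f : (FF N)ˣ) : FF N).2
    (fun h0 => (f : (FF N)ˣ).ne_zero (Subtype.ext h0)) (h : (X1.F1Q N).F).2
    (fun h0 => h.ne_zero (Subtype.ext h0)) hred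
  have hy'0' : (⟨y', hy'E⟩ : FF N) ≠ 0 := fun h0 => hy'0 (congrArg Subtype.val h0)
  have hP : (Units.mk0 (⟨y', hy'E⟩ : FF N) hy'0') ^ m ∈ Fermat.Agent.ES.Dm N m :=
    Fermat.Agent.ES.Pw_le_Dm N m ⟨_, rfl⟩
  refine ⟨f ^ d * ⟨_, hP⟩, ?_, ?_⟩
  · rw [Fermat.Agent.ES.Kum.mk_mul, Fermat.Agent.ES.Kum.mk_pow,
      (Fermat.Agent.ES.Kum.mk_eq_zero_iff (⟨_, hP⟩ : Fermat.Agent.ES.Dm N m)).mpr ⟨_, rfl⟩, add_zero]
  · apply Fermat.Agent.SS.redConst_of_redUp
    exact hred'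

/-- a class of `F_N` with a representative which is constant modulo the Gauss valuation. -/
def InKooX (m : ℕ) (x : Fermat.Agent.ES.Kum N m) : Prop :=
  ∃ u : Fermat.Agent.ES.Dm N m, Fermat.Agent.ES.Kum.mk u = x ∧ RedConst A (((u : (FF N)ˣ)) : FF N)

theorem InKooX.nsmul {m : ℕ} {x : Fermat.Agent.ES.Kum N m} (h : InKooX A m x) (e : ℕ) :
    InKooX A m (e • x) := by
  obtain ⟨u, rfl, hu⟩ := h
  refine ⟨u ^ e, Fermat.Agent.ES.Kum.mk_pow u e, ?_⟩
  obtain ⟨c, y₁, y₂, hc, -, -, heq, hne, e1⟩ := hu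
  have h1 : RedUp A ((((u : (FF N)ˣ)) : FF N) : LaurentSeries Qb) 1 :=
    ⟨c, hc, y₁, y₂, hne, e1, by rw [heq, one_mul]⟩
  apply Fermat.Agent.SS.redConst_of_redUp
  have h2 := h1.pow e
  rw [one_pow] at h2
  exact h2

/-- **(d), `p`-power form**: there is `b`, depending only on `N`, `A`, `p`, with `p ^ b ≤ [F1(N) : F_N]`, such that for all `K`:
if `π^* x` is constant modulo the Gauss valuation then so is `p ^ b • x`. -/
theorem main_pow {p : ℕ} (hp : p.Prime) : ∃ b : ℕ, p ^ b ≤ degPi hN ∧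
    ∀ (K : ℕ) (x : Fermat.Agent.ES.Kum N (p ^ K)), InKooY A (p ^ K) (pull hN (p ^ K) x) →
      InKooX A (p ^ K) (p ^ b • x) := by
  obtain ⟨d, hd0, hdn, H⟩ := main hN A
  obtain ⟨b, d', hd', rfl⟩ := Nat.exists_eq_pow_mul_and_not_dvd hd0.ne' p hp.ne_one
  refine ⟨b, le_trans (Nat.le_mul_of_pos_right _ (Nat.pos_of_ne_zero ?_)) hdn, fun K x hx => ?_⟩
  · rintro rfl
    exact hd' (dvd_zero p)
  obtain ⟨u, hu, hred⟩ := H (p ^ K) x hx
  have hX : InKooX A (p ^ K) ((p ^ b * d') • x) := ⟨u, hu, hred⟩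
  have hcop : Nat.Coprime d' (p ^ K) :=
    Nat.Coprime.pow_right K ((Nat.Prime.coprime_iff_not_dvd hp).mpr hd').symm
  -- `e * d' ≡ 1 mod p ^ K`
  have hmpos : 0 < p ^ K := pow_pos hp.pos K
  obtain ⟨e, he⟩ : ∃ e : ℕ, e * d' ≡ 1 [MOD p ^ K] := by
    refine ⟨d' ^ ((p ^ K).totient - 1), ?_⟩
    have h0 : 0 < (p ^ K).totient := Nat.totient_pos.mpr hmpos
    have h1 : d' ^ ((p ^ K).totient - 1) * d' = d' ^ (p ^ K).totient := by
      rw [← pow_succ]
      congr 1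
      omega
    rw [h1]
    exact Nat.ModEq.pow_totient hcop
  have h1 := hX.nsmul A e
  have key : ∀ a : ℕ, a • x = (a % p ^ K) • x := by
    intro a
    conv_lhs => rw [← Nat.div_add_mod a (p ^ K)]
    rw [add_smul, mul_comm, mul_smul, Fermat.Agent.ES.Kum.nsmul_eq_zero x, smul_zero, zero_add]
  have h2 : e • (p ^ b * d') • x = p ^ b • x := by
    rw [smul_smul, show e * (p ^ b * d') = p ^ b * (e * d') by ring, mul_smul]
    congr 1
    rw [key (e * d'), he, ← key 1, one_smul]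
  rwa [h2] at h1

end

end Fermat.Agent.S43.DN
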