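import Fermat.Agent.S43.D.Poinc
import Fermat.Agent.S43.D.Sharp
import Fermat.Agent.S43.D.Main
import Fermat.Agent.S44.Eis.Red
import Fermat.Agent.S33.Defs

/-!
# S43 / D / PInst : the concrete instance of the Poincare-series argument (exact form of (d))

`Q` a `QField` with Hecke data `H` of level `N`, `A | q`.
`RC` = units which are constant modulo the Gauss valuation, `R1` = units `≡ 1`,
`EE P u = T_P u / (⟨P⟩ u * u ^ P)`.

`exact_d` : `x ∈ ES.Kum N m`; if `π^* x` has a representative all of whose diamond translates are constant modulo the Gauss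
valuation, then `c • (T_P x - (P + 1) • x)` has a representative in `F_N` which is constant modulo the Gauss valuation, where
`c` is the index of any subgroup of the diamonds of order prime to `q`.
-/

set_option autoImplicit false
set_option linter.unusedSectionVars false
set_option linter.style.haveILetI false

open AlgebraicCurve ModularCurve

namespace Fermat.Agent.S43.DPI

open Fermat.Agent.S48
open Fermat.Agent.ES (Qb GQ FF kA resA Vq normSer heckeSer)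
open Fermat.Agent.SS (RedTo RedUp RedConst cst cstk)

noncomputable section

variable {A : ValuationSubring Qb}

theorem ne_zero_of_redTo_one {x : LaurentSeries Qb} (h : RedTo A x 1) : x ≠ 0 := by
  rintro rfl
  exact one_ne_zero (h.unique DN.redTo_zero)

theorem redTo_normSer {q ℓ : ℕ} [NeZero ℓ] (hq : q.Prime) (hA : A.LiesOverPrime q) (hℓ : ℓ.Prime)
    (hℓq : ℓ ≠ q) {x : LaurentSeries Qb} (h : RedTo A x 1) : RedTo A (normSer ℓ x) 1 := by
  have hx := ne_zero_of_redTo_one h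
  have h1 := S44.Eis.RedTo.heckeSer hq hA hℓ hℓq h
  have h2 := h.vq ℓ
  rw [map_one] at h2
  rw [Fermat.Agent.ES.heckeSer_one] at h1
  refine (h1.mul (h2.inv one_ne_zero)).congr ?_ (by simp)
  have hV : Vq Qb ℓ x ≠ 0 := by rw [Ne, map_eq_zero]; exact hx
  rw [Fermat.Agent.ES.heckeSer, mul_comm, ← mul_assoc, inv_mul_cancel₀ hV, one_mul]

/-- the series identity behind `HE`. -/
theorem redTo_E {q ℓ : ℕ} [NeZero ℓ] (hq : q.Prime) (hA : A.LiesOverPrime q) (hℓ : ℓ.Prime)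
    (hℓq : ℓ ≠ q) {u₀ u₁ : LaurentSeries Qb} (h₀ : RedUp A u₀ 1) (h₁ : RedUp A u₁ 1) :
    RedTo A (B1.hecke2 ℓ u₁ u₀ * (u₁ * u₀ ^ ℓ)⁻¹) 1 := by
  obtain ⟨c₀, hc₀, h₀⟩ := h₀
  obtain ⟨c₁, hc₁, h₁⟩ := h₁
  obtain ⟨ζ, hζ⟩ := Fermat.Agent.ES.exists_primitiveRoot_Qb ℓ
  have k1 := h₁.vq ℓ
  rw [map_one] at k1
  have k2 := redTo_normSer hq hA hℓ hℓq h₀
  have k3 := (h₁.mul (h₀.pow ℓ)).inv (by simp)
  refine ((k1.mul k2).mul k3).congr ?_ (by simp)
  have hu₀ : u₀ ≠ 0 := right_ne_zero_of_mul (ne_zero_of_redTo_one h₀)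
  have hu₁ : u₁ ≠ 0 := right_ne_zero_of_mul (ne_zero_of_redTo_one h₁)
  have e0 : cst c₀ ≠ 0 := by rw [Ne, map_eq_zero]; exact hc₀
  have e1 : cst c₁ ≠ 0 := by rw [Ne, map_eq_zero]; exact hc₁
  rw [map_mul, Fermat.Agent.SS.Vq_cst, Fermat.Agent.ES.normSer_mul ℓ hζ, B1.normSer_algebraMap,
    B1.hecke2, map_pow]
  field_simp
  rw [mul_pow]
  ring

section Generic

variable {Q : B1.QField} {N : ℕ} (H : B1.HeckeData Q N) (A)

/-- units which are constant modulo the Gauss valuation. -/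
def RC (Q : B1.QField) : Subgroup Q.Fˣ where
  carrier := {u | RedUp A (((u : Q.Fˣ) : Q.F) : LaurentSeries Qb) 1}
  mul_mem' := by
    intro a b ha hb
    exact (RedUp.mul ha hb).congr rfl (one_mul 1)
  one_mem' := ⟨1, one_ne_zero, RedTo.one.congr (by
    rw [cst, map_one, one_mul]; rfl) rfl⟩
  inv_mem' := by
    intro a ha
    refine (RedUp.inv ha one_ne_zero).congr ?_ inv_one
    rw [Units.val_inv_eq_inv_val]
    rfl

/-- units which are `≡ 1` modulo the Gauss valuation. -/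
def R1 (Q : B1.QField) : Subgroup Q.Fˣ where
  carrier := {u | RedTo A (((u : Q.Fˣ) : Q.F) : LaurentSeries Qb) 1}
  mul_mem' := by
    intro a b ha hb
    exact (RedTo.mul ha hb).congr rfl (one_mul 1)
  one_mem' := RedTo.one
  inv_mem' := by
    intro a ha
    refine (RedTo.inv ha one_ne_zero).congr ?_ inv_one
    rw [Units.val_inv_eq_inv_val]
    rfl

theorem mem_RC {u : Q.Fˣ} : u ∈ RC A Q ↔ RedUp A (((u : Q.Fˣ) : Q.F) : LaurentSeries Qb) 1 := Iff.rfl
theorem mem_R1 {u : Q.Fˣ} : u ∈ R1 A Q ↔ RedTo A (((u : Q.Fˣ) : Q.F) : LaurentSeries Qb) 1 := Iff.rfl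

/-- the diamonds as ring automorphisms. -/
def rho (g : (ZMod N)ˣ) : Q.F ≃+* Q.F := (H.dia g).toRingEquiv

theorem rho_apply (g : (ZMod N)ˣ) (x : Q.F) : rho H g x = H.dia g x := rfl

/-- `E_P u = T_P u / (⟨P⟩ u * u ^ P)`. -/
def EE (P : Fermat.Agent.ES.D.GoodPrime N) : Q.Fˣ →* Q.Fˣ :=
  H.heckeU P / (DP.actU (rho H) (B1.gpUnit P) * powMonoidHom P.1)

theorem EE_apply (P : Fermat.Agent.ES.D.GoodPrime N) (u : Q.Fˣ) :
    EE H P u = H.heckeU P u / (DP.actU (rho H) (B1.gpUnit P) u * u ^ P.1) := rfl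

theorem hyp {q : ℕ} (hq : q.Prime) (hA : A.LiesOverPrime q) (P : Fermat.Agent.ES.D.GoodPrime N)
    (hPq : P.1 ≠ q) {n : ℕ} (hn : n ≠ 0) (S : Subgroup (ZMod N)ˣ) [Fintype S]
    (hS : ¬ q ∣ Fintype.card S) :
    DP.Hyp (rho H) (R1 A Q) (RC A Q) (EE H P) n S where
  one x := by rw [rho_apply, map_one]; rfl
  mul g h x := by rw [rho_apply, map_mul]; rfl
  le := fun u hu => ⟨1, one_ne_zero, RedTo.congr hu (by rw [cst, map_one, one_mul]) rfl⟩
  comm g u := by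
    have h1 : H.heckeU P (DP.actU (rho H) g u) = DP.actU (rho H) g (H.heckeU P u) :=
      Units.ext (H.dia_heckeF g P u).symm
    have h2 : DP.actU (rho H) (B1.gpUnit P) (DP.actU (rho H) g u)
        = DP.actU (rho H) g (DP.actU (rho H) (B1.gpUnit P) u) := by
      apply Units.ext
      show H.dia (B1.gpUnit P) (H.dia g u) = H.dia g (H.dia (B1.gpUnit P) u)
      rw [← AlgEquiv.mul_apply, ← AlgEquiv.mul_apply, ← map_mul, ← map_mul, mul_comm]
    rw [EE_apply, EE_apply, h1, h2, map_div, map_mul, map_pow]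
  HE u hu := by
    have h0 : RedUp A (((u : Q.Fˣ) : Q.F) : LaurentSeries Qb) 1 := by
      have := hu 1
      rw [mem_RC, DP.coe_actU, rho_apply, map_one] at this
      exact this
    have h1 := hu (B1.gpUnit P)
    rw [mem_RC, DP.coe_actU, rho_apply] at h1
    have := redTo_E hq hA P.2.1 hPq h0 h1
    rw [mem_R1]
    refine this.congr ?_ rfl
    rw [EE_apply, div_eq_mul_inv, Units.val_mul, Units.val_inv_eq_inv_val, Units.val_mul,
      Units.val_pow_eq_pow_val]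
    rfl
  root z hz := by
    rw [mem_RC] at hz ⊢
    refine DSharp.redUp_one_of_pow hn ?_ (hz.congr ?_ rfl)
    · obtain ⟨c, r, hc, hr, h⟩ := DN.piv_QField A Q _ (z : Q.F).2
        (fun h0 => z.ne_zero (Subtype.ext h0))
      exact ⟨r, hr, c, hc, h⟩
    · rw [Units.val_pow_eq_pow_val]
      rfl
  sum w hw := by
    haveI := Fermat.Agent.ES.charP_kA hq hA
    have h1 := DN.redTo_sum (A := A) Finset.univ
      (fun g : S => (((w g : Q.Fˣ) : Q.F) : LaurentSeries Qb)) (fun _ => 1) (fun g _ => hw g)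
    have hc : ((Fintype.card S : ℕ) : kA A) ≠ 0 := by
      intro h0
      exact hS ((CharP.cast_eq_zero_iff (kA A) q _).mp h0)
    have e1 : (∑ _g : S, (1 : LaurentSeries (kA A))) = cstk A ((Fintype.card S : ℕ) : kA A) := by
      rw [Finset.sum_const, Finset.card_univ, nsmul_eq_mul, mul_one, cstk, map_natCast]
    rw [e1] at h1
    have h2 : RedUp A (∑ g : S, (((w g : Q.Fˣ) : Q.F) : LaurentSeries Qb)) 1 :=
      DN.redUp_one_of_cstk hc ⟨1, one_ne_zero, h1.congr (by rw [cst, map_one, one_mul]) rfl⟩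
    have e2 : ((∑ g : S, ((w g : Q.Fˣ) : Q.F) : Q.F) : LaurentSeries Qb)
        = ∑ g : S, (((w g : Q.Fˣ) : Q.F) : LaurentSeries Qb) :=
      AddSubmonoidClass.coe_finsetSum _ _
    have h3 : (∑ g : S, ((w g : Q.Fˣ) : Q.F) : Q.F) ≠ 0 := by
      intro h0
      rw [h0] at e2
      exact DSharp.ne_zero_of_redUp one_ne_zero h2 e2.symm
    refine ⟨Units.mk0 _ h3, rfl, ?_⟩
    rw [mem_RC, Units.val_mk0, e2]
    exact h2

end Generic

section Concrete

open Fermat.Agent.S43.R0 (incl coe_incl pull pull_mk inclU coe_inclU HD DD dia_incl mem_range_incl)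

variable {N : ℕ} [NeZero N] (hN : 5 ≤ N) (A)

/-- a class of `F1(N)` with a representative all of whose diamond translates are constant modulo the Gauss valuation. -/
def InKooU (m : ℕ) (z : B1.Kum Qb (X1.F1Q N).F m) : Prop :=
  ∃ g : B1.Dm Qb (X1.F1Q N).F m, B1.Kum.mk g = z ∧ ∀ d : (ZMod N)ˣ,
    RedUp A (((HD hN).dia d ((g : (X1.F1Q N).Fˣ) : (X1.F1Q N).F) : (X1.F1Q N).F) : LaurentSeries Qb) 1

theorem actU_inclU (d : (ZMod N)ˣ) (f : (FF N)ˣ) :
    DP.actU (rho (HD hN)) d (inclU hN f) = inclU hN f :=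
  Units.ext (dia_incl hN d f)

theorem heckeU_inclU (P : Fermat.Agent.ES.D.GoodPrime N) (f : (FF N)ˣ) :
    (HD hN).heckeU P (inclU hN f)
      = inclU hN (Fermat.Agent.ES.heckeU N P.1 P.2.1 P.2.2 f) := by
  apply Units.ext
  apply Subtype.ext
  have h1 : (HD hN).dia (B1.gpUnit P) (incl hN f) = incl hN f := dia_incl hN _ f
  rw [B1.HeckeData.coe_heckeU, B1.HeckeData.coe_heckeF, coe_inclU, coe_inclU, h1, coe_incl,
    coe_incl, Fermat.Agent.ES.coe_heckeU, Fermat.Agent.ES.coe_heckeF]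
  rfl

theorem EE_inclU (P : Fermat.Agent.ES.D.GoodPrime N) (f : (FF N)ˣ) :
    EE (HD hN) P (inclU hN f)
      = inclU hN (Fermat.Agent.ES.heckeU N P.1 P.2.1 P.2.2 f * (f ^ (P.1 + 1))⁻¹) := by
  rw [EE_apply, actU_inclU, heckeU_inclU, map_mul, map_inv, map_pow, div_eq_mul_inv, pow_succ']

/-- **the exact form of (d).** -/
theorem exact_d {q : ℕ} (hq : q.Prime) (hA : A.LiesOverPrime q)
    (P : Fermat.Agent.ES.D.GoodPrime N) (hPq : P.1 ≠ q) {m : ℕ} (hm : m ≠ 0)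
    (S : Subgroup (ZMod N)ˣ) (hS : ¬ q ∣ Nat.card S) (x : Fermat.Agent.ES.Kum N m)
    (hx : InKooU A hN m (pull hN m x)) :
    Fermat.Agent.S33.InK1 A (S.index • (Fermat.Agent.ES.heckeKum N P.1 P.2.1 P.2.2 m x - (P.1 + 1) • x)) := by
  classical
  obtain ⟨f, rfl⟩ := Fermat.Agent.ES.Kum.mk_surjective x
  obtain ⟨g, hg, hred⟩ := hx
  rw [pull_mk, B1.Kum.mk_eq_mk_iff] at hg
  obtain ⟨h, hh⟩ := hg
  have h1 : (g : (X1.F1Q N).Fˣ) = inclU hN f * h ^ m := by
    rw [hh]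
    show (g : (X1.F1Q N).Fˣ) = inclU hN f * ((g : (X1.F1Q N).Fˣ) * (inclU hN f)⁻¹)
    rw [mul_comm (g : (X1.F1Q N).Fˣ), mul_inv_cancel_left]
  have hS' : ¬ q ∣ Fintype.card S := by rwa [← Nat.card_eq_fintype_card]
  obtain ⟨y', hy'inv, hy'⟩ := DP.main (hyp A (HD hN) hq hA P hPq hm S hS') (inclU hN f) h
    (fun d => actU_inclU hN d f) (fun d => by
      rw [← h1, mem_RC]
      exact hred d)
  obtain ⟨y0, hy0⟩ := mem_range_incl hN (y' : (X1.F1Q N).F)
    (fun d => congrArg Units.val (hy'inv d))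
  have hy00 : y0 ≠ 0 := by
    rintro rfl
    rw [map_zero] at hy0
    exact y'.ne_zero hy0.symm
  have hy0' : inclU hN (Units.mk0 y0 hy00) = y' := Units.ext hy0
  have hP : (Units.mk0 y0 hy00) ^ m ∈ Fermat.Agent.ES.Dm N m :=
    Fermat.Agent.ES.Pw_le_Dm N m ⟨_, rfl⟩
  let F1 : Fermat.Agent.ES.Dm N m := ⟨Fermat.Agent.ES.heckeU N P.1 P.2.1 P.2.2 f,
    Fermat.Agent.ES.heckeU_mem_Dm N P.1 P.2.1 P.2.2 f.2⟩
  refine ⟨(F1 * (f ^ (P.1 + 1))⁻¹) ^ S.index * ⟨_, hP⟩, ?_, ?_⟩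
  · rw [Fermat.Agent.ES.Kum.mk_mul, Fermat.Agent.ES.Kum.mk_pow, Fermat.Agent.ES.Kum.mk_mul,
      Fermat.Agent.ES.Kum.mk_inv, Fermat.Agent.ES.Kum.mk_pow,
      (Fermat.Agent.ES.Kum.mk_eq_zero_iff (⟨_, hP⟩ : Fermat.Agent.ES.Dm N m)).mpr ⟨_, rfl⟩,
      add_zero, Fermat.Agent.ES.heckeKum_mk, sub_eq_add_neg]
  · apply Fermat.Agent.SS.redConst_of_redUp
    rw [EE_inclU, ← hy0', ← map_pow, ← map_pow, ← map_mul, mem_RC, coe_inclU, coe_incl] at hy'
    exact hy'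

theorem inK1_nsmul {m : ℕ} {x : Fermat.Agent.ES.Kum N m} (h : Fermat.Agent.S33.InK1 A x) (e : ℕ) :
    Fermat.Agent.S33.InK1 A (e • x) :=
  DN.InKooX.nsmul A h e

theorem inK1_of_nsmul {m c : ℕ} (hm : 0 < m) (hc : Nat.Coprime c m) {x : Fermat.Agent.ES.Kum N m}
    (h : Fermat.Agent.S33.InK1 A (c • x)) : Fermat.Agent.S33.InK1 A x := by
  obtain ⟨e, he⟩ : ∃ e : ℕ, e * c ≡ 1 [MOD m] := by
    refine ⟨c ^ (m.totient - 1), ?_⟩
    have h0 : 0 < m.totient := Nat.totient_pos.mpr hm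
    have h1 : c ^ (m.totient - 1) * c = c ^ m.totient := by
      rw [← pow_succ]
      congr 1
      omega
    rw [h1]
    exact Nat.ModEq.pow_totient hc
  have h1 := inK1_nsmul A h e
  have key : ∀ a : ℕ, a • x = (a % m) • x := by
    intro a
    conv_lhs => rw [← Nat.div_add_mod a m]
    rw [add_smul, mul_comm, mul_smul, Fermat.Agent.ES.Kum.nsmul_eq_zero x, smul_zero, zero_add]
  have h2 : e • c • x = x := by
    rw [smul_smul, key (e * c), he, ← key 1, one_smul]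
  rwa [h2] at h1

/-- **the exact form of (d), exponent `p ^ K`, `p ≠ q`.** -/
theorem exact_d_pow {p q : ℕ} (hp : p.Prime) (hq : q.Prime) (hpq : p ≠ q) (hA : A.LiesOverPrime q)
    (P : Fermat.Agent.ES.D.GoodPrime N) (hPq : P.1 ≠ q) (K : ℕ)
    (x : Fermat.Agent.ES.Kum N (p ^ K)) (hx : InKooU A hN (p ^ K) (pull hN (p ^ K) x)) :
    Fermat.Agent.S33.InK1 A
      (Fermat.Agent.ES.heckeKum N P.1 P.2.1 P.2.2 (p ^ K) x - (P.1 + 1) • x) := by
  haveI : Fact p.Prime := ⟨hp⟩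
  let S : Sylow p (ZMod N)ˣ := default
  obtain ⟨n, hn⟩ := IsPGroup.iff_card.mp S.isPGroup'
  have hS : ¬ q ∣ Nat.card (S : Subgroup (ZMod N)ˣ) := by
    rw [hn]
    intro h
    exact hpq ((Nat.prime_dvd_prime_iff_eq hq hp).mp (hq.dvd_of_dvd_pow h)).symm
  have h1 := exact_d A hN hq hA P hPq (pow_pos hp.pos K).ne' (S : Subgroup (ZMod N)ˣ) hS x hx
  have hidx : ¬ p ∣ (S : Subgroup (ZMod N)ˣ).index := S.not_dvd_index
  exact inK1_of_nsmul A (pow_pos hp.pos K)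
    (Nat.Coprime.pow_right K ((Nat.Prime.coprime_iff_not_dvd hp).mpr hidx).symm) h1

end Concrete

end

end Fermat.Agent.S43.DPI
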