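import Mathlib

/-!
# S43 / D / Poinc : the abstract Poincare-series argument for the exact form of (d)

`F` a field, `G` a finite group acting on `F` by ring automorphisms `ρ g`, `R1 ≤ RC` two subgroups of `Fˣ`
(`R1` : "`≡ 1` for ONE valuation `v`", `RC` : "constant for `v`"; no `G`-stability is assumed),
`E : Fˣ →* Fˣ` a homomorphism commuting with `G` which maps `UU = {u | ∀ g, g u ∈ RC}` into `R1`
(in the application `E u = T_l u / (⟨l⟩ u * u ^ l)`), `P ≤ G` a subgroup such that a sum of `#P` elements of `R1` lies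
in `RC` (`#P` is a unit for `v`).

`main` : if `f` is `G`-invariant and `f * y ^ n ∈ UU`, then `(E f) ^ [G : P] * y' ^ n ∈ RC` for some
`G`-invariant `y'`.
-/

set_option autoImplicit false
set_option linter.unusedSectionVars false

namespace Fermat.Agent.S43.DP

variable {F : Type*} [Field F] {G : Type*} [Group G]

/-- the action on units. -/
def actU (ρ : G → F ≃+* F) (g : G) : Fˣ →* Fˣ := Units.map ((ρ g : F ≃+* F) : F →* F)

theorem coe_actU (ρ : G → F ≃+* F) (g : G) (u : Fˣ) : ((actU ρ g u : Fˣ) : F) = ρ g u := rfl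

/-- the hypotheses of the Poincare-series argument. -/
structure Hyp (ρ : G → F ≃+* F) (R1 RC : Subgroup Fˣ) (E : Fˣ →* Fˣ) (n : ℕ) (P : Subgroup G)
    [Fintype P] : Prop where
  one : ∀ x, ρ 1 x = x
  mul : ∀ g h x, ρ (g * h) x = ρ g (ρ h x)
  le : R1 ≤ RC
  comm : ∀ g u, E (actU ρ g u) = actU ρ g (E u)
  HE : ∀ u, (∀ g, actU ρ g u ∈ RC) → E u ∈ R1
  root : ∀ z : Fˣ, z ^ n ∈ RC → z ∈ RC
  sum : ∀ w : P → Fˣ, (∀ g, w g ∈ R1) → ∃ b : Fˣ, (b : F) = ∑ g, (w g : F) ∧ b ∈ RC

variable {ρ : G → F ≃+* F} {R1 RC : Subgroup Fˣ} {E : Fˣ →* Fˣ} {n : ℕ} {P : Subgroup G}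

theorem main [Fintype P] [Finite G] (H : Hyp ρ R1 RC E n P) (f y : Fˣ)
    (hf : ∀ g, actU ρ g f = f) (hu : ∀ g, actU ρ g (f * y ^ n) ∈ RC) :
    ∃ y' : Fˣ, (∀ g, actU ρ g y' = y') ∧ (E f) ^ P.index * y' ^ n ∈ RC := by
  classical
  have : Fintype (G ⧸ P) := Fintype.ofFinite _
  have am : ∀ g h u, actU ρ (g * h) u = actU ρ g (actU ρ h u) :=
    fun g h u => Units.ext (H.mul g h u)
  -- stability of `UU`
  have hUact : ∀ (u : Fˣ), (∀ g, actU ρ g u ∈ RC) → ∀ h g, actU ρ g (actU ρ h u) ∈ RC := by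
    intro u hu h g
    rw [← am]
    exact hu _
  have hE1 : ∀ (u : Fˣ), (∀ g, actU ρ g u ∈ RC) → ∀ h, actU ρ h (E u) ∈ R1 := by
    intro u hu h
    rw [← H.comm]
    exact H.HE _ (hUact u hu h)
  -- the cocycle `z`
  set z : G → Fˣ := fun g => actU ρ g y / y with hz
  have hzn : ∀ g, z g ^ n = actU ρ g (f * y ^ n) / (f * y ^ n) := by
    intro g
    rw [hz]
    simp only [div_pow, map_mul, map_pow, hf g]
    rw [mul_div_mul_left_eq_div]
  have hzU : ∀ g h, actU ρ h (z g) ∈ RC := by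
    intro g h
    apply H.root
    rw [← map_pow, hzn, map_div, ← am]
    exact RC.div_mem (hu _) (hu _)
  have hzc : ∀ g' g, z (g' * g) = actU ρ g' (z g) * z g' := by
    intro g' g
    rw [hz]
    simp only [map_div, am]
    rw [div_mul_div_cancel]
  set w : G → Fˣ := fun g => E (z g) with hw
  have hw1 : ∀ g h, actU ρ h (w g) ∈ R1 := fun g h => hE1 _ (hzU g) h
  have hwc : ∀ g' g, w (g' * g) = actU ρ g' (w g) * w g' := by
    intro g' g
    rw [hw]
    simp only [hzc, map_mul, H.comm]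
  have a1 : ∀ u, actU ρ 1 u = u := fun u => Units.ext (H.one u)
  -- the Poincare series
  obtain ⟨b, hb, -⟩ := H.sum (fun g : P => w g) (fun g => by simpa [a1] using hw1 g 1)
  have hbU : ∀ h, actU ρ h b ∈ RC := by
    intro h
    obtain ⟨b', hb', hb'C⟩ := H.sum (fun g : P => actU ρ h (w g)) (fun g => hw1 g h)
    have : b' = actU ρ h b := by
      apply Units.ext
      rw [hb', coe_actU, hb, map_sum]
      rfl
    rwa [← this]
  have hbP : ∀ g' : P, actU ρ g' b * w g' = b := by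
    intro g'
    apply Units.ext
    rw [Units.val_mul, coe_actU, hb, map_sum, Finset.sum_mul]
    refine Fintype.sum_equiv (Equiv.mulLeft g') _ _ (fun g => ?_)
    have := congrArg (fun u : Fˣ => (u : F)) (hwc g' g)
    simp only [Units.val_mul, coe_actU] at this
    rw [← this]
    rfl
  set s : Fˣ := E y * b with hs
  have hsP : ∀ g' : P, actU ρ g' s = s := by
    intro g'
    have h1 : actU ρ g' y = z g' * y := by rw [hz]; simp
    rw [hs, map_mul, ← H.comm, h1, map_mul]
    calc E (z g') * E y * actU ρ g' b = E y * (actU ρ g' b * w g') := by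
          rw [hw, mul_comm (E (z g')) (E y), mul_assoc, mul_comm (E (z g'))]
      _ = E y * b := by rw [hbP]
  have hfs : ∀ h, actU ρ h (E f * s ^ n) ∈ RC := by
    intro h
    have h1 : E f * s ^ n = E (f * y ^ n) * b ^ n := by
      rw [hs, mul_pow, map_mul, map_pow, mul_assoc]
    rw [h1, map_mul, map_pow]
    exact RC.mul_mem (H.le (hE1 _ hu h)) (RC.pow_mem (hbU h) n)
  have hEf : ∀ g, actU ρ g (E f) = E f := fun g => by rw [← H.comm, hf]
  refine ⟨∏ c : G ⧸ P, actU ρ c.out s, ?_, ?_⟩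
  · intro h
    rw [map_prod]
    refine Fintype.prod_equiv (MulAction.toPerm h) _ _ (fun c => ?_)
    have hk : ((h • c).out)⁻¹ * (h * c.out) ∈ P := by
      rw [← QuotientGroup.eq, QuotientGroup.out_eq']
      conv_lhs => rw [← QuotientGroup.out_eq' c]
      rfl
    have h2 : h * c.out = (h • c).out * (((h • c).out)⁻¹ * (h * c.out)) := by group
    rw [← am, h2, am, hsP ⟨_, hk⟩]
    rfl
  · have h3 : (E f) ^ P.index * (∏ c : G ⧸ P, actU ρ c.out s) ^ n
        = ∏ c : G ⧸ P, actU ρ c.out (E f * s ^ n) := by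
      simp only [map_mul, map_pow, hEf, Finset.prod_mul_distrib, Finset.prod_const,
        Finset.prod_pow, Finset.card_univ]
      rw [Subgroup.index_eq_card, Nat.card_eq_fintype_card]
    rw [h3]
    exact Subgroup.prod_mem _ (fun c _ => hfs _)

end Fermat.Agent.S43.DP
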