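import Fermat.Agent.S43.D.Poinc
import Fermat.Agent.S43.D.Sharp
import Fermat.Agent.S44.Eis.Red
import Fermat.Agent.S48.B1.Hecke

/-!
# S43 / D / PoincQ : the Poincare-series argument for a `B1.QField` with diamond and Hecke operators

`Q : B1.QField`, `H : B1.HeckeData Q N`, `A` a valuation ring of `ℚ̄` over `q`, `ℓ ≠ q` a good prime, `P` a subgroup of
`(ℤ/N)ˣ` of order prime to `q`.

`mainQ` : `f` fixed by all diamonds, all diamond conjugates of `f * y ^ n` constant for the Gauss valuation ⟹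
`(T_ℓ f / f ^ (ℓ + 1)) ^ [G : P] * y' ^ n` is constant for the Gauss valuation, for some `y'` fixed by all diamonds.
-/

set_option autoImplicit false
set_option linter.unusedSectionVars false

open AlgebraicCurve ModularCurve

namespace Fermat.Agent.S43.DP

open Fermat.Agent.S48
open Fermat.Agent.ES (Qb GQ kA resA Vq normSer heckeSer)
open Fermat.Agent.SS (RedTo RedUp cst cstk)

noncomputable section

variable {Q : B1.QField} {N : ℕ} (H : B1.HeckeData Q N) (A : ValuationSubring Qb)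

/-- units `≡ 1` for the Gauss valuation. -/
def R1Q (Q : B1.QField) (A : ValuationSubring Qb) : Subgroup Q.Fˣ where
  carrier := {u | RedTo A (((u : Q.Fˣ) : Q.F) : LaurentSeries Qb) 1}
  mul_mem' := by
    intro a b ha hb
    have := RedTo.mul ha hb
    rw [one_mul] at this
    exact this
  one_mem' := RedTo.one
  inv_mem' := by
    intro a ha
    have := RedTo.inv ha one_ne_zero
    rw [inv_one] at this
    show RedTo A (((a⁻¹ : Q.Fˣ) : Q.F) : LaurentSeries Qb) 1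
    rw [Units.val_inv_eq_inv_val]
    exact this

/-- units which are constant for the Gauss valuation. -/
def RCQ (Q : B1.QField) (A : ValuationSubring Qb) : Subgroup Q.Fˣ where
  carrier := {u | RedUp A (((u : Q.Fˣ) : Q.F) : LaurentSeries Qb) 1}
  mul_mem' := by
    intro a b ha hb
    have := RedUp.mul ha hb
    rw [one_mul] at this
    exact this
  one_mem' := ⟨1, one_ne_zero, by
    have : cst 1 * (((1 : Q.Fˣ) : Q.F) : LaurentSeries Qb) = 1 := by simp [cst]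
    rw [this]; exact RedTo.one⟩
  inv_mem' := by
    intro a ha
    have := RedUp.inv ha one_ne_zero
    rw [inv_one] at this
    show RedUp A (((a⁻¹ : Q.Fˣ) : Q.F) : LaurentSeries Qb) 1
    rw [Units.val_inv_eq_inv_val]
    exact this

theorem mem_R1Q {u : Q.Fˣ} : u ∈ R1Q Q A ↔ RedTo A (((u : Q.Fˣ) : Q.F) : LaurentSeries Qb) 1 := Iff.rfl

theorem mem_RCQ {u : Q.Fˣ} : u ∈ RCQ Q A ↔ RedUp A (((u : Q.Fˣ) : Q.F) : LaurentSeries Qb) 1 := Iff.rfl

theorem redUp_of_redTo {x : LaurentSeries Qb} {r : LaurentSeries (kA A)} (h : RedTo A x r) :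
    RedUp A x r := ⟨1, one_ne_zero, h.congr (by simp [cst]) rfl⟩

/-- the diamond action. -/
def rhoQ (d : (ZMod N)ˣ) : Q.F ≃+* Q.F := (H.dia d).toRingEquiv

theorem rhoQ_apply (d : (ZMod N)ˣ) (x : Q.F) : rhoQ H d x = H.dia d x := rfl

/-- `E_ℓ u = T_ℓ u / (⟨ℓ⟩ u * u ^ ℓ)`. -/
def EQ (ℓ : Fermat.Agent.ES.D.GoodPrime N) : Q.Fˣ →* Q.Fˣ :=
  H.heckeU ℓ / (actU (rhoQ H) (B1.gpUnit ℓ) * powMonoidHom ℓ.1)

theorem EQ_apply (ℓ : Fermat.Agent.ES.D.GoodPrime N) (u : Q.Fˣ) :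
    EQ H ℓ u = H.heckeU ℓ u / (actU (rhoQ H) (B1.gpUnit ℓ) u * u ^ ℓ.1) := rfl

theorem actU_comm (d d' : (ZMod N)ˣ) (u : Q.Fˣ) :
    actU (rhoQ H) d (actU (rhoQ H) d' u) = actU (rhoQ H) d' (actU (rhoQ H) d u) := by
  apply Units.ext
  show H.dia d (H.dia d' u) = H.dia d' (H.dia d u)
  have h1 : H.dia (d * d') (u : Q.F) = H.dia d (H.dia d' u) := by rw [map_mul]; rfl
  have h2 : H.dia (d' * d) (u : Q.F) = H.dia d' (H.dia d u) := by rw [map_mul]; rfl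
  rw [← h1, ← h2, mul_comm]

theorem EQ_comm (ℓ : Fermat.Agent.ES.D.GoodPrime N) (d : (ZMod N)ˣ) (u : Q.Fˣ) :
    EQ H ℓ (actU (rhoQ H) d u) = actU (rhoQ H) d (EQ H ℓ u) := by
  have h1 : H.heckeU ℓ (actU (rhoQ H) d u) = actU (rhoQ H) d (H.heckeU ℓ u) :=
    Units.ext (H.dia_heckeF d ℓ u).symm
  rw [EQ_apply, EQ_apply, h1, map_div, map_mul, map_pow, actU_comm]

/-- `hecke2` in terms of `heckeSer`. -/
theorem hecke2_eq (ℓ : ℕ) [NeZero ℓ] (x' x : LaurentSeries Qb) (hx : x ≠ 0) :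
    B1.hecke2 ℓ x' x = Vq Qb ℓ x' * heckeSer ℓ x * (Vq Qb ℓ x)⁻¹ := by
  have h0 : Vq Qb ℓ x ≠ 0 := fun h => hx (Fermat.Agent.ES.Vq_injective ℓ (by rw [h, map_zero]))
  rw [B1.hecke2, Fermat.Agent.ES.heckeSer]
  field_simp

/-- **(HE)** at the level of series. -/
theorem redTo_E {q : ℕ} (hq : q.Prime) (hA : A.LiesOverPrime q) {ℓ : ℕ} [NeZero ℓ] (hℓ : ℓ.Prime)
    (hℓq : ℓ ≠ q) {x x' : LaurentSeries Qb} (hx : RedUp A x 1) (hx' : RedUp A x' 1) :
    RedTo A (B1.hecke2 ℓ x' x * (x' * x ^ ℓ)⁻¹) 1 := by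
  have hx0 : x ≠ 0 := DSharp.ne_zero_of_redUp one_ne_zero hx
  have hx'0 : x' ≠ 0 := DSharp.ne_zero_of_redUp one_ne_zero hx'
  obtain ⟨c, hc, h⟩ := hx
  obtain ⟨c', hc', h'⟩ := hx'
  obtain ⟨ζ, hζ⟩ := Fermat.Agent.ES.exists_primitiveRoot_Qb ℓ
  have k1 := h'.vq ℓ
  have k2 := S44.Eis.RedTo.heckeSer hq hA hℓ hℓq h
  have k3 := (h.vq ℓ).inv (by rw [map_one]; exact one_ne_zero)
  have k4 := (h'.mul (h.pow ℓ)).inv (by rw [one_pow, one_mul]; exact one_ne_zero)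
  have k := ((k1.mul k2).mul k3).mul k4
  refine k.congr ?_ ?_
  · rw [hecke2_eq ℓ x' x hx0, map_mul, map_mul, Fermat.Agent.SS.Vq_cst, Fermat.Agent.SS.Vq_cst,
      Fermat.Agent.ES.heckeSer_mul ℓ hζ, S44.Eis.heckeSer_cst]
    have hc0 : cst c ≠ 0 := by rw [Ne, map_eq_zero]; exact hc
    have hc'0 : cst c' ≠ 0 := by rw [Ne, map_eq_zero]; exact hc'
    have h0 : Vq Qb ℓ x ≠ 0 := fun h => hx0 (Fermat.Agent.ES.Vq_injective ℓ (by rw [h, map_zero]))
    have e1 : cst (c ^ (ℓ + 1)) = cst c ^ (ℓ + 1) := map_pow _ _ _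
    rw [e1]
    field_simp
    ring
  · rw [map_one, Fermat.Agent.ES.heckeSer_one]
    simp

theorem exists_piv (u : Q.Fˣ) :
    ∃ r : LaurentSeries (kA A), r ≠ 0 ∧ RedUp A (((u : Q.Fˣ) : Q.F) : LaurentSeries Qb) r := by
  obtain ⟨c, a, b, hc, -, -, ha, hb, e⟩ := Q.exists_integral_fraction A (u : Q.F) u.ne_zero
  refine ⟨coeffMap (resA A) a / coeffMap (resA A) b,
    div_ne_zero ha hb, c⁻¹, inv_ne_zero hc, a, b, hb, ?_, ?_⟩
  · rw [mul_assoc, e, ← mul_assoc, ← map_mul, inv_mul_cancel₀ hc, map_one, one_mul]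
  · rw [div_mul_cancel₀ _ hb]

/-- the hypotheses of the abstract argument. -/
theorem hypQ {q : ℕ} (hq : q.Prime) (hA : A.LiesOverPrime q) (ℓ : Fermat.Agent.ES.D.GoodPrime N)
    (hℓq : ℓ.1 ≠ q) {n : ℕ} (hn : n ≠ 0) (P : Subgroup (ZMod N)ˣ) [Fintype P]
    (hP : ¬ q ∣ Fintype.card P) :
    Hyp (rhoQ H) (R1Q Q A) (RCQ Q A) (EQ H ℓ) n P where
  one x := by rw [rhoQ_apply, map_one]; rfl
  mul g h x := by rw [rhoQ_apply, map_mul]; rfl
  le u hu := redUp_of_redTo A hu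
  comm g u := EQ_comm H ℓ g u
  HE u hu := by
    have h1 : RedUp A (((u : Q.Fˣ) : Q.F) : LaurentSeries Qb) 1 := by
      have := hu 1
      rw [mem_RCQ, coe_actU, rhoQ_apply, map_one] at this
      exact this
    have h2 := hu (B1.gpUnit ℓ)
    rw [mem_RCQ, coe_actU, rhoQ_apply] at h2
    have := redTo_E A hq hA ℓ.2.1 hℓq h1 h2
    rw [mem_R1Q, EQ_apply]
    refine this.congr ?_ rfl
    rw [div_eq_mul_inv, Units.val_mul, Units.val_inv_eq_inv_val, Units.val_mul,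
      Units.val_pow_eq_pow_val, coe_actU, rhoQ_apply]
    rfl
  root z hz := by
    rw [mem_RCQ, Units.val_pow_eq_pow_val] at hz
    exact DSharp.redUp_one_of_pow hn (exists_piv A z) hz
  sum w hw := by
    have h1 := DSharp.redTo_sum (A := A) Finset.univ
      (fun g : P => (((w g : Q.Fˣ) : Q.F) : LaurentSeries Qb)) (fun _ => 1) (fun g _ => hw g)
    have hc : ((Fintype.card P : ℕ) : kA A) ≠ 0 := by
      have := Fermat.Agent.ES.charP_kA hq hA
      intro h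
      exact hP ((CharP.cast_eq_zero_iff (kA A) q _).mp h)
    have h2 : (∑ _g : P, (1 : LaurentSeries (kA A))) = cstk A ((Fintype.card P : ℕ) : kA A) := by
      rw [Finset.sum_const, Finset.card_univ, nsmul_eq_mul, mul_one, cstk, map_natCast]
    rw [h2] at h1
    have h3 := DSharp.redUp_one_of_cstk hc (redUp_of_redTo A h1)
    have h4 : ((∑ g : P, ((w g : Q.Fˣ) : Q.F) : Q.F) : LaurentSeries Qb)
        = ∑ g : P, (((w g : Q.Fˣ) : Q.F) : LaurentSeries Qb) := by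
      rw [AddSubmonoidClass.coe_finsetSum]
    have h5 : (∑ g : P, ((w g : Q.Fˣ) : Q.F) : Q.F) ≠ 0 := by
      intro h
      apply DSharp.ne_zero_of_redUp one_ne_zero h3
      rw [← h4, h]
      rfl
    refine ⟨Units.mk0 _ h5, rfl, ?_⟩
    rw [mem_RCQ, Units.val_mk0, h4]
    exact h3

/-- **exact (d), field level.** -/
theorem mainQ [NeZero N] {q : ℕ} (hq : q.Prime) (hA : A.LiesOverPrime q)
    (ℓ : Fermat.Agent.ES.D.GoodPrime N) (hℓq : ℓ.1 ≠ q) {n : ℕ} (hn : n ≠ 0)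
    (P : Subgroup (ZMod N)ˣ) (hP : ¬ q ∣ Nat.card P) (f y : Q.Fˣ)
    (hf : ∀ d, H.dia d (f : Q.F) = f)
    (hu : ∀ d, RedUp A ((H.dia d ((f * y ^ n : Q.Fˣ) : Q.F) : Q.F) : LaurentSeries Qb) 1) :
    ∃ y' : Q.Fˣ, (∀ d, H.dia d (y' : Q.F) = y') ∧
      RedUp A ((((H.heckeU ℓ f / f ^ (ℓ.1 + 1)) ^ P.index * y' ^ n : Q.Fˣ) : Q.F) :
        LaurentSeries Qb) 1 := by
  classical
  have : Fintype P := Fintype.ofFinite _
  rw [Nat.card_eq_fintype_card] at hP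
  have hf' : ∀ g, actU (rhoQ H) g f = f := fun g => Units.ext (hf g)
  obtain ⟨y', hy', h⟩ := main (hypQ H A hq hA ℓ hℓq hn P hP) f y hf' hu
  refine ⟨y', fun d => congrArg Units.val (hy' d), ?_⟩
  rw [EQ_apply, hf', ← pow_succ'] at h
  exact h

end

end Fermat.Agent.S43.DP
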