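import Fermat.Agent.S43.D.Field
import Fermat.Agent.SS.Formal.Red
import Fermat.Agent.S18.Inputs

/-!
# S43 / D / Red : (d') of the blueprint, generic form

`E₁ , E₂ ⊆ ℚ̄((t))` two subfields containing `ℚ̄` with Gauss scaling (`HasFrac`), every element of `E₂` algebraic of
degree `≤ D0` over `E₁` (`hdeg`), `D0 < p ^ (b + 1)`, `p` an odd prime, `A` any valuation ring of `ℚ̄`.

`main` : if `f ∈ E₁` and `c f / y ^ (p ^ K) ≡ 1` modulo the Gauss valuation for some `y ∈ E₂`, then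
`c' f ^ (p ^ b) / g ^ (p ^ K) ≡ 1` for some `g ∈ E₁`.

No invariance of the Gauss valuation under `Aut (E₂ / E₁)` is used.
-/

set_option autoImplicit false

open AlgebraicCurve ModularCurve

namespace Fermat.Agent.S43.DRed

open Fermat.Agent.ES Fermat.Agent.SS

noncomputable section

variable {A : ValuationSubring Qb}

theorem redTo_zero : RedTo A 0 0 := by
  refine ⟨0, 1, ?_, ?_, ?_⟩
  · rw [map_one]; exact one_ne_zero
  · simp
  · simp

theorem redTo_add {x x' : LaurentSeries Qb} {r r' : LaurentSeries (kA A)}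
    (h : RedTo A x r) (h' : RedTo A x' r') : RedTo A (x + x') (r + r') := by
  obtain ⟨y₁, y₂, h0, h1, h2⟩ := h
  obtain ⟨z₁, z₂, k0, k1, k2⟩ := h'
  refine ⟨y₁ * z₂ + z₁ * y₂, y₂ * z₂, ?_, ?_, ?_⟩
  · rw [map_mul]; exact mul_ne_zero h0 k0
  · rw [map_add, map_mul, map_mul, map_mul, ← h1, ← k1]; ring
  · rw [map_add, map_mul, map_mul, map_mul, h2, k2]; ring

theorem redTo_neg {x : LaurentSeries Qb} {r : LaurentSeries (kA A)}
    (h : RedTo A x r) : RedTo A (-x) (-r) := by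
  obtain ⟨y₁, y₂, h0, h1, h2⟩ := h
  refine ⟨-y₁, y₂, h0, ?_, ?_⟩
  · rw [map_neg, ← h1]; ring
  · rw [map_neg, h2]; ring

theorem redTo_sum {ι : Type*} (s : Finset ι) (x : ι → LaurentSeries Qb)
    (r : ι → LaurentSeries (kA A)) (h : ∀ i ∈ s, RedTo A (x i) (r i)) :
    RedTo A (∑ i ∈ s, x i) (∑ i ∈ s, r i) := by
  classical
  induction s using Finset.induction_on with
  | empty => simpa using redTo_zero
  | insert a s ha ih =>
    rw [Finset.sum_insert ha, Finset.sum_insert ha]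
    exact redTo_add (h a (Finset.mem_insert_self a s))
      (ih fun i hi => h i (Finset.mem_insert_of_mem hi))

theorem ne_zero_of_redTo {x : LaurentSeries Qb} {r : LaurentSeries (kA A)} (h : RedTo A x r)
    (hr : r ≠ 0) : x ≠ 0 := by
  rintro rfl
  exact hr (h.unique redTo_zero)

/-- the residue field of `E` for the Gauss valuation. -/
def kE (A : ValuationSubring Qb) (E : IntermediateField Qb (LaurentSeries Qb)) :
    Subfield (LaurentSeries (kA A)) where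
  carrier := {ρ | ∃ x ∈ E, RedTo A x ρ}
  mul_mem' := by
    rintro _ _ ⟨x, hx, h⟩ ⟨x', hx', h'⟩
    exact ⟨x * x', mul_mem hx hx', h.mul h'⟩
  one_mem' := ⟨1, one_mem E, RedTo.one⟩
  add_mem' := by
    rintro _ _ ⟨x, hx, h⟩ ⟨x', hx', h'⟩
    exact ⟨x + x', add_mem hx hx', redTo_add h h'⟩
  zero_mem' := ⟨0, zero_mem E, redTo_zero⟩
  neg_mem' := by
    rintro _ ⟨x, hx, h⟩
    exact ⟨-x, neg_mem hx, redTo_neg h⟩
  inv_mem' := by
    rintro ρ ⟨x, hx, h⟩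
    by_cases hρ : ρ = 0
    · subst hρ
      exact ⟨0, zero_mem E, by rw [inv_zero]; exact redTo_zero⟩
    · exact ⟨x⁻¹, inv_mem hx, h.inv hρ⟩

theorem mem_kE {E : IntermediateField Qb (LaurentSeries Qb)} {ρ : LaurentSeries (kA A)} :
    ρ ∈ kE A E ↔ ∃ x ∈ E, RedTo A x ρ := Iff.rfl

theorem cst_mem (E : IntermediateField Qb (LaurentSeries Qb)) (c : Qb) : cst c ∈ E :=
  IntermediateField.algebraMap_mem _ _

theorem cstk_mem_kE (E : IntermediateField Qb (LaurentSeries Qb)) (z : kA A) :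
    cstk A z ∈ kE A E := by
  obtain ⟨a, rfl⟩ := IsLocalRing.residue_surjective z
  exact ⟨cst (a : Qb), cst_mem E _, RedTo.cst_of_mem a⟩

/-- Gauss scaling. -/
def HasFrac (A : ValuationSubring Qb) (E : IntermediateField Qb (LaurentSeries Qb)) : Prop :=
  ∀ f ∈ E, f ≠ 0 → ∃ (c : Qb) (r : LaurentSeries (kA A)), c ≠ 0 ∧ r ≠ 0 ∧ RedTo A (cst c * f) r

/-- roots of unity of `k_A((t))` are constants. -/
theorem root_mem_kE (E : IntermediateField Qb (LaurentSeries Qb)) {p : ℕ} (hp : 0 < p)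
    {ζ : LaurentSeries (kA A)} (hζ : ζ ^ p = 1) : ζ ∈ kE A E := by
  haveI : IsAlgClosed (kA A) := Fermat.Agent.S18.isAlgClosed_residueField A
  have hint : IsIntegral (kA A) ζ := by
    refine ⟨Polynomial.X ^ p - 1, Polynomial.monic_X_pow_sub_C (1 : kA A) hp.ne', ?_⟩
    simp [hζ]
  have hdeg : (minpoly (kA A) ζ).degree = 1 :=
    IsAlgClosed.degree_eq_one_of_irreducible _ (minpoly.irreducible hint)
  obtain ⟨z, hz⟩ := minpoly.mem_range_of_degree_eq_one (kA A) ζ hdeg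
  rw [← hz]
  exact cstk_mem_kE E z

/-- simultaneous scaling of a finite family. -/
theorem exists_scale {E : IntermediateField Qb (LaurentSeries Qb)} (hE : HasFrac A E) {n : ℕ}
    (a : Fin n → LaurentSeries Qb) (haE : ∀ i, a i ∈ E) (ha0 : a ≠ 0) :
    ∃ (c₀ : Qb) (α : Fin n → LaurentSeries (kA A)), c₀ ≠ 0 ∧ (∀ i, RedTo A (cst c₀ * a i) (α i)) ∧
      ∃ i, α i ≠ 0 := by
  classical
  have hch : ∀ i, ∃ (c : Qb) (r : LaurentSeries (kA A)), c ≠ 0 ∧
      (a i ≠ 0 → r ≠ 0 ∧ RedTo A (cst c * a i) r) := by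
    intro i
    by_cases hi : a i = 0
    · exact ⟨1, 0, one_ne_zero, fun h => absurd hi h⟩
    · obtain ⟨c, r, hc, hr, h⟩ := hE (a i) (haE i) hi
      exact ⟨c, r, hc, fun _ => ⟨hr, h⟩⟩
  choose c r hc hr using hch
  have hne : (Finset.univ.filter fun i => a i ≠ 0).Nonempty := by
    by_contra hcon
    rw [Finset.not_nonempty_iff_eq_empty, Finset.filter_eq_empty_iff] at hcon
    apply ha0
    funext i
    have := hcon (Finset.mem_univ i)
    simpa using this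
  obtain ⟨i₀, hi₀, hmin⟩ := Finset.exists_min_image _ (fun i => A.valuation (c i)) hne
  rw [Finset.mem_filter] at hi₀
  have hmem : ∀ i, a i ≠ 0 → c i₀ / c i ∈ A := by
    intro i hi
    rw [← A.valuation_le_one_iff, map_div₀]
    have h1 := hmin i (Finset.mem_filter.2 ⟨Finset.mem_univ i, hi⟩)
    have h2 : A.valuation (c i) ≠ 0 := (map_ne_zero _).2 (hc i)
    exact (div_le_one₀ (zero_lt_iff.2 h2)).2 h1
  refine ⟨c i₀, fun i => if hi : a i = 0 then 0 else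
    cstk A (resA A ⟨c i₀ / c i, hmem i hi⟩) * r i, hc i₀, fun i => ?_, i₀, ?_⟩
  · by_cases hi : a i = 0
    · show RedTo A _ (dite _ _ _)
      rw [dif_pos hi, hi, mul_zero]
      exact redTo_zero
    · show RedTo A _ (dite _ _ _)
      rw [dif_neg hi]
      have h1 := (RedTo.cst_of_mem (⟨c i₀ / c i, hmem i hi⟩ : A)).mul (hr i hi).2
      refine h1.congr ?_ rfl
      rw [← mul_assoc, ← map_mul]
      congr 2
      exact div_mul_cancel₀ _ (hc i)
  · show dite _ _ _ ≠ 0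
    rw [dif_neg hi₀.2]
    refine mul_ne_zero ?_ (hr i₀ hi₀.2).1
    have h1 : (⟨c i₀ / c i₀, hmem i₀ hi₀.2⟩ : A) = 1 := Subtype.ext (div_self (hc i₀))
    rw [h1, map_one]
    show algebraMap (kA A) (LaurentSeries (kA A)) 1 ≠ 0
    rw [map_one]
    exact one_ne_zero

/-- **(d'), generic form.** -/
theorem main {p : ℕ} (hp : p.Prime) (hp2 : p ≠ 2)
    {E₁ E₂ : IntermediateField Qb (LaurentSeries Qb)} (hF1 : HasFrac A E₁) (hF2 : HasFrac A E₂)
    {D0 b K : ℕ} (hD : D0 < p ^ (b + 1))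
    (hdeg : ∀ y ∈ E₂, ∃ a : Fin (D0 + 1) → LaurentSeries Qb, (∀ i, a i ∈ E₁) ∧ a ≠ 0 ∧
      ∑ i, a i * y ^ (i : ℕ) = 0)
    {f y : LaurentSeries Qb} (hf : f ∈ E₁) (hf0 : f ≠ 0) (hy : y ∈ E₂) (hy0 : y ≠ 0) {c : Qb}
    (hc : c ≠ 0) (h : RedTo A (cst c * f * (y ^ (p ^ K))⁻¹) 1) :
    ∃ (c' : Qb) (g : LaurentSeries Qb), g ∈ E₁ ∧ c' ≠ 0 ∧ g ≠ 0 ∧
      RedTo A (cst c' * f ^ (p ^ b) * (g ^ (p ^ K))⁻¹) 1 := by
  classical
  haveI : IsAlgClosed (kA A) := Fermat.Agent.S18.isAlgClosed_residueField A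
  obtain ⟨m, hm⟩ : ∃ m, m = p ^ K := ⟨_, rfl⟩
  rw [← hm] at h ⊢
  have hm0 : 0 < m := hm ▸ pow_pos hp.pos K
  obtain ⟨cf, rf, hcf, hrf, hredf⟩ := hF1 f hf hf0
  obtain ⟨cy, ry, hcy, hry, hredy⟩ := hF2 y hy hy0
  have hcst : ∀ d : Qb, d ≠ 0 → cst d ≠ 0 := fun d hd => by
    rw [Ne, map_eq_zero]; exact hd
  -- the constant
  have h1 := (hredf.mul (h.inv one_ne_zero)).mul ((hredy.pow m).inv (pow_ne_zero m hry))
  have h2 : cst cf * f * (cst c * f * (y ^ m)⁻¹)⁻¹ * ((cst cy * y) ^ m)⁻¹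
      = cst (cf / (c * cy ^ m)) := by
    have e1 : cst (cf / (c * cy ^ m)) = cst cf / (cst c * cst cy ^ m) := by
      show algebraMap Qb (LaurentSeries Qb) _ = _
      rw [map_div₀, map_mul, map_pow]
    rw [e1]
    have := hcst c hc
    have := hcst cy hcy
    field_simp
    ring
  rw [h2] at h1
  obtain ⟨a₀, -, ha₀⟩ := h1.const
  have hrf' : rf = cstk A (resA A a₀) * ry ^ m := by
    rw [← ha₀, inv_one, mul_one, inv_mul_cancel_right₀ (pow_ne_zero m hry)]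
  obtain ⟨e, he⟩ := IsAlgClosed.exists_pow_nat_eq (resA A a₀) hm0
  obtain ⟨et, rfl⟩ := IsLocalRing.residue_surjective e
  obtain ⟨ρ, hρdef⟩ : ∃ ρ, ρ = cstk A (resA A et) * ry := ⟨_, rfl⟩
  have hredρ : RedTo A (cst (et : Qb) * (cst cy * y)) ρ := by
    rw [hρdef]
    exact (RedTo.cst_of_mem et).mul hredy
  have hρm : ρ ^ m = rf := by
    rw [hρdef, mul_pow, ← map_pow, hrf']
    congr 2
  have hρ0 : ρ ≠ 0 := by
    rintro rfl
    rw [zero_pow hm0.ne'] at hρm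
    exact hrf hρm.symm
  have hy' : cst (et : Qb) * (cst cy * y) ∈ E₂ := mul_mem (cst_mem E₂ _) (mul_mem (cst_mem E₂ _) hy)
  -- the dependence relation
  obtain ⟨a, haE, ha0, hsum⟩ := hdeg _ hy'
  obtain ⟨c₀, α, hc₀, hα, i₀, hi₀⟩ := exists_scale hF1 a haE ha0
  have hαK : ∀ i, α i ∈ kE A E₁ := fun i => ⟨_, mul_mem (cst_mem E₁ _) (haE i), hα i⟩
  have hrel : ∑ i, α i * ρ ^ (i : ℕ) = 0 := by
    have h3 := redTo_sum (A := A) Finset.univ
      (fun i : Fin (D0 + 1) => cst c₀ * a i * (cst (et : Qb) * (cst cy * y)) ^ (i : ℕ))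
      (fun i => α i * ρ ^ (i : ℕ)) (fun i _ => (hα i).mul (hredρ.pow _))
    have h4 : ∑ i : Fin (D0 + 1), cst c₀ * a i * (cst (et : Qb) * (cst cy * y)) ^ (i : ℕ) = 0 := by
      simp_rw [mul_assoc]
      rw [← Finset.mul_sum, hsum, mul_zero]
    rw [h4] at h3
    exact h3.unique redTo_zero
  have hmem : ρ ^ (p ^ b) ∈ kE A E₁ := by
    refine pow_mem_of_dep (kE A E₁) hp hp2 (fun ζ hζ => root_mem_kE E₁ hp.pos hζ) (n := K) ?_ hD
      ⟨fun i => ⟨α i, hαK i⟩, ?_, hrel⟩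
    · rw [← hm, hρm]
      exact ⟨_, mul_mem (cst_mem E₁ _) hf, hredf⟩
    · intro h0
      exact hi₀ (congrArg Subtype.val (congrFun h0 i₀))
  obtain ⟨g, hgE, hg⟩ := hmem
  have hρb : ρ ^ (p ^ b) ≠ 0 := pow_ne_zero _ hρ0
  refine ⟨cf ^ (p ^ b), g, hgE, pow_ne_zero _ hcf, ne_zero_of_redTo hg hρb, ?_⟩
  have h5 := (hredf.pow (p ^ b)).mul ((hg.pow m).inv (pow_ne_zero m hρb))
  refine h5.congr ?_ ?_
  · rw [mul_pow, ← map_pow]
  · rw [← hρm, ← pow_mul, ← pow_mul, mul_comm m, mul_inv_cancel₀]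
    exact pow_ne_zero _ hρ0

end

end Fermat.Agent.S43.DRed
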