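import Fermat.Agent.S43.D.Sharp
import Fermat.Agent.S48.B1.Field

/-!
# S43 / D / SharpQ : the SHARP form of (d) on a `B1.QField` with a finite commutative group of automorphisms

`Q : B1.QField` (e.g. `X1.F1Q N`), `ρ : GG →* (Q.F ≃ₐ[ℚ̄] Q.F)` (e.g. `An1.dia D`, `GG = (ZMod N)ˣ`).

`sharp_full` : `f` fixed by `GG`, `f = u * y ^ m`, all conjugates `ρ d u` are `RedUp 1` (constant times `≡ 1` for the Gauss
valuation), `p ≠` residue characteristic, `p`-part of the exponent of `GG` divides `m`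
⟹ `∃ e` prime to `p`, `R ≠ 0` with `R ^ m` fixed by `GG` and `f ^ e / R ^ m` is `RedUp 1`.
-/

set_option autoImplicit false

open AlgebraicCurve ModularCurve

namespace Fermat.Agent.S43.DSharp

open Fermat.Agent.ES Fermat.Agent.SS Fermat.Agent.S48

noncomputable section

variable {A : ValuationSubring Qb}

theorem redUp_prod {ι : Type*} (s : Finset ι) (x : ι → LaurentSeries Qb)
    (h : ∀ i ∈ s, RedUp A (x i) 1) : RedUp A (∏ i ∈ s, x i) 1 := by
  classical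
  induction s using Finset.induction_on with
  | empty => exact ⟨1, one_ne_zero, by simpa using RedTo.one⟩
  | insert a s ha ih =>
    rw [Finset.prod_insert ha]
    exact ((h a (Finset.mem_insert_self a s)).mul
      (ih fun i hi => h i (Finset.mem_insert_of_mem hi))).congr rfl (one_mul 1)

variable (Q : B1.QField)

/-- the pivot on a `QField`. -/
theorem exists_pivot (f : Q.F) (hf : f ≠ 0) :
    ∃ r : LaurentSeries (kA A), r ≠ 0 ∧ RedUp A (f : LaurentSeries Qb) r := by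
  obtain ⟨c, a, b, hc, -, -, ha, hb, e⟩ := Q.exists_integral_fraction A f hf
  refine ⟨coeffMap (resA A) a / coeffMap (resA A) b, div_ne_zero ha hb, c⁻¹, inv_ne_zero hc,
    a, b, hb, ?_, ?_⟩
  · rw [mul_assoc, e, ← mul_assoc, ← map_mul, inv_mul_cancel₀ hc, map_one, one_mul]
  · rw [div_mul_cancel₀ _ hb]

variable {Q}

/-- a Lagrange resolvent is an eigenvector. -/
theorem rho_resolvent {P : Type*} [CommGroup P] [Fintype P] (ρ : P →* (Q.F ≃ₐ[Qb] Q.F))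
    (χ : P →* Qbˣ) (y : Q.F) (g : P) :
    ρ g (∑ d, algebraMap Qb Q.F ((χ d : Qbˣ) : Qb) * ρ d y)
      = algebraMap Qb Q.F ((χ g⁻¹ : Qbˣ) : Qb) * ∑ d, algebraMap Qb Q.F ((χ d : Qbˣ) : Qb) * ρ d y := by
  rw [map_sum, Finset.mul_sum]
  refine Fintype.sum_equiv (Equiv.mulLeft g) _ _ fun d => ?_
  rw [Equiv.coe_mulLeft, map_mul, AlgEquiv.commutes, ← mul_assoc, ← map_mul, ← Units.val_mul,
    ← map_mul, inv_mul_cancel_left, map_mul ρ]
  rfl

theorem sharp_P {P : Type*} [CommGroup P] [Fintype P] (ρ : P →* (Q.F ≃ₐ[Qb] Q.F))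
    (hP : A.valuation ((Fintype.card P : ℕ) : Qb) = 1) {m : ℕ} (hm : m ≠ 0)
    (f y u : Q.F) (hy : y ≠ 0) (hfix : ∀ d, ρ d f = f) (hf : f = u * y ^ m)
    (hu : ∀ d, RedUp A ((ρ d u : Q.F) : LaurentSeries Qb) 1) :
    ∃ χ : P →* Qbˣ, (∑ d, algebraMap Qb Q.F ((χ d : Qbˣ) : Qb) * ρ d y) ≠ 0 ∧
      RedUp A ((f * ((∑ d, algebraMap Qb Q.F ((χ d : Qbˣ) : Qb) * ρ d y) ^ m)⁻¹ : Q.F) : LaurentSeries Qb) 1 := by
  obtain ⟨χ, hR0, hR⟩ := sharp_abs hP hm (f : LaurentSeries Qb)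
    (fun d => ((ρ d y : Q.F) : LaurentSeries Qb)) (fun d => ((ρ d u : Q.F) : LaurentSeries Qb))
    (fun d => exists_pivot Q (ρ d y) (by simpa using hy)) hu (fun d => by
      have h1 : ρ d f = ρ d u * ρ d y ^ m := by rw [hf, map_mul, map_pow]
      rw [hfix] at h1
      exact congrArg Subtype.val h1)
  have hcoe : ((∑ d, algebraMap Qb Q.F ((χ d : Qbˣ) : Qb) * ρ d y : Q.F) : LaurentSeries Qb)
      = ∑ d, cst ((χ d : Qbˣ) : Qb) * ((ρ d y : Q.F) : LaurentSeries Qb) := by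
    rw [IntermediateField.coe_sum]
    refine Finset.sum_congr rfl fun d _ => ?_
    rfl
  refine ⟨χ, ?_, ?_⟩
  · intro h
    apply hR0
    rw [← hcoe, h]
    rfl
  · refine hR.congr ?_ rfl
    rw [← hcoe]
    rfl

theorem sharp_full {GG : Type*} [CommGroup GG] [Fintype GG] (ρ : GG →* (Q.F ≃ₐ[Qb] Q.F))
    {p : ℕ} (hp : p.Prime) (hpA : A.valuation ((p : ℕ) : Qb) = 1) {m : ℕ} (hm : m ≠ 0)
    (s b : ℕ) (hb : Nat.Coprime p b) (hGG : ∀ d : GG, d ^ (p ^ s * b) = 1) (hsm : p ^ s ∣ m)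
    (f y u : Q.F) (hy : y ≠ 0) (hfix : ∀ d, ρ d f = f) (hf : f = u * y ^ m)
    (hu : ∀ d, RedUp A ((ρ d u : Q.F) : LaurentSeries Qb) 1) :
    ∃ (e : ℕ) (R : Q.F), Nat.Coprime e p ∧ R ≠ 0 ∧ (∀ d, ρ d (R ^ m) = R ^ m) ∧
      RedUp A ((f ^ e * (R ^ m)⁻¹ : Q.F) : LaurentSeries Qb) 1 := by
  classical
  have : Fact p.Prime := ⟨hp⟩
  let P : Subgroup GG := (powMonoidHom (p ^ s) : GG →* GG).ker
  let P' : Subgroup GG := (powMonoidHom b : GG →* GG).ker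
  have hPmem : ∀ g : GG, g ∈ P ↔ g ^ (p ^ s) = 1 := fun g => Iff.rfl
  have hP'mem : ∀ g : GG, g ∈ P' ↔ g ^ b = 1 := fun g => Iff.rfl
  -- the order of `P` is a power of `p`
  have hPp : IsPGroup p P := fun g => ⟨s, Subtype.ext ((hPmem g).mp g.2)⟩
  obtain ⟨n, hn⟩ := IsPGroup.iff_card.mp hPp
  have hvalP : A.valuation ((Fintype.card P : ℕ) : Qb) = 1 := by
    rw [← Nat.card_eq_fintype_card, hn, Nat.cast_pow, map_pow, hpA, one_pow]
  -- the order of `P'` is prime to `p`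
  have hcop : Nat.Coprime (Fintype.card P') p := by
    rw [Nat.coprime_comm, Nat.Prime.coprime_iff_not_dvd hp]
    intro hdvd
    obtain ⟨x, hx⟩ := exists_prime_orderOf_dvd_card p hdvd
    have h1 : x ^ b = 1 := Subtype.ext ((hP'mem x).mp x.2)
    have h2 : p ∣ b := hx ▸ orderOf_dvd_of_pow_eq_one h1
    exact (Nat.Prime.coprime_iff_not_dvd hp).mp hb h2
  set y1 : Q.F := ∏ d : P', ρ d y with hy1
  set u1 : Q.F := ∏ d : P', ρ d u with hu1
  have hy10 : y1 ≠ 0 := Finset.prod_ne_zero_iff.mpr fun d _ => by simpa using hy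
  have hf1 : f ^ Fintype.card P' = u1 * y1 ^ m := by
    have h1 : ∏ d : P', ρ (d : GG) f = f ^ Fintype.card P' := by
      simp only [hfix]
      rw [Finset.prod_const, Finset.card_univ]
    rw [← h1, hu1, hy1, ← Finset.prod_pow, ← Finset.prod_mul_distrib]
    refine Finset.prod_congr rfl fun d _ => ?_
    rw [hf, map_mul, map_pow]
  have hcomm : ∀ (g h : GG) (z : Q.F), ρ g (ρ h z) = ρ h (ρ g z) := fun g h z => by
    have e1 : ρ g (ρ h z) = ρ (g * h) z := by rw [map_mul]; rfl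
    have e2 : ρ h (ρ g z) = ρ (h * g) z := by rw [map_mul]; rfl
    rw [e1, e2, mul_comm]
  have hu1' : ∀ d : GG, RedUp A ((ρ d u1 : Q.F) : LaurentSeries Qb) 1 := by
    intro d
    have e1 : ρ d u1 = ∏ d' : P', ρ (d * d') u := by
      rw [hu1, map_prod]
      refine Finset.prod_congr rfl fun d' _ => ?_
      rw [map_mul]; rfl
    rw [e1, IntermediateField.coe_prod]
    exact redUp_prod _ _ fun d' _ => hu _
  have hy1fix : ∀ g ∈ P', ρ g y1 = y1 := by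
    intro g hg
    rw [hy1, map_prod]
    refine Fintype.prod_equiv (Equiv.mulLeft (⟨g, hg⟩ : P')) _ _ fun d => ?_
    rw [Equiv.coe_mulLeft]
    show ρ g (ρ d y) = ρ (g * d) y
    rw [map_mul]; rfl
  obtain ⟨χ, hR0, hR⟩ := sharp_P (A := A) (ρ.comp P.subtype) hvalP hm (f ^ Fintype.card P') y1 u1 hy10
    (fun d => by rw [map_pow]; exact congrArg (· ^ _) (hfix _)) hf1 (fun d => hu1' _)
  set R : Q.F := ∑ d : P, algebraMap Qb Q.F ((χ d : Qbˣ) : Qb) * (ρ.comp P.subtype) d y1 with hRdef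
  refine ⟨Fintype.card P', R, hcop, hR0, fun g => ?_, hR⟩
  -- decomposition `g = g₁ g₂`
  have hcop2 : Nat.Coprime (p ^ s) b := Nat.Coprime.pow_left s hb
  have hbez : ((p ^ s : ℕ) : ℤ) * Nat.gcdA (p ^ s) b + (b : ℤ) * Nat.gcdB (p ^ s) b = 1 := by
    rw [← Nat.gcd_eq_gcd_ab, hcop2.gcd_eq_one, Nat.cast_one]
  set g2 : GG := g ^ (((p ^ s : ℕ) : ℤ) * Nat.gcdA (p ^ s) b) with hg2
  set g1 : GG := g ^ ((b : ℤ) * Nat.gcdB (p ^ s) b) with hg1
  have hg : g = g1 * g2 := by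
    rw [hg1, hg2, ← zpow_add, add_comm, hbez, zpow_one]
  have hg2mem : g2 ∈ P' := by
    rw [hP'mem, hg2, ← zpow_natCast, ← zpow_mul]
    have : ((p ^ s : ℕ) : ℤ) * Nat.gcdA (p ^ s) b * (b : ℤ)
        = ((p ^ s * b : ℕ) : ℤ) * Nat.gcdA (p ^ s) b := by push_cast; ring
    rw [this, zpow_mul, zpow_natCast, hGG, one_zpow]
  have hg1mem : g1 ∈ P := by
    rw [hPmem, hg1, ← zpow_natCast, ← zpow_mul]
    have : (b : ℤ) * Nat.gcdB (p ^ s) b * ((p ^ s : ℕ) : ℤ)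
        = ((p ^ s * b : ℕ) : ℤ) * Nat.gcdB (p ^ s) b := by push_cast; ring
    rw [this, zpow_mul, zpow_natCast, hGG, one_zpow]
  have hR2 : ρ g2 R = R := by
    rw [hRdef, map_sum]
    refine Finset.sum_congr rfl fun d _ => ?_
    rw [map_mul, AlgEquiv.commutes]
    show _ * ρ g2 (ρ d y1) = _ * ρ d y1
    rw [hcomm, hy1fix g2 hg2mem]
  have hR1 : ρ g1 R = algebraMap Qb Q.F ((χ (⟨g1, hg1mem⟩ : P)⁻¹ : Qbˣ) : Qb) * R :=
    rho_resolvent (ρ.comp P.subtype) χ y1 ⟨g1, hg1mem⟩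
  have hχ : ((χ (⟨g1, hg1mem⟩ : P)⁻¹ : Qbˣ) : Qb) ^ m = 1 := by
    obtain ⟨t, rfl⟩ := hsm
    have h1 : (⟨g1, hg1mem⟩ : P)⁻¹ ^ (p ^ s * t) = 1 := by
      rw [inv_pow, pow_mul]
      have : (⟨g1, hg1mem⟩ : P) ^ (p ^ s) = 1 := Subtype.ext ((hPmem g1).mp hg1mem)
      rw [this, one_pow, inv_one]
    rw [← Units.val_pow_eq_pow_val, ← map_pow, h1, map_one, Units.val_one]
  have e1 : ρ g R = ρ g1 (ρ g2 R) := by rw [hg, map_mul]; rfl
  rw [map_pow, e1, hR2, hR1, mul_pow, ← map_pow, hχ, map_one, one_mul]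

theorem val_natCast_one {q p : ℕ} (hq : q.Prime) (hA : A.LiesOverPrime q) (h : ¬ q ∣ p) :
    A.valuation ((p : ℕ) : Qb) = 1 := by
  have := charP_kA hq hA
  have h1 : resA A (p : A) ≠ 0 := by
    rw [map_natCast]
    rwa [Ne, CharP.cast_eq_zero_iff (kA A) q]
  have h2 : IsUnit (p : A) := by
    by_contra hu
    exact h1 ((IsLocalRing.residue_eq_zero_iff _).mpr ((IsLocalRing.mem_maximalIdeal _).mpr hu))
  have h3 := (ValuationSubring.valuation_eq_one_iff A (p : A)).mp h2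
  simpa using h3

/-- `sharp_full` with the bookkeeping done: `A` over `q ≠ p`, `m = p ^ K`, `K ≥ v_p(#GG)`. -/
theorem sharp_card {GG : Type*} [CommGroup GG] [Fintype GG] (ρ : GG →* (Q.F ≃ₐ[Qb] Q.F))
    {p q : ℕ} (hp : p.Prime) (hq : q.Prime) (hpq : p ≠ q) (hA : A.LiesOverPrime q) {K : ℕ}
    (hK : (Fintype.card GG).factorization p ≤ K)
    (f y u : Q.F) (hy : y ≠ 0) (hfix : ∀ d, ρ d f = f) (hf : f = u * y ^ (p ^ K))
    (hu : ∀ d, RedUp A ((ρ d u : Q.F) : LaurentSeries Qb) 1) :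
    ∃ (e : ℕ) (R : Q.F), Nat.Coprime e p ∧ R ≠ 0 ∧ (∀ d, ρ d (R ^ (p ^ K)) = R ^ (p ^ K)) ∧
      RedUp A ((f ^ e * (R ^ (p ^ K))⁻¹ : Q.F) : LaurentSeries Qb) 1 := by
  refine sharp_full ρ hp (val_natCast_one hq hA fun h => hpq ((Nat.prime_dvd_prime_iff_eq hq hp).mp h).symm)
    (pow_ne_zero K hp.ne_zero) ((Fintype.card GG).factorization p)
    (Fintype.card GG / p ^ (Fintype.card GG).factorization p)
    (Nat.coprime_ordCompl hp Fintype.card_ne_zero) (fun d => ?_) (pow_dvd_pow p hK) f y u hy hfix hf hu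
  rw [Nat.ordProj_mul_ordCompl_eq_self, pow_card_eq_one]

end

end Fermat.Agent.S43.DSharp
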