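import Fermat.Agent.S43.I.NT
import Fermat.Agent.S43.I.Vth
import Fermat.Agent.S44.Eis.Red

/-!
# S43 / D / ThetaX : the last step of the exact (d)  (level `X₀(M q)` only)

All versions of the exact (d) end with a decomposition `c • x = k + z`, `c` prime to `p`, `k` constant modulo `v_∞` (`InK1`),
`z` in the kernel of the pull back to `X₁(M q)`.  Neither `k` nor `z` lies in the `θ`-part, so one has to apply the `θ`-projector.

* `inK1_hecke`   : `InK1` is stable under the Hecke operators `T_ℓ`, `ℓ ≠ q`;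
* `projOp_mem`   : a subgroup stable under the `T i` is stable under `projOp`;
* `inK1_of_split`: `x ∈ Vth`, `c • x = k + z`, `InK1 k`, `z ∈ Z₀` Hecke stable, `Z₀ ∩ Vth = 0`  ⟹  `InK1 (c • x)`;
* `tor_of_split`, `inv_of_split` : hence `x` is toric / fixed by inertia (`nmKum = 0` on `Vth`, `c` prime to the exponent).
-/

set_option autoImplicit false

open AlgebraicCurve ModularCurve

namespace Fermat.Agent.S43.DTh

open Fermat.Agent.ES Fermat.Agent.SS Fermat.Agent.S33 Fermat.Agent.S43.I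

noncomputable section

variable {A : ValuationSubring Qb} {m : ℕ}

/-- `InK1` is stable under `T_ℓ`. -/
theorem inK1_hecke {N q ℓ : ℕ} [NeZero N] [NeZero ℓ] (hq : q.Prime) (hA : A.LiesOverPrime q)
    (hℓ : ℓ.Prime) (hℓN : ¬ ℓ ∣ N) (hℓq : ℓ ≠ q) {x : Kum N m} (h : InK1 A x) :
    InK1 A (heckeKum N ℓ hℓ hℓN m x) := by
  obtain ⟨u, rfl, hu⟩ := h
  refine ⟨⟨heckeU N ℓ hℓ hℓN u, heckeU_mem_Dm N ℓ hℓ hℓN u.2⟩, (heckeKum_mk N ℓ hℓ hℓN u).symm, ?_⟩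
  rw [redConst_iff_redUp] at hu ⊢
  have h1 := Fermat.Agent.S44.Eis.RedUp.heckeSer hq hA hℓ hℓq hu
  rwa [heckeSer_one] at h1

theorem inK1_zero {N : ℕ} [NeZero N] : InK1 A (0 : Kum N m) := by
  refine ⟨1, Kum.mk_one, ?_⟩
  rw [redConst_iff_redUp]
  refine ⟨1, one_ne_zero, 1, 1, ?_, ?_, ?_⟩
  · rw [map_one]; exact one_ne_zero
  · rw [map_one, mul_one, cst, map_one, one_mul]; rfl
  · rw [map_one, mul_one]

theorem inK1_add {N : ℕ} [NeZero N] {x y : Kum N m} (hx : InK1 A x) (hy : InK1 A y) :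
    InK1 A (x + y) := by
  obtain ⟨u, rfl, hu⟩ := hx
  obtain ⟨v, rfl, hv⟩ := hy
  rw [redConst_iff_redUp] at hu hv
  refine ⟨u * v, Kum.mk_mul u v, ?_⟩
  rw [redConst_iff_redUp]
  exact (hu.mul hv).congr rfl (one_mul 1)

theorem inK1_neg {N : ℕ} [NeZero N] {x : Kum N m} (hx : InK1 A x) : InK1 A (-x) := by
  obtain ⟨u, rfl, hu⟩ := hx
  rw [redConst_iff_redUp] at hu
  refine ⟨u⁻¹, Kum.mk_inv u, ?_⟩
  rw [redConst_iff_redUp]
  have e : (((u⁻¹ : Dm N m) : (FF N)ˣ) : FF N) = (((u : (FF N)ˣ) : FF N))⁻¹ := by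
    rw [Subgroup.coe_inv, Units.val_inv_eq_inv_val]
  rw [e]
  exact (hu.inv one_ne_zero).congr rfl inv_one

/-- the subgroup of the classes which are constant modulo `v_∞`. -/
def K1 (N : ℕ) [NeZero N] (A : ValuationSubring Qb) (m : ℕ) : AddSubgroup (Kum N m) where
  carrier := {x | InK1 A x}
  zero_mem' := inK1_zero
  add_mem' := fun hx hy => inK1_add hx hy
  neg_mem' := fun hx => inK1_neg hx

theorem mem_K1 {N : ℕ} [NeZero N] {x : Kum N m} : x ∈ K1 N A m ↔ InK1 A x := Iff.rfl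

section abs

variable {ι X : Type*} [AddCommGroup X]

theorem pow_mem_of_stable (T : Module.End ℤ X) (Z : AddSubgroup X) (hZ : ∀ x ∈ Z, T x ∈ Z)
    (n : ℕ) {x : X} (hx : x ∈ Z) : (T ^ n) x ∈ Z := by
  induction n with
  | zero => exact hx
  | succ n ih =>
    rw [pow_succ', Module.End.mul_apply]
    exact hZ _ ih

/-- a subgroup stable under the `T i` is stable under `projOp`. -/
theorem projOp_mem (T : ι → Module.End ℤ X) (Z : AddSubgroup X) (hZ : ∀ i, ∀ x ∈ Z, T i x ∈ Z)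
    (r : ℕ) (L : List ι) {x : X} (hx : x ∈ Z) : projOp T r L x ∈ Z := by
  induction L with
  | nil => exact hx
  | cons j L ih =>
    rw [projOp, Module.End.mul_apply, LinearMap.sub_apply, Module.End.one_apply]
    exact Z.sub_mem ih (pow_mem_of_stable (T j) Z (hZ j) r ih)

end abs

variable {N : ℕ} [NeZero N] {S : Finset ℕ} {hNS : ∀ r : ℕ, r.Prime → r ∣ N → r ∈ S} {a : ℕ → ℤ}

theorem TT_mem_K1 {q : ℕ} (hq : q.Prime) (hA : A.LiesOverPrime q) (hqS : q ∈ S) (ℓ : GP S)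
    {x : Kum N m} (hx : x ∈ K1 N A m) : TT N m hNS a ℓ x ∈ K1 N A m := by
  have : NeZero ℓ.1 := ⟨ℓ.2.1.ne_zero⟩
  rw [TT_apply, heckeT_apply]
  refine (K1 N A m).sub_mem ?_ ((K1 N A m).zsmul_mem hx _)
  exact inK1_hecke hq hA ℓ.2.1 (ℓ.good hNS).2.2 (fun h => ℓ.2.2 (h ▸ hqS)) hx

theorem TT_mem_of_hecke (Z₀ : AddSubgroup (Kum N m))
    (hZ : ∀ ℓ : GP S, ∀ z ∈ Z₀, heckeT N m (ℓ.good hNS) z ∈ Z₀) (ℓ : GP S)
    {x : Kum N m} (hx : x ∈ Z₀) : TT N m hNS a ℓ x ∈ Z₀ := by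
  rw [TT_apply]
  exact Z₀.sub_mem (hZ ℓ x hx) (Z₀.zsmul_mem hx _)

/-- **the `θ`-projection of a decomposition** `y = k + z`. -/
theorem inK1_of_split {q : ℕ} (hq : q.Prime) (hA : A.LiesOverPrime q) (hqS : q ∈ S) (hm : 0 < m)
    (Z₀ : AddSubgroup (Kum N m))
    (hZ : ∀ ℓ : GP S, ∀ z ∈ Z₀, heckeT N m (ℓ.good hNS) z ∈ Z₀)
    (hZ0 : ∀ z ∈ Z₀, z ∈ Vth N m hNS a → z = 0)
    {y k z : Kum N m} (hy : y ∈ Vth N m hNS a) (h : y = k + z) (hk : InK1 A k) (hz : z ∈ Z₀) :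
    InK1 A y := by
  obtain ⟨L, r, h1, h2, -, -⟩ := exists_thProj (N := N) (hNS := hNS) (a := a) m m hm hm
  have e1 : projOp (TT N m hNS a) r L z = 0 :=
    hZ0 _ (projOp_mem _ Z₀ (fun ℓ x hx => TT_mem_of_hecke Z₀ hZ ℓ hx) r L hz) (h1 z)
  have e2 : projOp (TT N m hNS a) r L k ∈ K1 N A m :=
    projOp_mem _ (K1 N A m) (fun ℓ x hx => TT_mem_K1 hq hA hqS ℓ hx) r L hk
  have e3 : y = projOp (TT N m hNS a) r L k := by
    conv_lhs => rw [← h2 y hy, h, map_add, e1, add_zero]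
  rw [e3]
  exact e2

end

noncomputable section

variable {A : ValuationSubring Qb} {m : ℕ} {M q : ℕ} [NeZero M] [NeZero q]
  {w : FF (M * q) →ₐ[Qb] FF (M * q)} {S : Finset ℕ}
  {hNS : ∀ r : ℕ, r.Prime → r ∣ M * q → r ∈ S} {a : ℕ → ℤ}

/-- **exact (d), last step**: inertia fixes `x`. -/
theorem inv_of_split (hq : q.Prime) (hqM : ¬ q ∣ M) (hqm : ¬ q ∣ m) (hw : IsAL M q w)
    (hA : A.LiesOverPrime q) (hqS : q ∈ S) (hm : 0 < m)
    (hnm : ∀ x ∈ Vth (M * q) m hNS a, nmKum M q m x = 0)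
    (Z₀ : AddSubgroup (Kum (M * q) m))
    (hZ : ∀ ℓ : GP S, ∀ z ∈ Z₀, heckeT (M * q) m (ℓ.good hNS) z ∈ Z₀)
    (hZ0 : ∀ z ∈ Z₀, z ∈ Vth (M * q) m hNS a → z = 0)
    {x k z : Kum (M * q) m} (hx : x ∈ Vth (M * q) m hNS a) (c : ℕ) (hc : Nat.Coprime c m)
    (h : c • x = k + z) (hk : InK1 A k) (hz : z ∈ Z₀)
    {σ : GQ} (hσ : σ ∈ A.inertiaSubgroupIn ℚ) : galKum (M * q) m σ x = x := by
  have hcx : c • x ∈ Vth (M * q) m hNS a := (Vth (M * q) m hNS a).nsmul_mem hx c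
  have h1 : InK1 A (c • x) := inK1_of_split hq hA hqS hm Z₀ hZ hZ0 hcx h hk hz
  have h2 := gal_fixed_of_inK1 hq hqM hqm hw hA hσ h1 (hnm _ hcx)
  rw [map_nsmul] at h2
  -- `c` is invertible modulo `m`
  have h3 : c • (galKum (M * q) m σ x - x) = 0 := by rw [smul_sub, h2, sub_self]
  have h4 : m • (galKum (M * q) m σ x - x) = 0 := Kum.nsmul_eq_zero _
  have h5 : (1 : ℤ) • (galKum (M * q) m σ x - x) = 0 := by
    have hb := Nat.isCoprime_iff_coprime.2 hc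
    obtain ⟨u, v, huv⟩ := hb
    rw [← huv, add_smul, mul_smul, mul_smul, natCast_zsmul, natCast_zsmul, h3, h4, smul_zero,
      smul_zero, add_zero]
  rw [one_smul] at h5
  exact sub_eq_zero.1 h5

end

end Fermat.Agent.S43.DTh
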